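import Fermat.Agent.DS.X1.Good.RamGen

/-!
# PROGRAMME III (S48), X1-GOOD, leaf G-RAM generic, complement (helper21): `F₀ → ℚ̄·F₀`

Complement of helper12's canonical `DS/X1/Good/RamGen.lean` (`JRamData`): the twins of the
`Embedding` and `OverQ` sections of main's `Good/RamDataCharts.lean`, for an ARBITRARY field of
modular functions `F₀ ⊂ ℚ((q))`:

* `toBar F₀ : F₀ →+* laurentBaseChange ℚ̄ F₀` (twin of `RamDesc.fullToBar`), `toBar_injective`,
  `toBar_algebraMap`, `toBar_aeval`;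
* `omegaToBar F₀ ζ hζ : F₀[ω] →+* laurentBaseChange ℚ̄ F₀` (twin of `RamDesc.omegaToBar`),
  `omegaToBar_of`, `omegaToBar_ω`, `omegaToBar_map` (with main's `omegaSigma`);
* `hram_fin_full`, `hram_cusp_full` : the hypothesis `hram` of Abhyankar-lite for a Dedekind model
  `B0` INSIDE `F₀` (`X ↦ jF`, resp. `w ↦ 1/jF`), from
  `D : JRamData Kb (toBar F₀ jF) W` (for `X₁(M)`: `F₀ = K1 M`, `W = M`, `D` = output of AN-6).
-/

set_option autoImplicit false
set_option linter.style.haveILetI false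
set_option linter.unusedVariables false
set_option linter.unusedSectionVars false
set_option synthInstance.maxHeartbeats 400000

open AlgebraicCurve Polynomial ModularCurve

namespace Fermat.Agent.DS.X1.Good.RamGenBar

open Fermat.Agent.X0 Fermat.Agent.Good Fermat.Agent.Good.RamDesc
open Fermat.Agent.DS.X1.Good

section Embedding

variable (F₀ : IntermediateField ℚ (LaurentSeries ℚ))

/-- The embedding `F₀ → ℚ̄·F₀` (coefficientwise `ℚ → ℚ̄` on `q`-expansions); twin of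
`RamDesc.fullToBar`. -/
noncomputable def toBar : ↥F₀ →+* ↥(laurentBaseChange Kb F₀) where
  toFun x := ⟨coeffEmb Kb (x : LaurentSeries ℚ), coeffEmb_mem_laurentBaseChange Kb x.2⟩
  map_one' := Subtype.ext (map_one (coeffEmb Kb))
  map_mul' x y := Subtype.ext (map_mul (coeffEmb Kb) _ _)
  map_zero' := Subtype.ext (map_zero (coeffEmb Kb))
  map_add' x y := Subtype.ext (map_add (coeffEmb Kb) _ _)

theorem coe_toBar (x : ↥F₀) :
    ((toBar F₀ x : ↥(laurentBaseChange Kb F₀)) : LaurentSeries Kb) =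
      coeffEmb Kb (x : LaurentSeries ℚ) := rfl

theorem toBar_injective : Function.Injective (toBar F₀) := (toBar F₀).injective

theorem toBar_algebraMap (c : ℚ) :
    toBar F₀ (algebraMap ℚ ↥F₀ c) =
      algebraMap Kb ↥(laurentBaseChange Kb F₀) (algebraMap ℚ Kb c) := by
  rw [eq_ratCast, eq_ratCast, map_ratCast, map_ratCast]

/-- `toBar` on polynomials in an arbitrary element. -/
theorem toBar_aeval (x : ↥F₀) (p : ℚ[X]) :
    toBar F₀ (aeval x p) = aeval (toBar F₀ x) (p.map (algebraMap ℚ Kb)) := by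
  induction p using Polynomial.induction_on' with
  | add p q hp hq => rw [map_add, map_add, Polynomial.map_add, map_add, hp, hq]
  | monomial n a =>
    rw [← C_mul_X_pow_eq_monomial, map_mul, map_pow, aeval_C, aeval_X, map_mul, map_pow,
      Polynomial.map_mul, Polynomial.map_pow, map_C, map_X, map_mul, map_pow, aeval_C, aeval_X,
      toBar_algebraMap]

/-- The embedding `F₀[ω] → ℚ̄·F₀`, `ω ↦ ζ`, for a root `ζ : ℚ̄` of `X² + X + 1`. -/
noncomputable def omegaToBar (ζ : Kb) (hζ : ζ ^ 2 + ζ + 1 = 0) :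
    OmegaExt ↥F₀ →+* ↥(laurentBaseChange Kb F₀) :=
  AdjoinRoot.lift (toBar F₀) (algebraMap Kb ↥(laurentBaseChange Kb F₀) ζ) (by
    unfold omegaPoly
    rw [eval₂_add, eval₂_add, eval₂_pow, eval₂_X, eval₂_one, ← map_pow, ← map_add, ← map_one
      (algebraMap Kb ↥(laurentBaseChange Kb F₀)), ← map_add, hζ, map_zero])

theorem omegaToBar_of (ζ : Kb) (hζ : ζ ^ 2 + ζ + 1 = 0) (x : ↥F₀) :
    omegaToBar F₀ ζ hζ (AdjoinRoot.of _ x) = toBar F₀ x := by
  unfold omegaToBar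
  exact AdjoinRoot.lift_of _

theorem omegaToBar_ω (ζ : Kb) (hζ : ζ ^ 2 + ζ + 1 = 0) :
    omegaToBar F₀ ζ hζ (OmegaExt.ω _) = algebraMap Kb ↥(laurentBaseChange Kb F₀) ζ := by
  unfold omegaToBar OmegaExt.ω
  exact AdjoinRoot.lift_root _

/-- Compatibility of the two embeddings on constants (`omegaSigma` is main's). -/
theorem omegaToBar_map (ζ : Kb) (hζ : ζ ^ 2 + ζ + 1 = 0) (c : OmegaExt ℚ) :
    omegaToBar F₀ ζ hζ (OmegaExt.map (algebraMap ℚ ↥F₀) c) =
      algebraMap Kb ↥(laurentBaseChange Kb F₀) (omegaSigma ζ hζ c) := by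
  induction c using AdjoinRoot.induction_on with
  | ih p =>
    induction p using Polynomial.induction_on' with
    | add p q hp hq => rw [map_add, map_add, map_add, map_add, map_add, hp, hq]
    | monomial n a =>
      rw [← C_mul_X_pow_eq_monomial, map_mul, map_pow, AdjoinRoot.mk_C, AdjoinRoot.mk_X]
      rw [map_mul, map_pow, map_mul, map_pow, map_mul, map_pow, map_mul, map_pow]
      rw [OmegaExt.map_of, omegaToBar_of, omegaSigma_of, toBar_algebraMap]
      have h1 : AdjoinRoot.root (omegaPoly ℚ) = OmegaExt.ω ℚ := rfl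
      rw [h1, OmegaExt.map_ω, omegaToBar_ω, omegaSigma_ω]

end Embedding

section OverQ

open Kum

variable (F₀ : IntermediateField ℚ (LaurentSeries ℚ)) (jF : ↥F₀) {W : ℕ}
  (D : RamGen.JRamData Kb (toBar F₀ jF) W)

include D

/-- **`hram` for the finite chart over `ℚ`**: `B0` a Dedekind domain inside `F₀`, torsion free
over `ℚ[X]`, `X ↦ jF`. -/
theorem hram_fin_full {B0 : Type*} [CommRing B0] [IsDedekindDomain B0] [Algebra ℚ[X] B0]
    [Module.IsTorsionFree ℚ[X] B0] [Algebra B0 ↥F₀]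
    (hinj : Function.Injective (algebraMap B0 ↥F₀))
    (h : ∀ p : ℚ[X], algebraMap B0 ↥F₀ (algebraMap ℚ[X] B0 p) = aeval jF p)
    {A₁ : Type*} [CommRing A₁] [Algebra ℚ[X] A₁]
    (hcover : ∀ u : A₁, Prime u → ∃ (w0 : ℚ[X]) (m : ℕ) (w : A₁), Irreducible w0 ∧ w0.Monic ∧
      0 < m ∧ algebraMap ℚ[X] A₁ w0 = w * u ^ m ∧ ¬ u ∣ w ∧ (w0 = X → m = 3) ∧
      (w0 = X - C 1728 → m = 2)) :
    ∀ u : A₁, Prime u → ∃ (ϖ : ℚ[X]) (w : A₁) (m : ℕ), Prime ϖ ∧ 0 < m ∧
      algebraMap ℚ[X] A₁ ϖ = w * u ^ m ∧ ¬ u ∣ w ∧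
      ∀ P : Ideal B0, P.IsPrime → algebraMap ℚ[X] B0 ϖ ∈ P → ramCount ϖ P ∣ m := by
  haveI : Algebra.IsAlgebraic ℚ Kb := AlgebraicClosure.isAlgebraic ℚ
  refine RamGen.hram_fin D (algebraMap ℚ Kb)
    ((toBar F₀).comp (algebraMap B0 ↥F₀))
    ((toBar_injective F₀).comp hinj) ?_ ?_ hcover
  · rw [RingHom.comp_apply, h, aeval_X]
  · intro c
    rw [RingHom.comp_apply, h, aeval_C, toBar_algebraMap]

/-- **`hram` for the cusp chart over `ℚ`**: `B0` a Dedekind domain inside `F₀`, torsion free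
over `ℚ[w][1/(1 - 1728 w)]`, `w ↦ 1/jF`; cusp widths `∣ W`. -/
theorem hram_cusp_full {B0 : Type*} [CommRing B0] [IsDedekindDomain B0] [Algebra (LamC ℚ) B0]
    [Module.IsTorsionFree (LamC ℚ) B0] [Algebra B0 ↥F₀]
    (hinj : Function.Injective (algebraMap B0 ↥F₀))
    (h : ∀ p : ℚ[X], algebraMap B0 ↥F₀
      (algebraMap (LamC ℚ) B0 (algebraMap ℚ[X] (LamC ℚ) p)) = aeval jF⁻¹ p)
    {A₁ : Type*} [CommRing A₁] [Algebra (LamC ℚ) A₁]
    (hcover : ∀ u : A₁, Prime u → ∃ (w0 : LamC ℚ) (m : ℕ) (w : A₁), Prime w0 ∧ 0 < m ∧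
      algebraMap (LamC ℚ) A₁ w0 = w * u ^ m ∧ ¬ u ∣ w ∧ (Associated w0 (wLam ℚ) → m = W)) :
    ∀ u : A₁, Prime u → ∃ (ϖ : LamC ℚ) (w : A₁) (m : ℕ), Prime ϖ ∧ 0 < m ∧
      algebraMap (LamC ℚ) A₁ ϖ = w * u ^ m ∧ ¬ u ∣ w ∧
      ∀ P : Ideal B0, P.IsPrime → algebraMap (LamC ℚ) B0 ϖ ∈ P → ramCount ϖ P ∣ m := by
  haveI : Algebra.IsAlgebraic ℚ Kb := AlgebraicClosure.isAlgebraic ℚ
  refine RamGen.hram_cusp D (algebraMap ℚ Kb)
    ((toBar F₀).comp (algebraMap B0 ↥F₀))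
    ((toBar_injective F₀).comp hinj) ?_ ?_ hcover
  · have h1 := h X
    rw [aeval_X] at h1
    show toBar F₀ (algebraMap B0 ↥F₀
      (algebraMap (LamC ℚ) B0 (algebraMap ℚ[X] (LamC ℚ) X))) = (toBar F₀ jF)⁻¹
    rw [h1, map_inv₀]
  · intro c
    rw [RingHom.comp_apply, h, aeval_C, toBar_algebraMap]

end OverQ

end Fermat.Agent.DS.X1.Good.RamGenBar
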