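import Fermat.Agent.Good.H2Cusp
import Fermat.Agent.DS.X1.Good.RamGenBar

/-!
# PROGRAMME III (S48), X1-GOOD, leaf G-2 / (H2c) generic (helper21)

GENERIC-IN-THE-FIELD twin of main's `Good/H2Cusp.lean` (L-GEN node [G-H2C]): the hypothesis (H2)
for the cusp chart in the auxiliary tensor model, for an ARBITRARY field of modular functions
`F₀ ⊂ ℚ((q))` with a `j`-element `jF : F₀` and cusp widths dividing `e`.

Model: `A0' = Kum.LamC ℤ_(ℓ)` acting on `F = F₀` through a given algebra structure with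
`w ↦ 1/jF` (hypothesis `hlam`; for the X₀/X₁ charts this is the twin of `CuspGlue.lamAlgebraFull`),
`R = Kum.RCov ℤ_(ℓ) e` (Kummer cover of index `e`), `E = F ⊗[LamC ℤ_(ℓ)] R`, `L = Frac R`,
`π = covPi e ℓ`.

* `lamQToF F₀ jF htr : LamC ℚ →+* F₀`, `w ↦ 1/jF` (`htr : Transcendental ℚ jF⁻¹`),
  `lamQToF_algebraMap`, `lamQToF_injective`, `lamQToF_lamMap`;
* `transcendental_inv_of_jRamData` : `htr` from the ramification data;
* `hram_rat` : the (RAM) hypothesis of Abhyankar-lite for `A₀ = LamC ℚ`, `A₁ = RCov ℚ e`,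
  `B₀ = integralClosure (LamC ℚ) F₀` from `D : JRamData Kb (toBar F₀ jF) e`;
* `exists_basis_isIntegral_discr_dvd_pow` : **(H2c)**.

Everything about the Kummer cover, Abhyankar-lite and the tensor model is imported from main.
-/

set_option autoImplicit false
set_option linter.style.haveILetI false
set_option linter.unusedSectionVars false
set_option linter.unusedVariables false
set_option synthInstance.maxHeartbeats 400000

open ModularCurve TensorProduct IntermediateField Polynomial Module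
open Fermat.Agent.Igusa Fermat.Agent.Good Fermat.Agent.Good.Kum Fermat.Agent.Good.CuspGlue
open Fermat.Agent.Good.H2Cusp (awayAlgebra awayAlgebra_isScalarTower awayAlgebra_isFractionRing)
open Fermat.Agent.DS.X1.Good Fermat.Agent.DS.X1.Good.RamGenBar

namespace Fermat.Agent.DS.X1.Good.H2CuspGen

section QSide

variable (F₀ : IntermediateField ℚ (LaurentSeries ℚ)) (jF : ↥F₀)

set_option quotPrecheck false in
local notation "F" => ↥F₀

/-- `1 - 1728 / j` is the image of `1 - 1728 X` under `X ↦ 1/j`. -/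
theorem aeval_cLam_rat : aeval jF⁻¹ (cLam ℚ) = 1 - 1728 * jF⁻¹ := by
  rw [cLam, map_sub, map_one, map_mul, aeval_X, aeval_C]
  have : algebraMap ℚ F 1728 = 1728 := map_ofNat (algebraMap ℚ F) 1728
  rw [this]

variable {F₀ jF} in
theorem aeval_cLam_rat_ne_zero (htr : Transcendental ℚ jF⁻¹) : aeval jF⁻¹ (cLam ℚ) ≠ 0 := by
  intro h0
  exact htr ⟨cLam ℚ, cLam_ne_zero ℚ, h0⟩

/-- `LamC ℚ → F₀`, `w ↦ 1/jF`. -/
noncomputable def lamQToF (htr : Transcendental ℚ jF⁻¹) : LamC ℚ →+* F :=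
  IsLocalization.Away.lift (S := LamC ℚ) (cLam ℚ)
    (g := (aeval jF⁻¹ : ℚ[X] →ₐ[ℚ] F).toRingHom) (by
      show IsUnit (aeval jF⁻¹ (cLam ℚ))
      exact isUnit_iff_ne_zero.2 (aeval_cLam_rat_ne_zero htr))

theorem lamQToF_algebraMap (htr : Transcendental ℚ jF⁻¹) (p : ℚ[X]) :
    lamQToF F₀ jF htr (algebraMap ℚ[X] (LamC ℚ) p) = aeval jF⁻¹ p := by
  rw [lamQToF, IsLocalization.Away.lift_eq]
  rfl

/-- The structure of `LamC ℚ`-algebra on `F₀`, `w ↦ 1/jF`; use with `letI`. -/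
@[reducible] noncomputable def lamQAlgebra (htr : Transcendental ℚ jF⁻¹) : Algebra (LamC ℚ) F :=
  (lamQToF F₀ jF htr).toAlgebra

theorem lamQToF_injective (htr : Transcendental ℚ jF⁻¹) :
    Function.Injective (lamQToF F₀ jF htr) := by
  haveI : IsDomain (LamC ℚ) := inferInstance
  rw [injective_iff_map_eq_zero]
  intro a ha
  obtain ⟨⟨p, s⟩, hs⟩ := IsLocalization.surj (Submonoid.powers (cLam ℚ)) a
  simp only at hs
  have h1 : lamQToF F₀ jF htr (algebraMap ℚ[X] (LamC ℚ) p) = 0 := by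
    rw [← hs, map_mul, ha, zero_mul]
  rw [lamQToF_algebraMap] at h1
  have hp : p = 0 := by
    by_contra hp
    exact htr ⟨p, hp, h1⟩
  rw [hp, map_zero] at hs
  have hunit : IsUnit (algebraMap ℚ[X] (LamC ℚ) (s : ℚ[X])) := IsLocalization.map_units _ s
  exact (hunit.mul_left_eq_zero).1 hs

variable (ℓ : ℕ) [Fact ℓ.Prime]

set_option quotPrecheck false in
local notation "ℤℓ" => ↥(GaloisRep.ratLocalizedAt ℓ)

/-- The `LamC ℚ`-structure on `F₀` extends a `LamC ℤ_(ℓ)`-structure with `w ↦ 1/jF`. -/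
theorem lamQToF_lamMap (htr : Transcendental ℚ jF⁻¹) [Algebra (LamC ℤℓ) F]
    (hlam : ∀ p : ℤℓ[X], algebraMap (LamC ℤℓ) F (algebraMap ℤℓ[X] (LamC ℤℓ) p) =
      aeval jF⁻¹ (p.map (algebraMap ℤℓ ℚ))) (a : LamC ℤℓ) :
    lamQToF F₀ jF htr (lamMap (algebraMap ℤℓ ℚ) a) = algebraMap (LamC ℤℓ) F a := by
  have h : (lamQToF F₀ jF htr).comp (lamMap (algebraMap ℤℓ ℚ)) = algebraMap (LamC ℤℓ) F := by
    refine IsLocalization.ringHom_ext (Submonoid.powers (cLam ℤℓ)) (RingHom.ext fun p => ?_)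
    simp only [RingHom.comp_apply]
    rw [lamMap, pawMap_algebraMap, lamQToF_algebraMap, hlam]
  exact RingHom.congr_fun h a

end QSide

section Main

open Fermat.Agent.Good.RamDesc Fermat.Agent.Good.CuspCover Fermat.Agent.X0

variable (F₀ : IntermediateField ℚ (LaurentSeries ℚ)) (jF : ↥F₀) (e : ℕ) [NeZero e]
  (ℓ : ℕ) [Fact ℓ.Prime]

set_option quotPrecheck false in
local notation "F" => ↥F₀

set_option quotPrecheck false in
local notation "ℤℓ" => ↥(GaloisRep.ratLocalizedAt ℓ)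

attribute [local instance] Algebra.TensorProduct.rightAlgebra

omit [NeZero e] in
/-- `1/jF` is transcendental over `ℚ` as soon as `jF` is a separating variable over `ℚ̄`. -/
theorem transcendental_inv_of_jRamData (D : RamGen.JRamData Kb (toBar F₀ jF) e) :
    Transcendental ℚ jF⁻¹ := by
  rintro ⟨p, hp, h0⟩
  have h1 := congrArg (toBar F₀) h0
  rw [toBar_aeval, map_zero, map_inv₀] at h1
  refine RamGen.transcendental_x_inv D ⟨p.map (algebraMap ℚ Kb), ?_, h1⟩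
  exact (Polynomial.map_ne_zero_iff (algebraMap ℚ Kb).injective).mpr hp

attribute [local instance] isDomain_rCov_zl

/-- **The hypothesis `hram` of Abhyankar-lite for the cusp chart over `ℚ`** (Kummer cover
`RCov ℚ e` over `LamC ℚ`, curve side `B₀ = integralClosure (LamC ℚ) F₀`). -/
theorem hram_rat (D : RamGen.JRamData Kb (toBar F₀ jF) e) (htr : Transcendental ℚ jF⁻¹) :
    letI := lamQAlgebra F₀ jF htr
    ∀ [IsDedekindDomain ↥(integralClosure (LamC ℚ) F)]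
      [Module.IsTorsionFree (LamC ℚ) ↥(integralClosure (LamC ℚ) F)],
    ∀ u : RCov ℚ e, Prime u → ∃ (ϖ : LamC ℚ) (w : RCov ℚ e) (m : ℕ), Prime ϖ ∧ 0 < m ∧
      algebraMap (LamC ℚ) (RCov ℚ e) ϖ = w * u ^ m ∧ ¬ u ∣ w ∧
      ∀ P : Ideal ↥(integralClosure (LamC ℚ) F), P.IsPrime →
        algebraMap (LamC ℚ) ↥(integralClosure (LamC ℚ) F) ϖ ∈ P → ramCount ϖ P ∣ m := by
  letI := lamQAlgebra F₀ jF htr
  intro _ _ u hu
  haveI : Algebra.IsAlgebraic ℚ Kb := AlgebraicClosure.isAlgebraic ℚ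
  obtain ⟨g, m, w', hirr, hmon, hc, hprime, hm, hfac, hnd, hN⟩ := Kum.exists_ramData ℚ e u hu
  refine ⟨algebraMap ℚ[X] (LamC ℚ) g, w', m, hprime, hm, hfac, hnd, ?_⟩
  -- the embedding of `B₀` into `ℚ̄·F₀`
  set B₀ := ↥(integralClosure (LamC ℚ) F) with hB₀
  let ι0 : B₀ →+* ↥(laurentBaseChange Kb F₀) := (toBar F₀).comp (algebraMap B₀ F)
  have hι0 : Function.Injective ι0 :=
    (toBar_injective F₀).comp Subtype.val_injective
  let ρ : ℚ →+* B₀ := (algebraMap (LamC ℚ) B₀).comp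
    ((algebraMap ℚ[X] (LamC ℚ)).comp (C : ℚ →+* ℚ[X]))
  have himage : ∀ p : ℚ[X], ι0 (algebraMap (LamC ℚ) B₀ (algebraMap ℚ[X] (LamC ℚ) p)) =
      aeval (toBar F₀ jF)⁻¹ (p.map (algebraMap ℚ Kb)) := by
    intro p
    have h1 : algebraMap B₀ F (algebraMap (LamC ℚ) B₀ (algebraMap ℚ[X] (LamC ℚ) p)) =
        aeval jF⁻¹ p := by
      rw [← IsScalarTower.algebraMap_apply (LamC ℚ) B₀ F]
      exact lamQToF_algebraMap F₀ jF htr p
    show toBar F₀ (algebraMap B₀ F _) = _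
    rw [h1, toBar_aeval, map_inv₀]
  have hg0 : algebraMap ℚ[X] (LamC ℚ) g ≠ 0 := hprime.ne_zero
  by_cases hX : g = X
  · rw [hN hX]
    refine RamGen.ramCount_dvd_width D ι0 hι0 ρ hg0 ?_
    rw [himage, hX, Polynomial.map_X, aeval_X]
  · intro P hP hmem
    have h1 := RamGen.ramCount_eq_one_cusp_of_map D (algebraMap ℚ Kb) ι0 hι0 ρ hg0 g
      hirr.separable
      (Kum.eval_zero_ne_zero ℚ hirr hmon hX)
      (by
        have := Kum.eval_ne_zero_of_not_dvd_cLam ℚ hirr hc (by norm_num)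
        rwa [one_div])
      (himage g) P hP hmem
    rw [h1]
    exact one_dvd m

/-- **(H2c)**: the hypothesis (H2) for the cusp chart, in the auxiliary tensor model
`E = F₀ ⊗[LamC ℤ_(ℓ)] RCov ℤ_(ℓ) e`, `L` any fraction field of `RCov ℤ_(ℓ) e`, `K₀` any fraction
field of `LamC ℤ_(ℓ)` inside `F₀`.  Inputs: the ramification data `D` (cusp widths `∣ e`) and a
faithful `LamC ℤ_(ℓ)`-algebra structure on `F₀` with `w ↦ 1/jF` (`hlam`). -/
theorem exists_basis_isIntegral_discr_dvd_pow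
    (D : RamGen.JRamData Kb (toBar F₀ jF) e)
    [Algebra (LamC ℤℓ) F] [FaithfulSMul (LamC ℤℓ) F]
    (hlam : ∀ p : ℤℓ[X], algebraMap (LamC ℤℓ) F (algebraMap ℤℓ[X] (LamC ℤℓ) p) =
      aeval jF⁻¹ (p.map (algebraMap ℤℓ ℚ)))
    (K₀ : Type*) [Field K₀] [Algebra (LamC ℤℓ) K₀] [IsFractionRing (LamC ℤℓ) K₀] [Algebra K₀ F]
    [IsScalarTower (LamC ℤℓ) K₀ F] [FiniteDimensional K₀ F]
    (L : Type*) [Field L] [Algebra (RCov ℤℓ e) L] [IsFractionRing (RCov ℤℓ e) L]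
    {ι : Type*} [Fintype ι] [DecidableEq ι] (hι : Fintype.card ι = Module.finrank K₀ F) :
    letI := Aux.algebraFrac (LamC ℤℓ) (RCov ℤℓ e) F L
    ∃ c' : Basis ι L (F ⊗[LamC ℤℓ] RCov ℤℓ e), (∀ i, IsIntegral (RCov ℤℓ e) (c' i)) ∧
      ∃ d' : RCov ℤℓ e, algebraMap (RCov ℤℓ e) L d' = Algebra.discr L c' ∧
        ∃ m : ℕ, d' ∣ covPi e ℓ ^ m := by
  classical
  have he : 0 < e := Nat.pos_of_ne_zero (NeZero.ne e)
  have htr : Transcendental ℚ jF⁻¹ := transcendental_inv_of_jRamData F₀ jF e D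
  letI aQ : Algebra (LamC ℚ) F := lamQAlgebra F₀ jF htr
  haveI locQ : IsLocalization.Away (zlPrime ℓ) ℚ := InstOdd.isLocalization_away_zlPrime_rat ℓ
  -- base side: `LamC ℚ = (LamC ℤ_(ℓ))[1/ℓ]`
  letI aLam : Algebra (LamC ℤℓ) (LamC ℚ) := (lamMap (algebraMap ℤℓ ℚ)).toAlgebra
  haveI locLam : IsLocalization.Away (lamConst ℤℓ (zlPrime ℓ)) (LamC ℚ) :=
    isLocalization_away_lamC ℚ (zlPrime ℓ)
  have hπ0 : lamConst ℤℓ (zlPrime ℓ) ≠ 0 := by
    intro h0
    exact Fermat.Agent.Good.H2Cusp.zlPrime_ne_zero ℓ (pawConst_injective (cLam_ne_zero ℤℓ) (h0.trans (map_zero _).symm))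
  letI aK₀ : Algebra (LamC ℚ) K₀ := awayAlgebra (A' := LamC ℚ) (lamConst ℤℓ (zlPrime ℓ)) K₀ hπ0
  haveI tK₀ : IsScalarTower (LamC ℤℓ) (LamC ℚ) K₀ :=
    awayAlgebra_isScalarTower (A' := LamC ℚ) (lamConst ℤℓ (zlPrime ℓ)) K₀ hπ0
  haveI fK₀ : IsFractionRing (LamC ℚ) K₀ :=
    awayAlgebra_isFractionRing (A' := LamC ℚ) (lamConst ℤℓ (zlPrime ℓ)) K₀ hπ0
  haveI tF : IsScalarTower (LamC ℚ) K₀ F := by
    have h : algebraMap (LamC ℚ) F = (algebraMap K₀ F).comp (algebraMap (LamC ℚ) K₀) := by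
      refine IsLocalization.ringHom_ext (Submonoid.powers (lamConst ℤℓ (zlPrime ℓ)))
        (RingHom.ext fun a => ?_)
      simp only [RingHom.comp_apply]
      rw [← IsScalarTower.algebraMap_apply (LamC ℤℓ) (LamC ℚ) K₀,
        ← IsScalarTower.algebraMap_apply (LamC ℤℓ) K₀ F]
      exact lamQToF_lamMap F₀ jF ℓ htr hlam a
    exact IsScalarTower.of_algebraMap_eq fun a => RingHom.congr_fun h a
  haveI pidLam : IsPrincipalIdealRing (LamC ℚ) := isPrincipalIdealRing_paw (cLam ℚ)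
  haveI : CharZero K₀ := (algebraMap K₀ F).charZero
  haveI sep : Algebra.IsSeparable K₀ F := inferInstance
  -- the curve side
  haveI dedB : IsDedekindDomain ↥(integralClosure (LamC ℚ) F) :=
    integralClosure.isDedekindDomain (LamC ℚ) K₀ F
  haveI finB : Module.Finite (LamC ℚ) ↥(integralClosure (LamC ℚ) F) :=
    IsIntegralClosure.finite (LamC ℚ) K₀ F ↥(integralClosure (LamC ℚ) F)
  haveI fracB : IsFractionRing ↥(integralClosure (LamC ℚ) F) F :=
    integralClosure.isFractionRing_of_finite_extension K₀ F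
  haveI : FaithfulSMul (LamC ℚ) F :=
    (faithfulSMul_iff_algebraMap_injective _ _).mpr (lamQToF_injective F₀ jF htr)
  haveI : Module.IsTorsionFree (LamC ℚ) F := inferInstance
  haveI tfB : Module.IsTorsionFree (LamC ℚ) ↥(integralClosure (LamC ℚ) F) :=
    IsIntegralClosure.isTorsionFree (LamC ℚ) F
  -- cover side: `RCov ℚ e = (RCov ℤ_(ℓ) e)[1/ℓ]`
  haveI domA₁ : IsDomain (RCov ℚ e) := isDomain_rCov ℚ he
  haveI pidA₁ : IsPrincipalIdealRing (RCov ℚ e) := isPrincipalIdealRing_paw (cCov ℚ e)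
  letI aCov : Algebra (RCov ℤℓ e) (RCov ℚ e) := (covMap e (algebraMap ℤℓ ℚ)).toAlgebra
  haveI locCov : IsLocalization.Away (covPi e ℓ) (RCov ℚ e) := by
    rw [covPi_eq_covConst]
    exact isLocalization_away_rCov e ℚ (zlPrime ℓ)
  have hπ : covPi e ℓ ≠ 0 := (prime_covPi e ℓ).ne_zero
  letI aA₁L : Algebra (RCov ℚ e) L := awayAlgebra (A' := RCov ℚ e) (covPi e ℓ) L hπ
  haveI tA₁L : IsScalarTower (RCov ℤℓ e) (RCov ℚ e) L :=
    awayAlgebra_isScalarTower (A' := RCov ℚ e) (covPi e ℓ) L hπ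
  haveI fA₁L : IsFractionRing (RCov ℚ e) L :=
    awayAlgebra_isFractionRing (A' := RCov ℚ e) (covPi e ℓ) L hπ
  letI aA0'A₁ : Algebra (LamC ℤℓ) (RCov ℚ e) :=
    ((algebraMap (LamC ℚ) (RCov ℚ e)).comp (algebraMap (LamC ℤℓ) (LamC ℚ))).toAlgebra
  haveI t1 : IsScalarTower (LamC ℤℓ) (LamC ℚ) (RCov ℚ e) := .of_algebraMap_eq fun _ => rfl
  haveI t2 : IsScalarTower (LamC ℤℓ) (RCov ℤℓ e) (RCov ℚ e) := .of_algebraMap_eq fun a => by
    show algebraMap (LamC ℚ) (RCov ℚ e) (lamMap (algebraMap ℤℓ ℚ) a) =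
      covMap e (algebraMap ℤℓ ℚ) (algebraMap (LamC ℤℓ) (RCov ℤℓ e) a)
    rw [covMap_algebraMap]
  exact H2T.exists_basis_tensor_isIntegral_discr_dvd_pow (LamC ℤℓ) (RCov ℤℓ e) F L ℚ
    ↥(integralClosure (LamC ℚ) F) K₀ (covPi e ℓ) (hram_rat F₀ jF e D htr) hι

end Main

end Fermat.Agent.DS.X1.Good.H2CuspGen
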