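import Mathlib
import Fermat.Agent.Good.CurveSideRam

/-!
# PROGRAMME III, X1-GOOD, leaf `G-RAM` generic: the (RAM) hypotheses from place-level data

Field-generic twin of main's `Good/{RamDataDescended (Concrete), RamDataCharts (FinChart,
CuspChart), CurveSideRam}`, which are stated for `Fb N` / `jBar N` only.

`JRamData Kc x W` packages what the analytic side (AN-6, helper6's `DS/X1/Places/Final.lean`)
proves for a function field `F / Kc` with `j`-element `x`:

* `x` is a separating variable;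
* `0 < ord_v x → ord_v x ∣ 3`, `0 < ord_v (x - 1728) → ord_v (x - 1728) ∣ 2`,
  `ord_v (x - a) ≤ 1` for `a ≠ 0, 1728`, `ord_v x < 0 → - ord_v x ∣ W`.

From it: the `ramCount` statements on ANY Dedekind model `B0 ↪ F` (`ramCount_dvd_three`,
`ramCount_dvd_two`, `ramCount_dvd_width`, `ramCount_eq_one_fin`, `ramCount_eq_one_cusp`), the
chart forms (`ramCount_dvd_fin`, `hram_fin`, `ramCount_dvd_cusp`, `hram_cusp`) and the three
curve-side hypotheses `hX`, `h1728`, `hgen` of `H2C.exists_basis_isIntegral_discr_dvd_pow`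
(`ramCount_X_dvd_three`, `ramCount_X_sub_dvd_two`, `ramCount_generic_eq_one`).

`jRamData_Fb N : JRamData Kb (jBar N) N` is the sanity instance (main's `X₀(N)`).
-/

set_option autoImplicit false
set_option linter.style.haveILetI false
set_option linter.unusedVariables false
set_option linter.unusedSectionVars false
set_option synthInstance.maxHeartbeats 400000

open AlgebraicCurve Polynomial

namespace Fermat.Agent.DS.X1.Good.RamGen

open Fermat.Agent.X0 Fermat.Agent.Good Fermat.Agent.Good.RamDesc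

/-- **Place-level ramification data of the `j`-element `x` of a function field `F / Kc`**
(the output of AN-6), width `W` at the cusps. -/
structure JRamData (Kc : Type*) {F : Type*} [Field Kc] [Field F] [Algebra Kc F] (x : F) (W : ℕ) :
    Prop where
  sepVar : ∃ n : ℕ, IsSepVar Kc x n
  ord_dvd_three : ∀ v : Place Kc F, 0 < v.ord x → v.ord x ∣ (3 : ℤ)
  ord_sub_dvd_two : ∀ v : Place Kc F, 0 < v.ord (x - algebraMap Kc F 1728) →
    v.ord (x - algebraMap Kc F 1728) ∣ (2 : ℤ)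
  ord_sub_le_one : ∀ (v : Place Kc F) (a : Kc), a ≠ 0 → a ≠ 1728 →
    v.ord (x - algebraMap Kc F a) ≤ 1
  neg_ord_dvd_width : ∀ v : Place Kc F, v.ord x < 0 → (- v.ord x) ∣ (W : ℤ)

/-- Sanity instance: main's `X₀(N)` over `ℚ̄`. -/
theorem jRamData_Fb (N : ℕ) [NeZero N] : JRamData Kb (jBar N) N where
  sepVar := ⟨_, jBar_isSepVar N⟩
  ord_dvd_three := Fermat.Agent.Good.RamBar.ord_jBar_dvd_three N
  ord_sub_dvd_two := Fermat.Agent.Good.RamBar.ord_jBar_sub_1728_dvd_two N
  ord_sub_le_one := Fermat.Agent.Good.RamBar.ord_jBar_sub_le_one' N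
  neg_ord_dvd_width := Fermat.Agent.Good.RamBar.neg_ord_jBar_dvd_level N

section Concrete

variable {Kc F : Type*} [Field Kc] [Field F] [Algebra Kc F] {x : F} {W : ℕ}
  (D : JRamData Kc x W)

include D

/-- Every valuation subring of `F` over `Kc`, other than `F`, is principal. -/
theorem hplace [CharZero Kc] (V : ValuationSubring F) (hK : ∀ a : Kc, algebraMap Kc F a ∈ V)
    (hV : V ≠ ⊤) : IsPrincipalIdealRing V := by
  obtain ⟨n, hn⟩ := D.sepVar
  exact isPrincipalIdealRing_of_isSepVar hn V hK hV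

theorem transcendental_x : Transcendental Kc x := by
  obtain ⟨n, hn⟩ := D.sepVar
  exact hn.transcendental

theorem transcendental_x_inv : Transcendental Kc x⁻¹ := by
  obtain ⟨n, hn⟩ := D.sepVar
  exact (isSepVar_inv hn).transcendental

theorem x_ne_zero : x ≠ 0 := fun h0 =>
  transcendental_x D (h0 ▸ isAlgebraic_zero)

/-- `1/x` is unramified outside `0, 1/1728` (and `∞`). -/
theorem ord_inv_sub_le_one (v : Place Kc F) (b : Kc) (h0 : b ≠ 0)
    (h1 : b * 1728 ≠ 1) : v.ord (x⁻¹ - algebraMap Kc F b) ≤ 1 := by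
  have hj0 := x_ne_zero D
  have hb' : algebraMap Kc F b ≠ 0 := (_root_.map_ne_zero _).2 h0
  have hbinv : b⁻¹ ≠ 0 := inv_ne_zero h0
  have hb1728 : b⁻¹ ≠ 1728 := by
    intro h
    apply h1
    rw [← h, mul_inv_cancel₀ h0]
  have hne : x - algebraMap Kc F b⁻¹ ≠ 0 := fun h => by
    apply transcendental_x D
    rw [sub_eq_zero.1 h]
    exact isAlgebraic_algebraMap _
  have hkey : x⁻¹ - algebraMap Kc F b =
      algebraMap Kc F (-b) * ((x - algebraMap Kc F b⁻¹) * x⁻¹) := by
    rw [map_neg, map_inv₀]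
    field_simp
    ring
  have hnb : algebraMap Kc F (-b) ≠ 0 := (_root_.map_ne_zero _).2 (neg_ne_zero.2 h0)
  rw [hkey, v.ord_mul hnb (mul_ne_zero hne (inv_ne_zero hj0)), Place.ord_algebraMap, zero_add,
    v.ord_mul hne (inv_ne_zero hj0), v.ord_inv]
  rcases lt_trichotomy (v.ord x) 0 with hneg | hzero | hpos
  · -- pole of `x`: `ord (x - 1/b) = ord x`
    have h2 : v.ord (x - algebraMap Kc F b⁻¹) = v.ord x := by
      have hc : algebraMap Kc F (-b⁻¹) ≠ 0 := (_root_.map_ne_zero _).2 (neg_ne_zero.2 hbinv)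
      have := Place.ord_add_eq_of_lt v hj0 hc (by rw [Place.ord_algebraMap]; exact hneg)
      rw [map_neg, ← sub_eq_add_neg] at this
      exact this
    rw [h2]
    omega
  · have h2 := D.ord_sub_le_one v b⁻¹ hbinv hb1728
    omega
  · have h2 : v.ord (x - algebraMap Kc F b⁻¹) = 0 := by
      have := Place.ord_add_algebraMap_of_pos v hpos (neg_ne_zero.2 hbinv)
      rw [map_neg, ← sub_eq_add_neg] at this
      exact this
    rw [h2]
    omega

variable {A0 B0 : Type*} [CommRing A0] [IsDomain A0] [CommRing B0] [IsDedekindDomain B0]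
  [Algebra A0 B0] [Module.IsTorsionFree A0 B0]

omit D [IsDedekindDomain B0] [IsDomain A0] [Module.IsTorsionFree A0 B0] [Algebra A0 B0]
  [CommRing A0] in
/-- The constants (algebraic over `ℚ`) are integral over any `ℚ`-algebra mapping to `F`. -/
theorem isIntegral_const [CharZero Kc] [Algebra.IsAlgebraic ℚ Kc] (ι : B0 →+* F)
    (ρ : ℚ →+* B0) (a : Kc) :
    letI : Algebra B0 F := ι.toAlgebra
    IsIntegral B0 (algebraMap Kc F a) := by
  letI : Algebra B0 F := ι.toAlgebra
  have ha : IsIntegral ℚ a := (Algebra.IsAlgebraic.isAlgebraic a).isIntegral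
  exact IsIntegral.map_of_comp_eq ρ (algebraMap Kc F) (Subsingleton.elim _ _) ha

variable [CharZero Kc] [Algebra.IsAlgebraic ℚ Kc]

/-- **(RAM) over `j = 0`**: the ramification indices divide `3`. -/
theorem ramCount_dvd_three (ι : B0 →+* F) (hι : Function.Injective ι) (ρ : ℚ →+* B0)
    {ϖ : A0} (h0 : ϖ ≠ 0) (hϖ : ι (algebraMap A0 B0 ϖ) = x) :
    ∀ P : Ideal B0, P.IsPrime → algebraMap A0 B0 ϖ ∈ P → ramCount ϖ P ∣ 3 := by
  letI : Algebra B0 F := ι.toAlgebra
  refine ramCount_dvd_of_forall_place (K := Kc) (F := F) hι (isIntegral_const ι ρ)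
    (hplace D) h0 3 ?_
  intro v hv
  have h1 : algebraMap B0 F (algebraMap A0 B0 ϖ) = x := hϖ
  rw [h1] at hv ⊢
  exact_mod_cast D.ord_dvd_three v hv

/-- **(RAM) over `j = 1728`**: the ramification indices divide `2`. -/
theorem ramCount_dvd_two (ι : B0 →+* F) (hι : Function.Injective ι) (ρ : ℚ →+* B0)
    {ϖ : A0} (h0 : ϖ ≠ 0) (hϖ : ι (algebraMap A0 B0 ϖ) = x - 1728) :
    ∀ P : Ideal B0, P.IsPrime → algebraMap A0 B0 ϖ ∈ P → ramCount ϖ P ∣ 2 := by
  letI : Algebra B0 F := ι.toAlgebra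
  refine ramCount_dvd_of_forall_place (K := Kc) (F := F) hι (isIntegral_const ι ρ)
    (hplace D) h0 2 ?_
  intro v hv
  have h1 : algebraMap B0 F (algebraMap A0 B0 ϖ) = x - algebraMap Kc F 1728 := by
    rw [map_ofNat]
    exact hϖ
  rw [h1] at hv ⊢
  exact_mod_cast D.ord_sub_dvd_two v hv

/-- **(RAM) over `j = ∞`**: the ramification indices divide the width `W`. -/
theorem ramCount_dvd_width (ι : B0 →+* F) (hι : Function.Injective ι) (ρ : ℚ →+* B0)
    {ϖ : A0} (h0 : ϖ ≠ 0) (hϖ : ι (algebraMap A0 B0 ϖ) = x⁻¹) :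
    ∀ P : Ideal B0, P.IsPrime → algebraMap A0 B0 ϖ ∈ P → ramCount ϖ P ∣ W := by
  letI : Algebra B0 F := ι.toAlgebra
  refine ramCount_dvd_of_forall_place (K := Kc) (F := F) hι (isIntegral_const ι ρ)
    (hplace D) h0 W ?_
  intro v hv
  have h1 : algebraMap B0 F (algebraMap A0 B0 ϖ) = x⁻¹ := hϖ
  rw [h1] at hv ⊢
  rw [v.ord_inv] at hv ⊢
  exact D.neg_ord_dvd_width v (by omega)

variable [IsAlgClosed Kc]

/-- **(RAM) at a generic value, finite chart**: `g(x)` is unramified if `g` is separable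
without the roots `0` and `1728`. -/
theorem ramCount_eq_one_fin (ι : B0 →+* F) (hι : Function.Injective ι) (ρ : ℚ →+* B0)
    {ϖ : A0} (h0 : ϖ ≠ 0) (g : Kc[X]) (hg : g.Separable) (hg0 : g.eval 0 ≠ 0)
    (hg1 : g.eval 1728 ≠ 0) (hϖ : ι (algebraMap A0 B0 ϖ) = aeval x g) :
    ∀ P : Ideal B0, P.IsPrime → algebraMap A0 B0 ϖ ∈ P → ramCount ϖ P = 1 := by
  letI : Algebra B0 F := ι.toAlgebra
  refine ramCount_eq_one_of_forall_place (K := Kc) (F := F) hι (isIntegral_const ι ρ)
    (hplace D) h0 ?_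
  intro v
  have h1 : algebraMap B0 F (algebraMap A0 B0 ϖ) = aeval x g := hϖ
  rw [h1]
  refine ord_aeval_le_one v (transcendental_x D) g hg ?_
  intro a ha
  refine D.ord_sub_le_one v a ?_ ?_
  · rintro rfl
    exact hg0 ha
  · rintro rfl
    exact hg1 ha

/-- **(RAM) at a generic value, cusp chart**: `g(1/x)` is unramified if `g` is separable
without the roots `0` and `1/1728`. -/
theorem ramCount_eq_one_cusp (ι : B0 →+* F) (hι : Function.Injective ι) (ρ : ℚ →+* B0)
    {ϖ : A0} (h0 : ϖ ≠ 0) (g : Kc[X]) (hg : g.Separable) (hg0 : g.eval 0 ≠ 0)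
    (hg1 : ∀ b : Kc, b * 1728 = 1 → g.eval b ≠ 0)
    (hϖ : ι (algebraMap A0 B0 ϖ) = aeval x⁻¹ g) :
    ∀ P : Ideal B0, P.IsPrime → algebraMap A0 B0 ϖ ∈ P → ramCount ϖ P = 1 := by
  letI : Algebra B0 F := ι.toAlgebra
  refine ramCount_eq_one_of_forall_place (K := Kc) (F := F) hι (isIntegral_const ι ρ)
    (hplace D) h0 ?_
  intro v
  have h1 : algebraMap B0 F (algebraMap A0 B0 ϖ) = aeval x⁻¹ g := hϖ
  rw [h1]
  refine ord_aeval_le_one v (transcendental_x_inv D) g hg ?_
  intro b hb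
  refine ord_inv_sub_le_one D v b ?_ ?_
  · rintro rfl
    exact hg0 hb
  · intro hb1
    exact hg1 b hb1 hb

section SmallField

variable {k : Type*} [Field k] (σ : k →+* Kc)

/-- Finite chart, `g` over a small field `k ⊆ Kc`. -/
theorem ramCount_eq_one_fin_of_map (ι : B0 →+* F) (hι : Function.Injective ι) (ρ : ℚ →+* B0)
    {ϖ : A0} (h0 : ϖ ≠ 0) (g : k[X]) (hg : g.Separable) (hg0 : g.eval 0 ≠ 0)
    (hg1 : g.eval 1728 ≠ 0) (hϖ : ι (algebraMap A0 B0 ϖ) = aeval x (g.map σ)) :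
    ∀ P : Ideal B0, P.IsPrime → algebraMap A0 B0 ϖ ∈ P → ramCount ϖ P = 1 := by
  refine ramCount_eq_one_fin D ι hι ρ h0 (g.map σ) hg.map ?_ ?_ hϖ
  · have : (g.map σ).eval 0 = σ (g.eval 0) := by
      rw [← map_zero σ, eval_map_apply]
    rw [this]
    exact (_root_.map_ne_zero σ).2 hg0
  · have : (g.map σ).eval 1728 = σ (g.eval 1728) := by
      rw [← map_ofNat σ 1728, eval_map_apply]
    rw [this]
    exact (_root_.map_ne_zero σ).2 hg1

/-- Cusp chart, `g` over a small field `k ⊆ Kc`. -/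
theorem ramCount_eq_one_cusp_of_map (ι : B0 →+* F) (hι : Function.Injective ι)
    (ρ : ℚ →+* B0) {ϖ : A0} (h0 : ϖ ≠ 0) (g : k[X]) (hg : g.Separable) (hg0 : g.eval 0 ≠ 0)
    (hg1 : g.eval (1 / 1728) ≠ 0) (hϖ : ι (algebraMap A0 B0 ϖ) = aeval x⁻¹ (g.map σ)) :
    ∀ P : Ideal B0, P.IsPrime → algebraMap A0 B0 ϖ ∈ P → ramCount ϖ P = 1 := by
  refine ramCount_eq_one_cusp D ι hι ρ h0 (g.map σ) hg.map ?_ ?_ hϖ
  · have : (g.map σ).eval 0 = σ (g.eval 0) := by
      rw [← map_zero σ, eval_map_apply]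
    rw [this]
    exact (_root_.map_ne_zero σ).2 hg0
  · intro b hb
    have hb' : b = σ (1 / 1728) := by
      rw [map_div₀, map_one, map_ofNat, eq_div_iff (by norm_num)]
      exact hb
    rw [hb', eval_map_apply]
    exact (_root_.map_ne_zero σ).2 hg1

end SmallField

end Concrete

section FinChart

variable {Kc F : Type*} [Field Kc] [Field F] [Algebra Kc F] {x : F} {W : ℕ}
  (D : JRamData Kc x W) [CharZero Kc] [Algebra.IsAlgebraic ℚ Kc] [IsAlgClosed Kc]
  {K : Type*} [Field K] (σ : K →+* Kc)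
  {B0 : Type*} [CommRing B0] [IsDedekindDomain B0] [Algebra K[X] B0]
  [Module.IsTorsionFree K[X] B0]

omit [CharZero Kc] [Algebra.IsAlgebraic ℚ Kc] [IsAlgClosed Kc] [IsDedekindDomain B0]
  [Module.IsTorsionFree K[X] B0] in
/-- The image of a polynomial in `F` is the polynomial in `y`. -/
theorem map_algebraMap_eq_aeval (ι : B0 →+* F) {y : F}
    (hιX : ι (algebraMap K[X] B0 X) = y)
    (hιC : ∀ c : K, ι (algebraMap K[X] B0 (C c)) = algebraMap Kc F (σ c)) (p : K[X]) :
    ι (algebraMap K[X] B0 p) = aeval y (p.map σ) := by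
  induction p using Polynomial.induction_on' with
  | add p q hp hq => rw [map_add, map_add, Polynomial.map_add, map_add, hp, hq]
  | monomial n a =>
    rw [← C_mul_X_pow_eq_monomial, map_mul, map_pow, map_mul, map_pow, hιX, hιC,
      Polynomial.map_mul, Polynomial.map_pow, map_C, map_X, map_mul, map_pow, aeval_C, aeval_X]

include D

/-- **(RAM) for the finite chart.**  `B0` a Dedekind domain, torsion free over `K[X]`, inside
`F` with `X ↦ x`.  For a monic irreducible `w0 : K[X]` (`K` of characteristic `0`) and `m` with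
`m = 3` if `w0 = X`, `m = 2` if `w0 = X - 1728`: `ramCount w0 P ∣ m` for all primes `P ∋ w0`. -/
theorem ramCount_dvd_fin [CharZero K] (ι : B0 →+* F) (hι : Function.Injective ι)
    (hιX : ι (algebraMap K[X] B0 X) = x)
    (hιC : ∀ c : K, ι (algebraMap K[X] B0 (C c)) = algebraMap Kc F (σ c))
    {w0 : K[X]} (hirr : Irreducible w0) (hmon : w0.Monic) (m : ℕ) (h3 : w0 = X → m = 3)
    (h2 : w0 = X - C 1728 → m = 2) :
    ∀ P : Ideal B0, P.IsPrime → algebraMap K[X] B0 w0 ∈ P → ramCount w0 P ∣ m := by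
  let ρ : ℚ →+* B0 := (algebraMap K[X] B0).comp (C.comp (algebraMap ℚ K))
  have hw0 : w0 ≠ 0 := hirr.ne_zero
  by_cases hX : w0 = X
  · rw [h3 hX]
    refine ramCount_dvd_three D ι hι ρ hw0 ?_
    rw [hX]
    exact hιX
  by_cases hX2 : w0 = X - C 1728
  · rw [h2 hX2]
    refine ramCount_dvd_two D ι hι ρ hw0 ?_
    rw [hX2, map_sub, map_sub, hιX, hιC, map_ofNat, map_ofNat]
  · intro P hP hmem
    have h1 := ramCount_eq_one_fin_of_map D σ ι hι ρ hw0 w0 hirr.separable
      (fun h0 => hX (by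
        have := eq_X_sub_C_of_eval_eq_zero hirr hmon h0
        rwa [C_0, sub_zero] at this))
      (fun h0 => hX2 (eq_X_sub_C_of_eval_eq_zero hirr hmon h0))
      (map_algebraMap_eq_aeval σ ι hιX hιC w0) P hP hmem
    rw [h1]
    exact one_dvd m

/-- **The hypothesis `hram` of Abhyankar-lite for the finite chart**, from the cover side
(`RigidCover.exists_ramData`). -/
theorem hram_fin [CharZero K] (ι : B0 →+* F) (hι : Function.Injective ι)
    (hιX : ι (algebraMap K[X] B0 X) = x)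
    (hιC : ∀ c : K, ι (algebraMap K[X] B0 (C c)) = algebraMap Kc F (σ c))
    {A₁ : Type*} [CommRing A₁] [Algebra K[X] A₁]
    (hcover : ∀ u : A₁, Prime u → ∃ (w0 : K[X]) (m : ℕ) (w : A₁), Irreducible w0 ∧ w0.Monic ∧
      0 < m ∧ algebraMap K[X] A₁ w0 = w * u ^ m ∧ ¬ u ∣ w ∧ (w0 = X → m = 3) ∧
      (w0 = X - C 1728 → m = 2)) :
    ∀ u : A₁, Prime u → ∃ (ϖ : K[X]) (w : A₁) (m : ℕ), Prime ϖ ∧ 0 < m ∧
      algebraMap K[X] A₁ ϖ = w * u ^ m ∧ ¬ u ∣ w ∧
      ∀ P : Ideal B0, P.IsPrime → algebraMap K[X] B0 ϖ ∈ P → ramCount ϖ P ∣ m := by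
  intro u hu
  obtain ⟨w0, m, w, hirr, hmon, hm, hfac, hndvd, h3, h2⟩ := hcover u hu
  exact ⟨w0, w, m, hirr.prime, hm, hfac, hndvd,
    ramCount_dvd_fin D σ ι hι hιX hιC hirr hmon m h3 h2⟩

end FinChart

section CuspChart

open Fermat.Agent.Good.Kum

variable {Kc F : Type*} [Field Kc] [Field F] [Algebra Kc F] {x : F} {W : ℕ}
  (D : JRamData Kc x W) [CharZero Kc] [Algebra.IsAlgebraic ℚ Kc] [IsAlgClosed Kc]
  {K : Type*} [Field K] (σ : K →+* Kc)
  {B0 : Type*} [CommRing B0] [IsDedekindDomain B0] [Algebra (LamC K) B0]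
  [Module.IsTorsionFree (LamC K) B0]

include D

/-- **(RAM) for the cusp chart.**  `B0` a Dedekind domain, torsion free over
`K[w][1/(1 - 1728 w)]`, inside `F` with `w ↦ 1/x`.  For a prime `w0` and `m` with `m = W` if
`w0 ∼ w`: `ramCount w0 P ∣ m` for all primes `P ∋ w0`. -/
theorem ramCount_dvd_cusp [CharZero K] (ι : B0 →+* F) (hι : Function.Injective ι)
    (hιw : ι (algebraMap (LamC K) B0 (wLam K)) = x⁻¹)
    (hιC : ∀ c : K, ι (algebraMap (LamC K) B0 (algebraMap K[X] (LamC K) (C c))) =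
      algebraMap Kc F (σ c))
    {w0 : LamC K} (hw0 : Prime w0) (m : ℕ) (hN : Associated w0 (wLam K) → m = W) :
    ∀ P : Ideal B0, P.IsPrime → algebraMap (LamC K) B0 w0 ∈ P → ramCount w0 P ∣ m := by
  let ρ : ℚ →+* B0 :=
    (algebraMap (LamC K) B0).comp ((algebraMap K[X] (LamC K)).comp (C.comp (algebraMap ℚ K)))
  obtain ⟨g, hg, hassoc⟩ :=
    exists_prime_associated_of_isLocalization (Submonoid.powers (cLam K)) hw0
  have hirr : Irreducible g := hg.irreducible
  have hg0 : algebraMap K[X] (LamC K) g ≠ 0 := fun h0 => by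
    rw [h0] at hassoc
    exact hw0.ne_zero ((associated_zero_iff_eq_zero _).1 hassoc)
  -- the image of a polynomial in `F`
  have himage : ∀ p : K[X], ι (algebraMap (LamC K) B0 (algebraMap K[X] (LamC K) p)) =
      aeval x⁻¹ (p.map σ) := by
    intro p
    induction p using Polynomial.induction_on' with
    | add p q hp hq => rw [map_add, map_add, map_add, Polynomial.map_add, map_add, hp, hq]
    | monomial n a =>
      have hX : ι (algebraMap (LamC K) B0 (algebraMap K[X] (LamC K) X)) = x⁻¹ := hιw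
      rw [← C_mul_X_pow_eq_monomial, map_mul, map_pow, map_mul, map_pow, map_mul, map_pow, hX,
        hιC, Polynomial.map_mul, Polynomial.map_pow, map_C, map_X, map_mul, map_pow, aeval_C,
        aeval_X]
  intro P hP hmem
  rw [ramCount_eq_of_associated hassoc P]
  rw [algebraMap_mem_iff_of_associated hassoc P] at hmem
  by_cases h0 : g.eval 0 = 0
  · -- `g ∼ X`, `w0 ∼ w`
    have h1 : Associated (X : K[X]) g := by
      have := associated_X_sub_C_of_eval_eq_zero hirr h0
      rwa [C_0, sub_zero] at this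
    have h2 : Associated (wLam K) (algebraMap K[X] (LamC K) g) := h1.map (algebraMap K[X] (LamC K))
    have hm : m = W := hN (hassoc.trans h2.symm)
    rw [hm, ← ramCount_eq_of_associated h2 P]
    rw [← algebraMap_mem_iff_of_associated h2 P] at hmem
    have hw0' : wLam K ≠ 0 := fun h => hg0 (by
      rw [h] at h2
      exact (associated_zero_iff_eq_zero _).1 h2.symm)
    exact ramCount_dvd_width D ι hι ρ hw0' hιw P hP hmem
  by_cases h1 : g.eval (1 / 1728) = 0
  · -- `g ∼ 1 - 1728 X`: a unit of `LamC K`, impossible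
    exfalso
    have h2 : Associated (X - C (1 / 1728 : K)) g := associated_X_sub_C_of_eval_eq_zero hirr h1
    have h3 : Associated (X - C (1 / 1728 : K)) (cLam K) := by
      have hu : IsUnit (C (-1728 : K)) := by
        rw [Polynomial.isUnit_iff]
        exact ⟨-1728, (by norm_num : (-1728 : K) ≠ 0).isUnit, rfl⟩
      refine ⟨hu.unit, ?_⟩
      show (X - C (1 / 1728 : K)) * C (-1728 : K) = cLam K
      unfold cLam
      rw [sub_mul, ← C_mul, show (1 / 1728 : K) * (-1728) = -1 by norm_num]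
      simp only [map_neg, map_one, map_ofNat]
      ring
    have h4 : Associated (algebraMap K[X] (LamC K) g) (algebraMap K[X] (LamC K) (cLam K)) :=
      (h2.symm.trans h3).map (algebraMap K[X] (LamC K))
    have h5 : IsUnit (algebraMap K[X] (LamC K) (cLam K)) := isUnit_algebraMap_paw (cLam K)
    exact hw0.not_isUnit ((hassoc.trans h4).isUnit_iff.2 h5)
  · have h2 := ramCount_eq_one_cusp_of_map D σ ι hι ρ hg0 g hirr.separable h0 h1 (himage g) P hP
      hmem
    rw [h2]
    exact one_dvd m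

/-- **The hypothesis `hram` of Abhyankar-lite for the cusp chart**, from the cover side
(ramification data of the Kummer cover). -/
theorem hram_cusp [CharZero K] (ι : B0 →+* F) (hι : Function.Injective ι)
    (hιw : ι (algebraMap (LamC K) B0 (wLam K)) = x⁻¹)
    (hιC : ∀ c : K, ι (algebraMap (LamC K) B0 (algebraMap K[X] (LamC K) (C c))) =
      algebraMap Kc F (σ c))
    {A₁ : Type*} [CommRing A₁] [Algebra (LamC K) A₁]
    (hcover : ∀ u : A₁, Prime u → ∃ (w0 : LamC K) (m : ℕ) (w : A₁), Prime w0 ∧ 0 < m ∧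
      algebraMap (LamC K) A₁ w0 = w * u ^ m ∧ ¬ u ∣ w ∧ (Associated w0 (wLam K) → m = W)) :
    ∀ u : A₁, Prime u → ∃ (ϖ : LamC K) (w : A₁) (m : ℕ), Prime ϖ ∧ 0 < m ∧
      algebraMap (LamC K) A₁ ϖ = w * u ^ m ∧ ¬ u ∣ w ∧
      ∀ P : Ideal B0, P.IsPrime → algebraMap (LamC K) B0 ϖ ∈ P → ramCount ϖ P ∣ m := by
  intro u hu
  obtain ⟨w0, m, w, hw0, hm, hfac, hndvd, hN⟩ := hcover u hu
  exact ⟨w0, w, m, hw0, hm, hfac, hndvd, ramCount_dvd_cusp D σ ι hι hιw hιC hw0 m hN⟩

end CuspChart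

section CurveSide

variable {Kc F : Type*} [Field Kc] [Field F] [Algebra Kc F] {x : F} {W : ℕ}
  (D : JRamData Kc x W) [CharZero Kc] [Algebra.IsAlgebraic ℚ Kc] [IsAlgClosed Kc]
  {K : Type*} [Field K] [CharZero K] (σ : K →+* Kc)
  {B₀ : Type*} [CommRing B₀] [IsDedekindDomain B₀] [Algebra K[X] B₀]
  [Module.IsTorsionFree K[X] B₀]
  (ι : B₀ →+* F) (hι : Function.Injective ι)
  (hιp : ∀ g : K[X], ι (algebraMap K[X] B₀ g) = aeval x (g.map σ))

include D hι hιp

omit D [CharZero Kc] [Algebra.IsAlgebraic ℚ Kc] [IsAlgClosed Kc] [CharZero K]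
  [IsDedekindDomain B₀] [Module.IsTorsionFree K[X] B₀] hι in
theorem map_X : ι (algebraMap K[X] B₀ X) = x := by
  rw [hιp, Polynomial.map_X, aeval_X]

omit D [CharZero Kc] [Algebra.IsAlgebraic ℚ Kc] [IsAlgClosed Kc] [CharZero K]
  [IsDedekindDomain B₀] [Module.IsTorsionFree K[X] B₀] hι in
theorem map_C (c : K) : ι (algebraMap K[X] B₀ (C c)) = algebraMap Kc F (σ c) := by
  rw [hιp, Polynomial.map_C, aeval_C]

/-- `hX` of `H2C.exists_basis_isIntegral_discr_dvd_pow`. -/
theorem ramCount_X_dvd_three :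
    ∀ Q : Ideal B₀, Q.IsPrime → algebraMap K[X] B₀ X ∈ Q → ramCount (X : K[X]) Q ∣ 3 :=
  ramCount_dvd_fin D σ ι hι (map_X σ ι hιp) (map_C σ ι hιp) irreducible_X monic_X 3
    (fun _ => rfl) (fun h => by
      exfalso
      have h1 := congrArg (Polynomial.eval 0) h
      simp only [eval_X, eval_sub, eval_C] at h1
      norm_num at h1)

/-- `h1728` of `H2C.exists_basis_isIntegral_discr_dvd_pow`. -/
theorem ramCount_X_sub_dvd_two :
    ∀ Q : Ideal B₀, Q.IsPrime → algebraMap K[X] B₀ (X - C 1728) ∈ Q →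
      ramCount (X - C 1728 : K[X]) Q ∣ 2 :=
  ramCount_dvd_fin D σ ι hι (map_X σ ι hιp) (map_C σ ι hιp)
    (irreducible_X_sub_C 1728) (monic_X_sub_C 1728) 2
    (fun h => by
      exfalso
      have h1 := congrArg (Polynomial.eval 0) h
      simp only [eval_X, eval_sub, eval_C] at h1
      norm_num at h1) (fun _ => rfl)

/-- `hgen` of `H2C.exists_basis_isIntegral_discr_dvd_pow`. -/
theorem ramCount_generic_eq_one :
    ∀ ϖ : K[X], Irreducible ϖ → ϖ.Monic → ϖ ≠ X → ϖ ≠ X - C 1728 →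
      ∀ Q : Ideal B₀, Q.IsPrime → algebraMap K[X] B₀ ϖ ∈ Q → ramCount ϖ Q = 1 :=
  fun ϖ hirr hmon h1 h2 Q hQ hmem => Nat.dvd_one.mp
    (ramCount_dvd_fin D σ ι hι (map_X σ ι hιp) (map_C σ ι hιp) hirr hmon 1
      (fun h => absurd h h1) (fun h => absurd h h2) Q hQ hmem)

end CurveSide

end Fermat.Agent.DS.X1.Good.RamGen
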