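import Mathlib
import Fermat.Agent.Good.ChartBridge
import Fermat.Agent.X0.RR7.IotaIndep
import Fermat.Agent.Jac.DescentDegree
import Fermat.Agent.Jac.DescentLaurent
import Fermat.Agent.DS.Chart.Extract

/-!
# PROGRAMME III, X1-GOOD, leaf G-4 (part 1): orthonormal data from HONEST series

`F₀ ⊂ ℚ((q))` a field of modular functions containing `j` (helper27's chart layer
`DS/Chart/**`), `L ⊇ ℚ` a field with a valuation subring `A` over `ℓ`, `π : A →+* k`,
`ι : 𝔽_ℓ →+* k`.

* `embL L F₀ : F₀ →+* laurentBaseChange L F₀` (extension of coefficients), `constExt_embL`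
  (it is a constant field extension), `finrank_embL_le` : `[L·F₀ : L(j)] ≤ d` from
  `DegInputs F₀ d`;
* `indepPoly_of_indep_resField` : a family of `𝔽_ℓ((q))` independent over `𝔽_ℓ(j̄)` stays
  independent over `k[j̃]` after extension of coefficients to ANY field `k ⊇ 𝔽_ℓ`;
* `HonestFamily F₀ ℓ d` : `d` series with coefficients in `ℤ_(ℓ)`, lying in `F₀`, with reductions
  independent over `𝔽_ℓ(j̄)`;
* **`orthoDataOfHonest`** : `Val.OrthoData A π (laurentBaseChange L F₀) Ft d` with `x = j`,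
  `m i =` the honest family, for every `Ft` containing the reductions and generated by reductions
  of honest series of `F₀` (e.g. `redField F₀ ℓ ι`, the field generated by ALL of them).
-/

set_option autoImplicit false
set_option linter.unusedSectionVars false
set_option linter.style.haveILetI false

open ModularCurve IntermediateField AlgebraicCurve Polynomial
open Fermat.Agent.Igusa Fermat.Agent.Val Fermat.Agent.DS.Chart Fermat.Agent.Good.Bridge

noncomputable section
namespace Fermat.Agent.DS.X1.Good.BridgeGen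

/-! ### `F₀ → L · F₀` -/

section Emb

variable (L : Type*) [Field L] [Algebra ℚ L] (F₀ : IntermediateField ℚ (LaurentSeries ℚ))

/-- The embedding `F₀ → L ⊗ F₀` (extension of the coefficients of `q`-expansions). -/
def embL : ↥F₀ →+* ↥(laurentBaseChange L F₀) where
  toFun x := ⟨coeffEmb L (x : LaurentSeries ℚ), coeffEmb_mem_laurentBaseChange L x.2⟩
  map_one' := Subtype.ext (map_one _)
  map_mul' _ _ := Subtype.ext (map_mul _ _ _)
  map_zero' := Subtype.ext (map_zero _)
  map_add' _ _ := Subtype.ext (map_add _ _ _)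

@[simp] theorem coe_embL (x : ↥F₀) :
    ((embL L F₀ x : ↥(laurentBaseChange L F₀)) : LaurentSeries L) =
      coeffEmb L (x : LaurentSeries ℚ) := rfl

theorem embL_injective : Function.Injective (embL L F₀) := (embL L F₀).injective

/-- rational constants go to constants -/
theorem embL_algebraMap (c : ℚ) :
    embL L F₀ (algebraMap ℚ ↥F₀ c) =
      algebraMap L ↥(laurentBaseChange L F₀) (algebraMap ℚ L c) := by
  rw [eq_ratCast, eq_ratCast, map_ratCast, map_ratCast]

/-- Linear disjointness: extension of the coefficients preserves linear independence. -/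
theorem linearIndependent_embL {J : Type*} [Fintype J] (b : J → ↥F₀)
    (hb : LinearIndependent ℚ b) : LinearIndependent L (fun j => embL L F₀ (b j)) := by
  rw [Fintype.linearIndependent_iff] at hb ⊢
  intro c hc
  refine Fermat.Agent.Jac.Descent.eq_zero_of_sum_coeffMap (algebraMap ℚ L)
    (fun j => ((b j : ↥F₀) : LaurentSeries ℚ)) (fun c' hc' => hb c' ?_) c ?_
  · apply Subtype.ext
    rw [ZeroMemClass.coe_zero, ← hc', AddSubmonoidClass.coe_finsetSum]
    refine Finset.sum_congr rfl fun j _ => ?_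
    rw [Rat.smul_def, MulMemClass.coe_mul, eq_ratCast]
    congr 1
  · have h1 := congrArg (fun x : laurentBaseChange L F₀ => (x : LaurentSeries L)) hc
    simp only [Algebra.smul_def] at h1
    push_cast at h1
    exact h1

/-- `L · F₀` is generated over `L` by the image of `F₀`. -/
theorem adjoin_range_embL : IntermediateField.adjoin L (Set.range (embL L F₀)) = ⊤ := by
  rw [eq_top_iff]
  intro x _
  set M := IntermediateField.adjoin L (Set.range (embL L F₀)) with hM
  have h1 : ((x : laurentBaseChange L F₀) : LaurentSeries L) ∈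
      M.map (laurentBaseChange L F₀).val := by
    rw [hM, IntermediateField.adjoin_map]
    have h2 : laurentBaseChange L F₀ ≤
        IntermediateField.adjoin L ((laurentBaseChange L F₀).val '' Set.range (embL L F₀)) := by
      apply IntermediateField.adjoin.mono
      rintro _ ⟨z, hz, rfl⟩
      exact ⟨embL L F₀ ⟨z, hz⟩, ⟨⟨z, hz⟩, rfl⟩, rfl⟩
    exact h2 x.2
  obtain ⟨y, hy, hxy⟩ := (IntermediateField.mem_map M).mp h1
  have : y = x := Subtype.ext hxy
  rwa [← this]

/-- **`F₀ → L · F₀` is a constant field extension.** -/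
theorem constExt_embL : Fermat.Agent.Jac.Descent.ConstExt (algebraMap ℚ L) (embL L F₀) where
  comm := embL_algebraMap L F₀
  linDisj := by
    intro t ht
    rw [linearIndependent_iff_finset_linearIndependent] at ht ⊢
    intro s
    exact linearIndependent_embL L F₀ _ (ht s)
  gen := adjoin_range_embL L F₀

variable [hjF : Fact (jq ∈ F₀)]

/-- the image of `j` -/
theorem coe_embL_jG : ((embL L F₀ (jG F₀) : ↥(laurentBaseChange L F₀)) : LaurentSeries L) =
    coeffEmb L jq := rfl

/-- `j` stays transcendental. -/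
theorem transcendental_embL_jG : Transcendental L (embL L F₀ (jG F₀)) :=
  (constExt_embL L F₀).transcendental_map (Fermat.Agent.DS.Chart.ChartBaseAux.transcendental_jG_rat F₀)

/-- **The degree bound over `L`**: `[L · F₀ : L(j)] ≤ d`. -/
theorem finrank_embL_le {d : ℕ} (hdeg : DegInputs F₀ d) :
    FiniteDimensional L⟮embL L F₀ (jG F₀)⟯ ↥(laurentBaseChange L F₀) ∧
      Module.finrank L⟮embL L F₀ (jG F₀)⟯ ↥(laurentBaseChange L F₀) ≤ d := by
  haveI := hdeg.finite
  obtain ⟨h1, h2⟩ := (constExt_embL L F₀).finrank_adjoin_simple_eq (Fermat.Agent.DS.Chart.ChartBaseAux.transcendental_jG_rat F₀)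
  exact ⟨h1, h2 ▸ hdeg.finrank_le⟩

end Emb

/-! ### Independence over `𝔽_ℓ(j̄)` and extension of the constants -/

section Indep

variable {ℓ : ℕ} [hℓ : Fact ℓ.Prime] {k : Type*} [Field k] (ι : ZMod ℓ →+* k)

/-- polynomials in `j̄` lie in `𝔽_ℓ(j̄)` -/
theorem aeval_jqModC_mem_resField (p : (ZMod ℓ)[X]) :
    aeval (jqModC (ZMod ℓ)) p ∈ Fermat.Agent.Igusa.resField ℓ := by
  rw [Fermat.Agent.Val.aeval_eq_eval₂_C, eval₂_eq_sum_range]
  apply Subfield.sum_mem
  intro n _
  apply Subfield.mul_mem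
  · exact Fermat.Agent.Igusa.C_zmod_mem_subfield ℓ (Fermat.Agent.Igusa.resField ℓ) (p.coeff n)
  · apply Subfield.pow_mem
    exact Subfield.subset_closure rfl

/-- **Extension of the constants preserves independence over `𝔽_ℓ(j̄)`** (polynomial form over
the big field): if `f i ∈ 𝔽_ℓ((q))` are independent over `𝔽_ℓ(j̄)`, then
`∑ cᵢ(j̃) · f̃ᵢ = 0` with `cᵢ ∈ k[X]` forces `cᵢ = 0`. -/
theorem indepPoly_of_indep_resField {n : ℕ} (f : Fin n → LaurentSeries (ZMod ℓ))
    (hind : ∀ g : Fin n → LaurentSeries (ZMod ℓ), (∀ i, g i ∈ Fermat.Agent.Igusa.resField ℓ) →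
      ∑ i, g i * f i = 0 → ∀ i, g i = 0)
    (c : Fin n → k[X])
    (hc : ∑ i, aeval (jqModC k) (c i) * coeffMap ι (f i) = 0) : ∀ i, c i = 0 := by
  classical
  -- a common degree bound
  obtain ⟨D, hD⟩ : ∃ D : ℕ, ∀ i, (c i).natDegree < D :=
    ⟨(Finset.univ.sup fun i => (c i).natDegree) + 1, fun i =>
      Nat.lt_succ_of_le (Finset.le_sup (f := fun i => (c i).natDegree) (Finset.mem_univ i))⟩
  have key := Fermat.Agent.Jac.Descent.eq_zero_of_sum_coeffMap ι
    (fun p : Fin D × Fin n => jqModC (ZMod ℓ) ^ (p.1 : ℕ) * f p.2) ?hb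
    (fun p => (c p.2).coeff p.1) ?hc
  · intro i
    ext a
    rw [Polynomial.coeff_zero]
    by_cases ha : a < D
    · exact key (⟨a, ha⟩, i)
    · exact Polynomial.coeff_eq_zero_of_natDegree_lt (lt_of_lt_of_le (hD i) (not_lt.mp ha))
  case hb =>
    intro c' hc'
    let P : Fin n → (ZMod ℓ)[X] := fun i => ∑ a : Fin D, Polynomial.monomial (a : ℕ) (c' (a, i))
    have hP : ∑ i, aeval (jqModC (ZMod ℓ)) (P i) * f i = 0 := by
      rw [← hc', Fintype.sum_prod_type, Finset.sum_comm]
      refine Finset.sum_congr rfl fun i _ => ?_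
      rw [map_sum, Finset.sum_mul]
      refine Finset.sum_congr rfl fun a _ => ?_
      rw [aeval_monomial, mul_assoc]
    have h2 := hind _ (fun i => aeval_jqModC_mem_resField (P i)) hP
    intro p
    have h3 : P p.2 = 0 :=
      (transcendental_iff_injective.mp
        (Fermat.Agent.Igusa.ChartBaseAux.transcendental_jqModC (ZMod ℓ)))
        (by rw [h2 p.2, map_zero])
    have h4 := congrArg (fun Q : (ZMod ℓ)[X] => Q.coeff (p.1 : ℕ)) h3
    simp only [P, Polynomial.finsetSum_coeff, Polynomial.coeff_monomial, Polynomial.coeff_zero]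
      at h4
    rw [Finset.sum_eq_single p.1] at h4
    · simpa using h4
    · intro b _ hb
      rw [if_neg]
      intro h5
      exact hb (Fin.ext h5)
    · intro h
      exact absurd (Finset.mem_univ _) h
  case hc =>
    rw [← hc, Fintype.sum_prod_type, Finset.sum_comm]
    refine Finset.sum_congr rfl fun i _ => ?_
    rw [aeval_eq_sum_range' (hD i), Finset.sum_mul, Finset.sum_range]
    refine Finset.sum_congr rfl fun a _ => ?_
    rw [map_mul, map_pow, coeffMap_jqModC, Algebra.smul_def, mul_assoc]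

end Indep

/-! ### Honest families and the orthonormal data -/

section Ortho

variable (F₀ : IntermediateField ℚ (LaurentSeries ℚ)) (ℓ : ℕ) [hℓ : Fact ℓ.Prime]

set_option quotPrecheck false in
local notation "ℤℓ" => ↥(GaloisRep.ratLocalizedAt ℓ)

/-- **An honest family**: `d` Laurent series with coefficients in `ℤ_(ℓ)`, lying in `F₀`, whose
reductions mod `ℓ` are linearly independent over `𝔽_ℓ(j̄)`. -/
structure HonestFamily (d : ℕ) where
  /-- the series -/
  m : Fin d → LaurentSeries ℤℓ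
  /-- they lie in `F₀` -/
  mem : ∀ i, zlIota ℓ (m i) ∈ F₀
  /-- their reductions are independent over `𝔽_ℓ(j̄)` -/
  indep : ∀ g : Fin d → LaurentSeries (ZMod ℓ), (∀ i, g i ∈ Fermat.Agent.Igusa.resField ℓ) →
    ∑ i, g i * zlRed ℓ (m i) = 0 → ∀ i, g i = 0

variable {k : Type*} [Field k] (ι : ZMod ℓ →+* k)

/-- the reductions (extended to `k`) of the honest series of `F₀` -/
def honestRed : Set (LaurentSeries k) :=
  {y | ∃ a : LaurentSeries ℤℓ, zlIota ℓ a ∈ F₀ ∧ y = coeffMap ι (zlRed ℓ a)}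

/-- **The reduction field of `F₀` at `ℓ` over `k`**: generated over `k` by the reductions of ALL
series of `F₀` with coefficients in `ℤ_(ℓ)`. -/
def redField : IntermediateField k (LaurentSeries k) :=
  IntermediateField.adjoin k (honestRed F₀ ℓ ι)

theorem coeffMap_zlRed_mem_redField {a : LaurentSeries ℤℓ} (ha : zlIota ℓ a ∈ F₀) :
    coeffMap ι (zlRed ℓ a) ∈ redField F₀ ℓ ι :=
  IntermediateField.subset_adjoin k _ ⟨a, ha, rfl⟩

variable {L : Type*} [Field L] [Algebra ℚ L] (A : ValuationSubring L) (hA : A.LiesOverPrime ℓ)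
  (π : A →+* k) [hjF : Fact (jq ∈ F₀)] {d : ℕ}

theorem aIota_jqModC_mem : aIota A (jqModC A) ∈ laurentBaseChange L F₀ := by
  rw [aIota, Fermat.Agent.Val.coeffMap_subtype_jqModC A]
  exact coeffEmb_mem_laurentBaseChange L hjF.out

theorem aIota_jqModC_eq :
    (⟨aIota A (jqModC A), aIota_jqModC_mem F₀ A⟩ : laurentBaseChange L F₀) =
      embL L F₀ (jG F₀) :=
  Subtype.ext (Fermat.Agent.Val.coeffMap_subtype_jqModC A)

theorem aIota_honest_mem {a : LaurentSeries ℤℓ} (ha : zlIota ℓ a ∈ F₀) :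
    aIota A (coeffMap (zlToA A hA) a) ∈ laurentBaseChange L F₀ := by
  rw [← coeffEmb_zlIota A hA]
  exact coeffEmb_mem_laurentBaseChange L ha

/-- **Orthonormal data from an honest family.**  `x = j`, `m i =` the honest family (with
coefficients moved to `A` along `ℤ_(ℓ) → A`); `Ft` any field containing the reductions `j̃`, `m̃ i`
and contained in `redField F₀ ℓ ι`. -/
def orthoDataOfHonest (hdeg : DegInputs F₀ d) (H : HonestFamily F₀ ℓ d)
    (Ft : IntermediateField k (LaurentSeries k)) (hFt_le : Ft ≤ redField F₀ ℓ ι)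
    (hxt : jqModC k ∈ Ft) (hmt : ∀ i, coeffMap ι (zlRed ℓ (H.m i)) ∈ Ft) :
    OrthoData A π (laurentBaseChange L F₀) Ft d where
  x := jqModC A
  m := fun i => coeffMap (zlToA A hA) (H.m i)
  hx := aIota_jqModC_mem F₀ A
  hm := fun i => aIota_honest_mem F₀ ℓ A hA (H.mem i)
  finite := by
    rw [aIota_jqModC_eq]
    exact (finrank_embL_le L F₀ hdeg).1
  finrank_le := by
    rw [aIota_jqModC_eq]
    exact (finrank_embL_le L F₀ hdeg).2
  transc := by
    rw [aRed, coeffMap_jqModC]
    exact Fermat.Agent.Igusa.ChartBaseAux.transcendental_jqModC k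
  indep := by
    intro c hc
    refine indepPoly_of_indep_resField ι (fun i => zlRed ℓ (H.m i)) H.indep c ?_
    rw [← hc, comboK]
    refine Finset.sum_congr rfl fun i _ => ?_
    rw [aRed_coeffMap_zlToA A hA π ι, aRed, coeffMap_jqModC]
  hxt := by
    rw [aRed, coeffMap_jqModC]
    exact hxt
  hmt := fun i => by
    rw [aRed_coeffMap_zlToA A hA π ι]
    exact hmt i
  gen := by
    refine ⟨coeffMap (zlToA A hA) '' {a | zlIota ℓ a ∈ F₀}, ?_, ?_⟩
    · rintro _ ⟨a, ha, rfl⟩
      exact aIota_honest_mem F₀ ℓ A hA ha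
    · refine hFt_le.trans (IntermediateField.adjoin.mono k _ _ ?_)
      rintro _ ⟨a, ha, rfl⟩
      exact ⟨coeffMap (zlToA A hA) a, ⟨a, ha, rfl⟩, aRed_coeffMap_zlToA A hA π ι a⟩

@[simp] theorem orthoDataOfHonest_x (hdeg : DegInputs F₀ d) (H : HonestFamily F₀ ℓ d)
    (Ft : IntermediateField k (LaurentSeries k)) (hFt_le : Ft ≤ redField F₀ ℓ ι)
    (hxt : jqModC k ∈ Ft) (hmt : ∀ i, coeffMap ι (zlRed ℓ (H.m i)) ∈ Ft) :
    (orthoDataOfHonest F₀ ℓ ι A hA π hdeg H Ft hFt_le hxt hmt).x = jqModC A := rfl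

@[simp] theorem orthoDataOfHonest_m (hdeg : DegInputs F₀ d) (H : HonestFamily F₀ ℓ d)
    (Ft : IntermediateField k (LaurentSeries k)) (hFt_le : Ft ≤ redField F₀ ℓ ι)
    (hxt : jqModC k ∈ Ft) (hmt : ∀ i, coeffMap ι (zlRed ℓ (H.m i)) ∈ Ft) (i : Fin d) :
    (orthoDataOfHonest F₀ ℓ ι A hA π hdeg H Ft hFt_le hxt hmt).m i =
      coeffMap (zlToA A hA) (H.m i) := rfl

/-- `x = j` as an element of `L · F₀` -/
theorem orthoDataOfHonest_xF (hdeg : DegInputs F₀ d) (H : HonestFamily F₀ ℓ d)
    (Ft : IntermediateField k (LaurentSeries k)) (hFt_le : Ft ≤ redField F₀ ℓ ι)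
    (hxt : jqModC k ∈ Ft) (hmt : ∀ i, coeffMap ι (zlRed ℓ (H.m i)) ∈ Ft) :
    (orthoDataOfHonest F₀ ℓ ι A hA π hdeg H Ft hFt_le hxt hmt).xF = embL L F₀ (jG F₀) :=
  aIota_jqModC_eq F₀ A

/-- The canonical choice `Ft = redField F₀ ℓ ι`. -/
def orthoDataRedField (hdeg : DegInputs F₀ d) (H : HonestFamily F₀ ℓ d) :
    OrthoData A π (laurentBaseChange L F₀) (redField F₀ ℓ ι) d :=
  orthoDataOfHonest F₀ ℓ ι A hA π hdeg H (redField F₀ ℓ ι) le_rfl
    (by
      have h := coeffMap_zlRed_mem_redField F₀ ℓ ι (a := jqModC ℤℓ) (by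
        have h1 : zlIota ℓ (jqModC ℤℓ) = jq := by
          rw [zlIota, coeffMap_jqModC, jqModC_rat]
        rw [h1]
        exact hjF.out)
      have h2 : coeffMap ι (zlRed ℓ (jqModC ℤℓ)) = jqModC k := by
        rw [zlRed, coeffMap_jqModC, coeffMap_jqModC]
      rwa [h2] at h)
    (fun i => coeffMap_zlRed_mem_redField F₀ ℓ ι (H.mem i))

end Ortho

end Fermat.Agent.DS.X1.Good.BridgeGen
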