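import Mathlib
import Fermat.Agent.DS.X1.Good.BridgeBase
import Fermat.Agent.Val.OrthoResidueDegree
import Fermat.Agent.Good.GenusNormalChartsConst

/-!
# PROGRAMME III, X1-GOOD, leaf G-4 (part 2): the chart bridge for an arbitrary field `F₀ ⊂ ℚ((q))`

Generic twin of main's `Good/ChartBridge.lean` (sections `Bar`, `Qbar`, `Tensor`): helper27's chart
algebras `Chart.chartAlg F₀ ℓ S` (over `ℤ_(ℓ)`, inside `F₀`) versus the Gauss constant reduction
`D.constRed hπ hπs` of `L · F₀` attached to ANY orthonormal data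
`D : Val.OrthoData A π (laurentBaseChange L F₀) Ft n` (`A` a valuation subring of `L` over `ℓ`).

* **(B1)** `embL_mem_O`, **(B2)** `res_embL` : chart elements are integral for the constant
  reduction and `res (embL x) = coeffMap ι (chartRes x)`;
* **(B3)** `ord_embL_nonneg`, `polesAtPoles_chartBarFin`, `polesAtZeros_chartBarInf`;
* **(B4)** `resChart`, `exists_tensorRes` : `chartAlg ⊗[ℤ_(ℓ)] k → Ft`, injective by the
  `q`-expansion principle;
* **(B5)** `mem_span_of_isIntegral`, `mem_span_fin`, `mem_span_inf` : normality of the special fibre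
  of a chart gives the span condition of the genus leaf (`DS/Good/GenusGeneric.lean`).

Linking hypotheses on `D` (satisfied by `BridgeGen.orthoDataOfHonest`): `D.x = jqModC A` and
`aIota A (D.m i) = coeffEmb L (I.fam i)` for the family of `I : Chart.ChartInputs F₀ ℓ n`.
-/

set_option autoImplicit false
set_option linter.unusedSectionVars false
set_option linter.style.haveILetI false

open ModularCurve IntermediateField AlgebraicCurve
open Fermat.Agent.Igusa Fermat.Agent.Val Fermat.Agent.DS.Chart Fermat.Agent.Good.Bridge Fermat.Agent.X0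
  Fermat.Agent.Good.GenusCharts

noncomputable section
namespace Fermat.Agent.DS.X1.Good.BridgeGen

set_option synthInstance.maxHeartbeats 400000

variable (F₀ : IntermediateField ℚ (LaurentSeries ℚ)) [hjF : Fact (jq ∈ F₀)]
  {ℓ : ℕ} [hℓ : Fact ℓ.Prime]
  {L : Type*} [Field L] [Algebra ℚ L] (A : ValuationSubring L) (hA : A.LiesOverPrime ℓ)
  {k : Type*} [Field k] {π : A →+* k}
  (hπ : ∀ a : A, a ∈ IsLocalRing.maximalIdeal A → π a = 0) (hπs : Function.Surjective π)
  (ι : ZMod ℓ →+* k)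
  {Ft : IntermediateField k (LaurentSeries k)} {n : ℕ}
  (D : OrthoData A π (laurentBaseChange L F₀) Ft n)
  (hfr : IsZlField F₀ ℓ)

set_option quotPrecheck false in
local notation "ℤℓ" => ↥(GaloisRep.ratLocalizedAt ℓ)

/-! ### (B1), (B2) -/

include hA ι in
/-- **(B1)** Gauss-integral elements of `F₀` are integral for the Gauss valuation of `L · F₀`. -/
theorem embL_mem_valSubring_of_gauss {y : ↥F₀}
    (hy : ((y : ↥F₀) : LaurentSeries ℚ) ∈ gaussSubring ℓ) :
    embL L F₀ y ∈ D.valSubring :=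
  coeffEmb_mem_gaussRingA A hA π ι hy

/-- **(B2)** the Gauss residue of (the image of) a Gauss-integral element of `F₀`. -/
theorem resSeries_embL_of_gauss {y : ↥F₀}
    (hy : ((y : ↥F₀) : LaurentSeries ℚ) ∈ gaussSubring ℓ) :
    D.resSeries ⟨embL L F₀ y, embL_mem_valSubring_of_gauss F₀ A hA ι D hy⟩ =
      coeffMap ι (gaussRes ℓ ⟨_, hy⟩) :=
  gaussResA_coeffEmb A hA π ι hy

include hA ι in
/-- **(B1)** Gauss-integral elements of `F₀` lie in the valuation ring of the constant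
reduction. -/
theorem embL_mem_O_of_gauss {y : ↥F₀}
    (hy : ((y : ↥F₀) : LaurentSeries ℚ) ∈ gaussSubring ℓ) :
    embL L F₀ y ∈ (D.constRed hπ hπs).O :=
  embL_mem_valSubring_of_gauss F₀ A hA ι D hy

/-- **(B2)** the residue of a Gauss-integral element of `F₀`. -/
theorem res_embL_of_gauss {y : ↥F₀}
    (hy : ((y : ↥F₀) : LaurentSeries ℚ) ∈ gaussSubring ℓ) :
    (((D.constRed hπ hπs).res ⟨embL L F₀ y, embL_mem_O_of_gauss F₀ A hA hπ hπs ι D hy⟩ : ↥Ft) :
        LaurentSeries k) = coeffMap ι (gaussRes ℓ ⟨_, hy⟩) :=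
  resSeries_embL_of_gauss F₀ A hA ι D hy

include hA ι hfr in
/-- **(B1)** chart elements lie in the valuation ring of the constant reduction. -/
theorem embL_mem_O {S : Set ↥F₀}
    (hS : ∀ s ∈ S, ((s : ↥F₀) : LaurentSeries ℚ) ∈ gaussSubring ℓ)
    (x : ↥(chartAlg F₀ ℓ S)) :
    embL L F₀ (x : ↥F₀) ∈ (D.constRed hπ hπs).O :=
  embL_mem_O_of_gauss F₀ A hA hπ hπs ι D (coe_mem_gaussSubring_of_mem_chartAlg F₀ ℓ hfr hS x.2)

/-- **(B2)** the residue of a chart element is the extension of coefficients of `chartRes`. -/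
theorem res_embL {S : Set ↥F₀}
    (hS : ∀ s ∈ S, ((s : ↥F₀) : LaurentSeries ℚ) ∈ gaussSubring ℓ)
    (x : ↥(chartAlg F₀ ℓ S)) :
    (((D.constRed hπ hπs).res ⟨embL L F₀ (x : ↥F₀),
        embL_mem_O F₀ A hA hπ hπs ι D hfr hS x⟩ : ↥Ft) : LaurentSeries k) =
      coeffMap ι (chartRes F₀ ℓ hfr hS x) :=
  res_embL_of_gauss F₀ A hA hπ hπs ι D (coe_mem_gaussSubring_of_mem_chartAlg F₀ ℓ hfr hS x.2)

/-- constants from `ℤ_(ℓ)` go to constants of `L · F₀` -/
theorem embL_algebraMap_zl (r : ℤℓ) :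
    embL L F₀ (algebraMap ℤℓ ↥F₀ r) =
      algebraMap L ↥(laurentBaseChange L F₀) (algebraMap ℚ L (r : ℚ)) :=
  embL_algebraMap L F₀ (r : ℚ)

/-! ### (B3) poles of chart elements -/

/-- A place at which the generators `S` are regular is regular on the whole chart algebra. -/
theorem ord_embL_nonneg {S : Set ↥F₀} (x : ↥(chartAlg F₀ ℓ S))
    (P : Place L ↥(laurentBaseChange L F₀))
    (hP : ∀ s ∈ S, 0 ≤ P.ord (embL L F₀ s)) :
    0 ≤ P.ord (embL L F₀ (x : ↥F₀)) := by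
  have hint : IsIntegral (Algebra.adjoin ℤℓ S) (x : ↥F₀) :=
    (mem_chartAlg_iff F₀ ℓ).mp x.2
  have hmem : ∀ a ∈ Algebra.adjoin ℤℓ S, embL L F₀ a ∈ P.toValuationSubring := by
    intro a ha
    induction ha using Algebra.adjoin_induction with
    | mem s hs => exact Place.mem_of_ord_nonneg P (hP s hs)
    | algebraMap r => rw [embL_algebraMap_zl]; exact P.algebraMap_mem' _
    | add a b _ _ ha hb => rw [map_add]; exact add_mem ha hb
    | mul a b _ _ ha hb => rw [map_mul]; exact mul_mem ha hb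
  let φ : ↥(Algebra.adjoin ℤℓ S) →+* ↥P.toValuationSubring :=
    { toFun := fun a => ⟨embL L F₀ (a : ↥F₀), hmem a a.2⟩
      map_one' := Subtype.ext (map_one _)
      map_mul' := fun _ _ => Subtype.ext (map_mul _ _ _)
      map_zero' := Subtype.ext (map_zero _)
      map_add' := fun _ _ => Subtype.ext (map_add _ _ _) }
  have h1 : IsIntegral ↥P.toValuationSubring (embL L F₀ (x : ↥F₀)) :=
    hint.map_of_comp_eq φ (embL L F₀) (by ext; rfl)
  obtain ⟨y, hy⟩ := IsIntegrallyClosed.isIntegral_iff.mp h1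
  rw [← hy]
  exact Place.ord_nonneg_of_mem P y.2

/-- **(B3, finite chart)** the poles of an element of `chartAlgFin` are poles of `j`. -/
theorem ord_j_neg_of_ord_embL_neg (x : ↥(chartAlgFin F₀ ℓ))
    (P : Place L ↥(laurentBaseChange L F₀))
    (hx : P.ord (embL L F₀ (x : ↥F₀)) < 0) : P.ord (embL L F₀ (jG F₀)) < 0 := by
  by_contra h
  rw [not_lt] at h
  have := ord_embL_nonneg F₀ x P (by
    intro s hs
    rw [Set.mem_singleton_iff.mp hs]
    exact h)
  omega

/-- **(B3, chart at infinity)** the poles of an element of `chartAlgInf` are zeros of `j`. -/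
theorem ord_j_pos_of_ord_embL_neg (x : ↥(chartAlgInf F₀ ℓ))
    (P : Place L ↥(laurentBaseChange L F₀))
    (hx : P.ord (embL L F₀ (x : ↥F₀)) < 0) : 0 < P.ord (embL L F₀ (jG F₀)) := by
  by_contra h
  rw [not_lt] at h
  have := ord_embL_nonneg F₀ x P (by
    intro s hs
    rw [Set.mem_singleton_iff.mp hs, map_inv₀, P.ord_inv]
    omega)
  omega

/-! ### (B4) the tensor comparison -/

section Tensor

open TensorProduct

variable {S : Set ↥F₀}
  (hS : ∀ s ∈ S, ((s : ↥F₀) : LaurentSeries ℚ) ∈ gaussSubring ℓ)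

/-- The reduction of a chart algebra, with values in `Ft`: `b ↦ res (embL b)`. -/
def resChart : ↥(chartAlg F₀ ℓ S) →+* ↥Ft :=
  (D.constRed hπ hπs).res.comp
    { toFun := fun x => ⟨embL L F₀ (x : ↥F₀), embL_mem_O F₀ A hA hπ hπs ι D hfr hS x⟩
      map_one' := Subtype.ext (map_one _)
      map_mul' := fun _ _ => Subtype.ext (map_mul _ _ _)
      map_zero' := Subtype.ext (map_zero _)
      map_add' := fun _ _ => Subtype.ext (map_add _ _ _) }

theorem resChart_apply (x : ↥(chartAlg F₀ ℓ S)) :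
    resChart F₀ A hA hπ hπs ι D hfr hS x =
      (D.constRed hπ hπs).res ⟨embL L F₀ (x : ↥F₀), embL_mem_O F₀ A hA hπ hπs ι D hfr hS x⟩ :=
  rfl

theorem coe_resChart (x : ↥(chartAlg F₀ ℓ S)) :
    ((resChart F₀ A hA hπ hπs ι D hfr hS x : ↥Ft) : LaurentSeries k) =
      coeffMap ι (chartRes F₀ ℓ hfr hS x) :=
  res_embL F₀ A hA hπ hπs ι D hfr hS x

variable [Algebra (GaloisRep.ratLocalizedAt ℓ) k]

/-- **(B4)** the comparison map `chartAlg ⊗[ℤ_(ℓ)] k → Ft`, `b ⊗ c ↦ c · res b`: it exists and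
is injective as soon as the chart satisfies the `q`-expansion principle. -/
theorem exists_tensorRes (Dred : ReductionData ℓ ↥(chartAlg F₀ ℓ S))
    (hD : Dred.ρ = chartRes F₀ ℓ hfr hS) :
    ∃ T : ↥(chartAlg F₀ ℓ S) ⊗[ℤℓ] k →+* ↥Ft,
      Function.Injective T ∧ ∀ (b : ↥(chartAlg F₀ ℓ S)) (c : k),
        T (b ⊗ₜ[ℤℓ] c) = algebraMap k ↥Ft c * resChart F₀ A hA hπ hπs ι D hfr hS b := by
  letI : Algebra ℤℓ (ZMod ℓ) := (zlResidue ℓ).toAlgebra
  letI : Algebra (ZMod ℓ) k := ι.toAlgebra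
  haveI : IsScalarTower ℤℓ (ZMod ℓ) k :=
    IsScalarTower.of_algebraMap_eq fun r =>
      congrFun (congrArg DFunLike.coe
        (zl_ringHom_ext ℓ (algebraMap ℤℓ k) ((algebraMap (ZMod ℓ) k).comp (algebraMap ℤℓ (ZMod ℓ))))) r
  have hρ : ∀ r : ℤℓ, chartRes F₀ ℓ hfr hS (algebraMap ℤℓ ↥(chartAlg F₀ ℓ S) r) =
      HahnSeries.C (algebraMap ℤℓ (ZMod ℓ) r) := chartRes_algebraMap F₀ ℓ hfr hS
  have hker : ∀ x : ↥(chartAlg F₀ ℓ S), chartRes F₀ ℓ hfr hS x = 0 →
      x ∈ Ideal.map (algebraMap ℤℓ ↥(chartAlg F₀ ℓ S))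
        (RingHom.ker (algebraMap ℤℓ (ZMod ℓ))) := by
    intro x hx
    obtain ⟨y, rfl⟩ := Dred.ker_le x (by rw [hD]; exact hx)
    refine Ideal.mul_mem_right _ _ (Ideal.mem_map_of_mem _ ?_)
    show zlPrime ℓ ∈ RingHom.ker (zlResidue ℓ)
    rw [RingHom.mem_ker]
    exact zlResidue_zlPrime ℓ
  have hinj := tensorToLaurent_injective (K := k)
    (zlResidue_surjective ℓ) (chartRes F₀ ℓ hfr hS) hρ hker
  have hT₀ : ∀ (b : ↥(chartAlg F₀ ℓ S)) (c : k),
      (LaurentCopy.of k).symm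
        (tensorToLaurent k (chartRes F₀ ℓ hfr hS) hρ (b ⊗ₜ c)) =
      ((algebraMap k ↥Ft c * resChart F₀ A hA hπ hπs ι D hfr hS b : ↥Ft) :
        LaurentSeries k) := by
    intro b c
    rw [tensorToLaurent_tmul, RingEquiv.symm_apply_apply, MulMemClass.coe_mul,
      coe_resChart F₀ A hA hπ hπs ι D hfr hS, mul_comm]
    congr 1
    show _ = algebraMap k (LaurentSeries k) c
    rw [Val.algebraMap_laurentSeries_eq_C]
  have hmem : ∀ z : ↥(chartAlg F₀ ℓ S) ⊗[ℤℓ] k,
      (LaurentCopy.of k).symm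
        (tensorToLaurent k (chartRes F₀ ℓ hfr hS) hρ z) ∈ Ft := by
    intro z
    induction z using TensorProduct.induction_on with
    | zero => rw [map_zero, map_zero]; exact zero_mem _
    | tmul b c => rw [hT₀]; exact SetLike.coe_mem _
    | add x y hx hy => rw [map_add, map_add]; exact add_mem hx hy
  refine ⟨((LaurentCopy.of k).symm.toRingHom.comp
    (tensorToLaurent k (chartRes F₀ ℓ hfr hS) hρ).toRingHom).codRestrict Ft hmem, ?_, ?_⟩
  · intro x y h
    apply hinj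
    have := congrArg Subtype.val h
    exact (LaurentCopy.of k).symm.injective this
  · intro b c
    exact Subtype.ext (hT₀ b c)

/-! ### (B5) normality of the special fibre of a chart gives the span condition -/

variable (ℓ) in
/-- The image of a chart algebra in `L · F₀`. -/
def chartBar (S : Set ↥F₀) : Set ↥(laurentBaseChange L F₀) :=
  (embL L F₀) '' (chartAlg F₀ ℓ S : Set ↥F₀)

omit [Algebra (GaloisRep.ratLocalizedAt ℓ) k] in
include hA ι hfr hS in
/-- **(B1)** in set form -/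
theorem chartBar_subset_O :
    ∀ b ∈ chartBar (L := L) F₀ ℓ S, b ∈ (D.constRed hπ hπs).O := by
  rintro _ ⟨x, hx, rfl⟩
  exact embL_mem_O F₀ A hA hπ hπs ι D hfr hS ⟨x, hx⟩

omit [Algebra (GaloisRep.ratLocalizedAt ℓ) k] in
theorem resF_embL (x : ↥(chartAlg F₀ ℓ S)) :
    (D.constRed hπ hπs).resF (embL L F₀ (x : ↥F₀)) = resChart F₀ A hA hπ hπs ι D hfr hS x :=
  (D.constRed hπ hπs).resF_of_mem (embL_mem_O F₀ A hA hπ hπs ι D hfr hS x)

omit [Algebra (GaloisRep.ratLocalizedAt ℓ) k] in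
/-- multiplicativity against a Gauss-integral element of `F₀` -/
theorem resChart_eq_mul_of_gauss {g : ↥F₀}
    (hg : ((g : ↥F₀) : LaurentSeries ℚ) ∈ gaussSubring ℓ) (a b : ↥(chartAlg F₀ ℓ S))
    (hab : (a : ↥F₀) = g * (b : ↥F₀)) :
    resChart F₀ A hA hπ hπs ι D hfr hS a =
      (D.constRed hπ hπs).res ⟨embL L F₀ g, embL_mem_O_of_gauss F₀ A hA hπ hπs ι D hg⟩ *
        resChart F₀ A hA hπ hπs ι D hfr hS b := by
  have h1 : (⟨embL L F₀ (a : ↥F₀), embL_mem_O F₀ A hA hπ hπs ι D hfr hS a⟩ :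
      (D.constRed hπ hπs).O) =
      ⟨embL L F₀ g, embL_mem_O_of_gauss F₀ A hA hπ hπs ι D hg⟩ *
        ⟨embL L F₀ (b : ↥F₀), embL_mem_O F₀ A hA hπ hπs ι D hfr hS b⟩ := by
    apply Subtype.ext
    show embL L F₀ (a : ↥F₀) = _ * _
    rw [hab, map_mul]
  rw [resChart_apply, h1, map_mul, resChart_apply]

/-! The next lemmas are stated for an abstract model `C` of `chartAlg ⊗ k` (pure tensors `p b c`,
induction principle `hind`), to keep type class inference away from the tensor product. -/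

section Model

variable {C : Type*} [CommRing C] (T : C →+* ↥Ft) (p : ↥(chartAlg F₀ ℓ S) → k → C)
  (hT : ∀ (b : ↥(chartAlg F₀ ℓ S)) (c : k),
    T (p b c) = algebraMap k ↥Ft c * resChart F₀ A hA hπ hπs ι D hfr hS b)

omit [Algebra (GaloisRep.ratLocalizedAt ℓ) k] in
include hT in
/-- the fraction field of the range of the comparison map is `Ft`, as soon as it contains `x̃` and
the `m̃ i` (`Ft` is spanned by the `m̃ i` over `k(x̃)`: `OrthoData.span_mt_eq_top`) -/
theorem mem_closure_range_tensorRes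
    (hx : D.xt ∈ Subfield.closure (Set.range T))
    (hm : ∀ i, D.mt i ∈ Subfield.closure (Set.range T)) (z : ↥Ft) :
    z ∈ Subfield.closure (Set.range T) := by
  have halg : ∀ c : k, algebraMap k ↥Ft c ∈ Subfield.closure (Set.range T) := by
    intro c
    refine Subfield.subset_closure ⟨p 1 c, ?_⟩
    rw [hT, map_one, mul_one]
  let M : IntermediateField k ↥Ft := (Subfield.closure (Set.range T)).toIntermediateField halg
  have hxM : k⟮D.xt⟯ ≤ M := by
    rw [IntermediateField.adjoin_simple_le_iff]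
    exact hx
  have hz : z ∈ Submodule.span k⟮D.xt⟯ (Set.range D.mt) := by
    rw [D.span_mt_eq_top hπ hπs]
    exact Submodule.mem_top
  have key : ∀ y ∈ Submodule.span k⟮D.xt⟯ (Set.range D.mt), y ∈ M := by
    intro y hy
    induction hy using Submodule.span_induction with
    | mem y hy =>
      obtain ⟨i, rfl⟩ := hy
      exact hm i
    | zero => exact M.zero_mem
    | add y w _ _ hy hw => exact M.add_mem hy hw
    | smul c y _ hy =>
      rw [IntermediateField.smul_def, smul_eq_mul]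
      exact M.mul_mem (hxM c.2) hy
  exact key z hz

omit [Algebra (GaloisRep.ratLocalizedAt ℓ) k] in
include hT in
/-- `k[res t₀]` lies in the range of the comparison map -/
theorem algebraMap_adjoin_mem_range (t₀ : ↥(chartAlg F₀ ℓ S))
    (r : ↥(Algebra.adjoin k {resChart F₀ A hA hπ hπs ι D hfr hS t₀})) :
    algebraMap _ ↥Ft r ∈ Set.range T := by
  obtain ⟨r, hr⟩ := r
  show r ∈ Set.range T
  induction hr using Algebra.adjoin_induction with
  | mem x hx =>
    rw [Set.mem_singleton_iff] at hx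
    subst hx
    exact ⟨p t₀ 1, by rw [hT, map_one, one_mul]⟩
  | algebraMap c =>
    exact ⟨p 1 c, by rw [hT, map_one, mul_one]⟩
  | add x y _ _ hx hy =>
    obtain ⟨x', rfl⟩ := hx
    obtain ⟨y', rfl⟩ := hy
    exact ⟨x' + y', map_add T x' y'⟩
  | mul x y _ _ hx hy =>
    obtain ⟨x', rfl⟩ := hx
    obtain ⟨y', rfl⟩ := hy
    exact ⟨x' * y', map_mul T x' y'⟩

omit [Algebra (GaloisRep.ratLocalizedAt ℓ) k] in
include hT in
/-- the range of the comparison map is spanned by residues of chart elements -/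
theorem tensorRes_mem_span
    (hind : ∀ M : C → Prop, M 0 → (∀ b c, M (p b c)) → (∀ x y, M x → M y → M (x + y)) →
      ∀ z, M z) (z : C) :
    T z ∈ Submodule.span k ((D.constRed hπ hπs).resF '' chartBar (L := L) F₀ ℓ S) := by
  have key : ∀ (b : ↥(chartAlg F₀ ℓ S)) (c : k),
      T (p b c) ∈ Submodule.span k ((D.constRed hπ hπs).resF '' chartBar (L := L) F₀ ℓ S) := by
    intro b c
    have h0 : resChart F₀ A hA hπ hπs ι D hfr hS b ∈
        Submodule.span k ((D.constRed hπ hπs).resF '' chartBar (L := L) F₀ ℓ S) :=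
      Submodule.subset_span ⟨embL L F₀ b, ⟨b, b.2, rfl⟩, resF_embL F₀ A hA hπ hπs ι D hfr hS b⟩
    have h1 := algebraMap_mul_mem_span (k := k) (V := ↥Ft)
      ((D.constRed hπ hπs).resF '' chartBar (L := L) F₀ ℓ S) h0 c
    rw [hT]
    exact h1
  generalize Submodule.span k ((D.constRed hπ hπs).resF '' chartBar (L := L) F₀ ℓ S) = M
    at key ⊢
  refine hind (fun z => T z ∈ M) ?_ key ?_ z
  · exact (map_zero T).symm ▸ M.zero_mem
  · intro x y hx hy
    exact (map_add T x y).symm ▸ M.add_mem hx hy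

omit [Algebra (GaloisRep.ratLocalizedAt ℓ) k] in
include hT in
/-- a fraction of residues of chart elements lies in the subfield generated by the range -/
theorem mem_closure_range_of_frac (y : ↥Ft)
    (h : ∃ a b : ↥(chartAlg F₀ ℓ S), resChart F₀ A hA hπ hπs ι D hfr hS b ≠ 0 ∧
      resChart F₀ A hA hπ hπs ι D hfr hS a = y * resChart F₀ A hA hπ hπs ι D hfr hS b) :
    y ∈ Subfield.closure (Set.range T) := by
  obtain ⟨a, b, hb, hab⟩ := h
  refine mem_closure_range_of_mul_eq' Ft T (a := p a 1) (b := p b 1) ?_ ?_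
  · rw [hT, map_one, one_mul]
    exact hb
  · rw [hT, hT, map_one, one_mul, one_mul, hab]

omit [Algebra (GaloisRep.ratLocalizedAt ℓ) k] in
include hT in
/-- **(B5), model form.** -/
theorem mem_span_of_isIntegral_model [IsDomain C] [IsIntegrallyClosed C]
    (hTinj : Function.Injective T)
    (hind : ∀ M : C → Prop, M 0 → (∀ b c, M (p b c)) → (∀ x y, M x → M y → M (x + y)) →
      ∀ z, M z)
    (hgenx : ∃ a b : ↥(chartAlg F₀ ℓ S), resChart F₀ A hA hπ hπs ι D hfr hS b ≠ 0 ∧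
      resChart F₀ A hA hπ hπs ι D hfr hS a = D.xt * resChart F₀ A hA hπ hπs ι D hfr hS b)
    (hgenm : ∀ i, ∃ a b : ↥(chartAlg F₀ ℓ S), resChart F₀ A hA hπ hπs ι D hfr hS b ≠ 0 ∧
      resChart F₀ A hA hπ hπs ι D hfr hS a = D.mt i * resChart F₀ A hA hπ hπs ι D hfr hS b)
    (t₀ : ↥(chartAlg F₀ ℓ S)) (ft : ↥Ft)
    (hft : IsIntegral (Algebra.adjoin k {resChart F₀ A hA hπ hπs ι D hfr hS t₀}) ft) :
    ft ∈ Submodule.span k ((D.constRed hπ hπs).resF '' chartBar (L := L) F₀ ℓ S) := by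
  obtain ⟨z, hz⟩ := mem_range_of_isIntegral' Ft T hTinj
    (mem_closure_range_tensorRes F₀ A hA hπ hπs ι D hfr hS T p hT
      (mem_closure_range_of_frac F₀ A hA hπ hπs ι D hfr hS T p hT _ hgenx)
      (fun i => mem_closure_range_of_frac F₀ A hA hπ hπs ι D hfr hS T p hT _ (hgenm i)))
    (algebraMap_adjoin_mem_range F₀ A hA hπ hπs ι D hfr hS T p hT t₀) hft
  rw [← hz]
  exact tensorRes_mem_span F₀ A hA hπ hπs ι D hfr hS T p hT hind z

end Model

/-- **(B5), general chart.** If the special fibre `chartAlg ⊗ k` of the chart is integrally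
closed, the chart satisfies the `q`-expansion principle and `x̃`, `m̃ i` are fractions of residues of
chart elements, then every element of `Ft` integral over `k[res t₀]` (`t₀` in the chart) is a
`k`-combination of residues of chart elements. -/
theorem mem_span_of_isIntegral (Dred : ReductionData ℓ ↥(chartAlg F₀ ℓ S))
    (hD : Dred.ρ = chartRes F₀ ℓ hfr hS)
    (hgenx : ∃ a b : ↥(chartAlg F₀ ℓ S), resChart F₀ A hA hπ hπs ι D hfr hS b ≠ 0 ∧
      resChart F₀ A hA hπ hπs ι D hfr hS a = D.xt * resChart F₀ A hA hπ hπs ι D hfr hS b)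
    (hgenm : ∀ i, ∃ a b : ↥(chartAlg F₀ ℓ S), resChart F₀ A hA hπ hπs ι D hfr hS b ≠ 0 ∧
      resChart F₀ A hA hπ hπs ι D hfr hS a = D.mt i * resChart F₀ A hA hπ hπs ι D hfr hS b)
    (hnorm : IsIntegrallyClosed (↥(chartAlg F₀ ℓ S) ⊗[ℤℓ] k))
    (t₀ : ↥(chartAlg F₀ ℓ S)) (ft : ↥Ft)
    (hft : IsIntegral (Algebra.adjoin k {resChart F₀ A hA hπ hπs ι D hfr hS t₀}) ft) :
    ft ∈ Submodule.span k ((D.constRed hπ hπs).resF '' chartBar (L := L) F₀ ℓ S) := by
  obtain ⟨T, hTinj, hT⟩ := exists_tensorRes F₀ A hA hπ hπs ι D hfr hS Dred hD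
  haveI : IsDomain (↥(chartAlg F₀ ℓ S) ⊗[ℤℓ] k) := Function.Injective.isDomain T hTinj
  exact mem_span_of_isIntegral_model F₀ A hA hπ hπs ι D hfr hS
    (C := ↥(chartAlg F₀ ℓ S) ⊗[ℤℓ] k) T (fun b c => b ⊗ₜ[ℤℓ] c) hT hTinj
    (fun M h0 ht ha z => TensorProduct.induction_on z h0 ht ha) hgenx hgenm t₀ ft hft

end Tensor

/-! ### The two charts -/

section TwoCharts

open TensorProduct

variable (I : ChartInputs F₀ ℓ n) (hDx : D.x = jqModC A)
  (hDm : ∀ i, aIota A (D.m i) =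
    coeffEmb L (((I.fam i : ↥(chartAlgFin F₀ ℓ)) : ↥F₀) : LaurentSeries ℚ))

include hDx in
/-- `x = j` -/
theorem xF_eq_embL_jG : D.xF = embL L F₀ (jG F₀) := by
  apply Subtype.ext
  show aIota A D.x = coeffEmb L jq
  rw [hDx]
  exact Fermat.Agent.Val.coeffMap_subtype_jqModC A

include hDx in
theorem coe_xt : ((D.xt : ↥Ft) : LaurentSeries k) = jqModC k := by
  show aRed π D.x = jqModC k
  rw [hDx, aRed, coeffMap_jqModC]

include hDx in
theorem xt_ne_zero : D.xt ≠ 0 := by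
  intro h
  have h1 := coe_xt F₀ A D hDx
  rw [h, ZeroMemClass.coe_zero] at h1
  exact jqModC_ne_zero_of_nontrivial k h1.symm

include hDm in
/-- the residue of the `i`-th element of the family is `m̃ i` -/
theorem res_embL_fam (i : Fin n)
    (h : embL L F₀ ((I.fam i : ↥(chartAlgFin F₀ ℓ)) : ↥F₀) ∈ (D.constRed hπ hπs).O) :
    (D.constRed hπ hπs).res ⟨_, h⟩ = D.mt i := by
  apply Subtype.ext
  show D.resSeries ⟨embL L F₀ ((I.fam i : ↥(chartAlgFin F₀ ℓ)) : ↥F₀), h⟩ = aRed π (D.m i)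
  rw [D.resSeries_apply, ← gaussResA_aIota A π (D.m i)]
  congr 1
  exact Subtype.ext (hDm i).symm

include hDx in
/-- `res j = x̃` on the finite chart -/
theorem resChart_jChartFin :
    resChart F₀ A hA hπ hπs ι D I.zl (hSFin F₀ ℓ) (jChartFin F₀ ℓ) = D.xt := by
  apply Subtype.ext
  rw [coe_resChart, chartRes_jG F₀ ℓ I.zl _ _ rfl, coeffMap_jqModC, coe_xt F₀ A D hDx]

include hDx in
/-- `res (1/j) = 1/x̃` on the chart at infinity -/
theorem resChart_jInvChartInf :
    resChart F₀ A hA hπ hπs ι D I.zl (hSInf F₀ ℓ) (jInvChartInf F₀ ℓ) = (D.xt)⁻¹ := by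
  apply Subtype.ext
  rw [coe_resChart, chartRes_jG_inv F₀ ℓ I.zl _ _ rfl, map_inv₀, coeffMap_jqModC]
  show _ = ((D.xt : ↥Ft) : LaurentSeries k)⁻¹
  rw [coe_xt F₀ A D hDx]

include hDm in
/-- `res (fam i) = m̃ i` on the finite chart -/
theorem resChart_fam (i : Fin n) :
    resChart F₀ A hA hπ hπs ι D I.zl (hSFin F₀ ℓ) (I.fam i) = D.mt i :=
  res_embL_fam F₀ A hπ hπs D I hDm i _

variable [Algebra (GaloisRep.ratLocalizedAt ℓ) k]

include hA ι hDx hDm in
/-- **(B5), finite chart**: if `chartAlgFin ⊗ k` is integrally closed, every element of `Ft`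
integral over `k[x̃]` is a `k`-combination of residues of elements of the finite chart. -/
theorem mem_span_fin
    (hnorm : IsIntegrallyClosed (↥(chartAlgFin F₀ ℓ) ⊗[ℤℓ] k)) (ft : ↥Ft)
    (hft : IsIntegral (Algebra.adjoin k {D.xt}) ft) :
    ft ∈ Submodule.span k
      ((D.constRed hπ hπs).resF '' chartBar (L := L) F₀ ℓ {jG F₀}) := by
  rw [← resChart_jChartFin F₀ A hA hπ hπs ι D I hDx] at hft
  refine mem_span_of_isIntegral F₀ A hA hπ hπs ι D I.zl (hSFin F₀ ℓ)
    (S28X.redDataFin F₀ ℓ I) rfl ?_ ?_ hnorm (jChartFin F₀ ℓ) ft hft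
  · refine ⟨jChartFin F₀ ℓ, 1, ?_, ?_⟩
    · rw [map_one]
      exact one_ne_zero
    · rw [map_one, mul_one, resChart_jChartFin F₀ A hA hπ hπs ι D I hDx]
  · intro i
    refine ⟨I.fam i, 1, ?_, ?_⟩
    · rw [map_one]
      exact one_ne_zero
    · rw [map_one, mul_one, resChart_fam F₀ A hA hπ hπs ι D I hDm]

include hA ι hDx hDm in
/-- **(B5), chart at infinity**: if `chartAlgInf ⊗ k` is integrally closed, every element of
`Ft` integral over `k[1/x̃]` is a `k`-combination of residues of elements of the chart at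
infinity. -/
theorem mem_span_inf
    (hnorm : IsIntegrallyClosed (↥(chartAlgInf F₀ ℓ) ⊗[ℤℓ] k)) (ft : ↥Ft)
    (hft : IsIntegral (Algebra.adjoin k {(D.xt)⁻¹}) ft) :
    ft ∈ Submodule.span k
      ((D.constRed hπ hπs).resF '' chartBar (L := L) F₀ ℓ {(jG F₀)⁻¹}) := by
  rw [← resChart_jInvChartInf F₀ A hA hπ hπs ι D I hDx] at hft
  have hinv0 : resChart F₀ A hA hπ hπs ι D I.zl (hSInf F₀ ℓ) (jInvChartInf F₀ ℓ) ≠ 0 := by
    rw [resChart_jInvChartInf F₀ A hA hπ hπs ι D I hDx]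
    exact inv_ne_zero (xt_ne_zero F₀ A D hDx)
  refine mem_span_of_isIntegral F₀ A hA hπ hπs ι D I.zl (hSInf F₀ ℓ)
    (S28X.redDataInf F₀ ℓ I) rfl ?_ ?_ hnorm (jInvChartInf F₀ ℓ) ft hft
  · refine ⟨1, jInvChartInf F₀ ℓ, hinv0, ?_⟩
    rw [map_one, resChart_jInvChartInf F₀ A hA hπ hπs ι D I hDx,
      mul_inv_cancel₀ (xt_ne_zero F₀ A D hDx)]
  · intro i
    -- `(1/j)^m * fam i` lies in the chart at infinity
    have hz : ((I.fam i : ↥(chartAlgFin F₀ ℓ)) : ↥F₀) ∈
        chartAlg F₀ ℓ (insert (jG F₀)⁻¹⁻¹ {(jG F₀)⁻¹}) := by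
      rw [inv_inv]
      exact chartAlg_mono F₀ ℓ (sFin_subset F₀) (I.fam i).2
    obtain ⟨m, hm⟩ := exists_pow_mul_mem_chartAlg (F₀ := F₀) (ℓ := ℓ) (S := {(jG F₀)⁻¹})
      (s := (jG F₀)⁻¹) (Set.mem_singleton _) (inv_ne_zero (jG_ne_zero F₀)) hz
    have hg : ((((I.fam i : ↥(chartAlgFin F₀ ℓ)) : ↥F₀)) : LaurentSeries ℚ) ∈ gaussSubring ℓ :=
      coe_mem_gaussSubring_of_mem_chartAlg F₀ ℓ I.zl (hSFin F₀ ℓ) (I.fam i).2
    refine ⟨⟨_, hm⟩, jInvChartInf F₀ ℓ ^ m, ?_, ?_⟩
    · rw [map_pow]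
      exact pow_ne_zero m hinv0
    · rw [resChart_eq_mul_of_gauss F₀ A hA hπ hπs ι D I.zl (hSInf F₀ ℓ) hg ⟨_, hm⟩
        (jInvChartInf F₀ ℓ ^ m) (by
          show (jG F₀)⁻¹ ^ m * _ = _ * ((jInvChartInf F₀ ℓ ^ m : ↥(chartAlgInf F₀ ℓ)) : ↥F₀)
          rw [SubmonoidClass.coe_pow, mul_comm]
          rfl)]
      congr 1
      exact res_embL_fam F₀ A hπ hπs D I hDm i _

omit [Algebra (GaloisRep.ratLocalizedAt ℓ) k] in
include hDx in
/-- **(B3)** in the form of the genus leaf: finite chart -/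
theorem polesAtPoles_chartBarFin :
    ∀ b ∈ chartBar (L := L) F₀ ℓ {jG F₀}, PolesAtPoles L D.xF b := by
  rintro _ ⟨x, hx, rfl⟩ P hP
  rw [xF_eq_embL_jG F₀ A D hDx]
  exact ord_j_neg_of_ord_embL_neg F₀ ⟨x, hx⟩ P hP

omit [Algebra (GaloisRep.ratLocalizedAt ℓ) k] in
include hDx in
/-- **(B3)** in the form of the genus leaf: chart at infinity -/
theorem polesAtZeros_chartBarInf :
    ∀ b ∈ chartBar (L := L) F₀ ℓ {(jG F₀)⁻¹}, PolesAtZeros L D.xF b := by
  rintro _ ⟨x, hx, rfl⟩ P hP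
  rw [xF_eq_embL_jG F₀ A D hDx]
  exact ord_j_pos_of_ord_embL_neg F₀ ⟨x, hx⟩ P hP

end TwoCharts

end Fermat.Agent.DS.X1.Good.BridgeGen
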