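import Mathlib
import Fermat.Agent.DS.X1.Good.BridgeChart
import Fermat.Agent.DS.Good.GenusGeneric

/-!
# PROGRAMME III, X1-GOOD, leaf G-4 (part 3): the final plug, generic in `F₀ ⊂ ℚ((q))`

* `genusFF_eq_of_normal` : for ANY orthonormal data `D` of `L · F₀` linked to chart inputs `I`
  (`D.x = j`, `D.m i = I.fam i`), normality of the special fibres of the two charts
  `chartAlgFin F₀ ℓ ⊗ k`, `chartAlgInf F₀ ℓ ⊗ k` (G-1, G-2) and separability of `Ft / k(x̃)` give
  `genusFF k Ft = genusFF L (L · F₀)` — through helper14's genus leaf `DS/Good/GenusGeneric.lean`;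
* `HonestChartInputs F₀ ℓ d` : chart inputs whose family consists of HONEST series (coefficients in
  `ℤ_(ℓ)`), `HonestChartInputs.toChartInputs`;
* **`orthoData`, `genusFF_eq`** : the OUTPUT of G-4 in helper5's shape
  (`D : Val.OrthoData A π (laurentBaseChange L F₀) Ft d` with `D.xF = j`, and
  `genusFF k Ft = genusFF L (laurentBaseChange L F₀)`).
-/

set_option autoImplicit false
set_option linter.unusedSectionVars false
set_option linter.style.haveILetI false

open ModularCurve IntermediateField AlgebraicCurve TensorProduct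
open Fermat.Agent.Igusa Fermat.Agent.Val Fermat.Agent.DS.Chart Fermat.Agent.Good.Bridge
  Fermat.Agent.X0 Fermat.Agent.Good.GenusCharts

noncomputable section
namespace Fermat.Agent.DS.X1.Good.BridgeGen

set_option synthInstance.maxHeartbeats 400000

variable (F₀ : IntermediateField ℚ (LaurentSeries ℚ)) [hjF : Fact (jq ∈ F₀)]
  {ℓ : ℕ} [hℓ : Fact ℓ.Prime]
  {L : Type*} [Field L] [Algebra ℚ L] (A : ValuationSubring L) (hA : A.LiesOverPrime ℓ)
  {k : Type*} [Field k] {π : A →+* k}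
  (hπ : ∀ a : A, a ∈ IsLocalRing.maximalIdeal A → π a = 0) (hπs : Function.Surjective π)
  (ι : ZMod ℓ →+* k)

set_option quotPrecheck false in
local notation "ℤℓ" => ↥(GaloisRep.ratLocalizedAt ℓ)

section AnyData

variable {Ft : IntermediateField k (LaurentSeries k)} {n : ℕ}
  (D : OrthoData A π (laurentBaseChange L F₀) Ft n)
  (I : ChartInputs F₀ ℓ n) (hDx : D.x = jqModC A)
  (hDm : ∀ i, aIota A (D.m i) =
    coeffEmb L (((I.fam i : ↥(chartAlgFin F₀ ℓ)) : ↥F₀) : LaurentSeries ℚ))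
  [Algebra (GaloisRep.ratLocalizedAt ℓ) k] [IsAlgClosed L] [IsAlgClosed k]

include hA hπ hπs ι hDx hDm in
/-- **The genus equality from the normality of the special fibres of the two charts**, for any
orthonormal data linked to the chart inputs. -/
theorem genusFF_eq_of_normal (hsept : Algebra.IsSeparable k⟮D.xt⟯ Ft)
    (hnF : IsIntegrallyClosed (↥(chartAlgFin F₀ ℓ) ⊗[ℤℓ] k))
    (hnI : IsIntegrallyClosed (↥(chartAlgInf F₀ ℓ) ⊗[ℤℓ] k)) :
    genusFF k Ft = genusFF L (laurentBaseChange L F₀) := by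
  haveI : CharZero L := algebraRat.charZero L
  exact Fermat.Agent.DS.Good.genusFF_eq_of_charts_charZero D hπ hπs hsept
    (chartBar (L := L) F₀ ℓ {jG F₀}) (chartBar (L := L) F₀ ℓ {(jG F₀)⁻¹})
    (chartBar_subset_O F₀ A hA hπ hπs ι D I.zl (hSFin F₀ ℓ))
    (chartBar_subset_O F₀ A hA hπ hπs ι D I.zl (hSInf F₀ ℓ))
    (polesAtPoles_chartBarFin F₀ A D hDx) (polesAtZeros_chartBarInf F₀ A D hDx)
    (mem_span_fin F₀ A hA hπ hπs ι D I hDx hDm hnF)
    (mem_span_inf F₀ A hA hπ hπs ι D I hDx hDm hnI)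

end AnyData

/-! ### Honest chart inputs -/

variable (ℓ) in
/-- **Chart inputs with an honest family**: `F₀` consists of `ℤ_(ℓ)`-fractions, `[F₀ : ℚ(j)] ≤ d`,
and `d` series with coefficients in `ℤ_(ℓ)`, lying in `F₀`, integral over `ℤ_(ℓ)[j]`, with
reductions independent over `𝔽_ℓ(j̄)`. -/
structure HonestChartInputs (d : ℕ) where
  zl : IsZlField F₀ ℓ
  deg : DegInputs F₀ d
  H : HonestFamily F₀ ℓ d
  int : ∀ i, (⟨zlIota ℓ (H.m i), H.mem i⟩ : ↥F₀) ∈ chartAlgFin F₀ ℓ

namespace HonestChartInputs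

variable {F₀} {d : ℕ} (J : HonestChartInputs F₀ ℓ d)

/-- the underlying chart inputs of helper27's layer -/
def toChartInputs : ChartInputs F₀ ℓ d where
  zl := J.zl
  deg := J.deg
  fam := fun i => ⟨⟨zlIota ℓ (J.H.m i), J.H.mem i⟩, J.int i⟩
  indep := by
    intro g hg h
    refine J.H.indep g hg ?_
    rw [← h]
    refine Finset.sum_congr rfl fun i _ => ?_
    rw [chartRes_eq_zlRed F₀ ℓ J.zl (hSFin F₀ ℓ) _ (J.H.m i) rfl]

theorem coe_toChartInputs_fam (i : Fin d) :
    (((J.toChartInputs.fam i : ↥(chartAlgFin F₀ ℓ)) : ↥F₀) : LaurentSeries ℚ) =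
      zlIota ℓ (J.H.m i) := rfl

end HonestChartInputs

section Output

variable {F₀} {d : ℕ} (J : HonestChartInputs F₀ ℓ d)
  (Ft : IntermediateField k (LaurentSeries k)) (hFt_le : Ft ≤ redField F₀ ℓ ι)
  (hxt : jqModC k ∈ Ft) (hmt : ∀ i, coeffMap ι (zlRed ℓ (J.H.m i)) ∈ Ft)

/-- **OUTPUT of G-4, the orthonormal data** (`x = j`, `m i =` the honest family). -/
def orthoData : OrthoData A π (laurentBaseChange L F₀) Ft d :=
  orthoDataOfHonest F₀ ℓ ι A hA π J.deg J.H Ft hFt_le hxt hmt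

theorem orthoData_x : (orthoData A hA ι J Ft hFt_le hxt hmt (π := π)).x = jqModC A := rfl

theorem orthoData_xF :
    (orthoData A hA ι J Ft hFt_le hxt hmt (π := π)).xF = embL L F₀ (jG F₀) :=
  orthoDataOfHonest_xF F₀ ℓ ι A hA π J.deg J.H Ft hFt_le hxt hmt

theorem orthoData_m (i : Fin d) :
    aIota A ((orthoData A hA ι J Ft hFt_le hxt hmt (π := π)).m i) =
      coeffEmb L (((J.toChartInputs.fam i : ↥(chartAlgFin F₀ ℓ)) : ↥F₀) : LaurentSeries ℚ) := by
  show aIota A (coeffMap (zlToA A hA) (J.H.m i)) = coeffEmb L (zlIota ℓ (J.H.m i))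
  rw [coeffEmb_zlIota A hA]

variable [Algebra (GaloisRep.ratLocalizedAt ℓ) k] [IsAlgClosed L] [IsAlgClosed k]

include hπ hπs in
/-- **OUTPUT of G-4, the genus equality** `g(Ft) = g(L · F₀)`: from the normality of the special
fibres of the two charts (G-1, G-2) and the separability of `Ft / k(j̃)`. -/
theorem genusFF_eq
    (hsept : Algebra.IsSeparable
      k⟮(orthoData A hA ι J Ft hFt_le hxt hmt (π := π)).xt⟯ Ft)
    (hnF : IsIntegrallyClosed (↥(chartAlgFin F₀ ℓ) ⊗[ℤℓ] k))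
    (hnI : IsIntegrallyClosed (↥(chartAlgInf F₀ ℓ) ⊗[ℤℓ] k)) :
    genusFF k Ft = genusFF L (laurentBaseChange L F₀) :=
  genusFF_eq_of_normal F₀ A hA hπ hπs ι (orthoData A hA ι J Ft hFt_le hxt hmt (π := π))
    J.toChartInputs (orthoData_x A hA ι J Ft hFt_le hxt hmt)
    (orthoData_m A hA ι J Ft hFt_le hxt hmt) hsept hnF hnI

end Output

end Fermat.Agent.DS.X1.Good.BridgeGen
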