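import Mathlib
import Fermat.Agent.DS.X1.Good.BridgeFinal
import Fermat.Agent.Good.SepLaurent
import Fermat.Agent.Good.IgusaSpecial
import Fermat.Agent.Val.ResidueFieldA

/-!
# PROGRAMME III, X1-GOOD, leaf G-4 (part 4): good reduction in the existential shape

Generic in `F₀ ⊂ ℚ((q))` (with `j ∈ F₀`).

* `isSeparable_xt_of_x` : for ANY orthonormal data `D` with `D.x = j`, over a perfect field `k` of
  characteristic `ℓ`, the extension `Ft / k(x̃)` is separable (`ord_q j̃ = -1` is prime to `ℓ`);
  so the hypothesis `hsept` of `genusFF_eq` is automatic;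
* `coeffStable_redField` : the reduction field `redField F₀ ℓ ι` is stable under the
  coefficientwise action of the ring endomorphisms of `k`;
* `riemannPkg_redField`, `genusFF_redField_eq` : the Riemann package and the genus equality for
  `Ft := redField F₀ ℓ ι`;
* **`exists_goodReduction`** : for `A` a valuation subring of `ℚ̄` over `ℓ`, from honest chart
  inputs and the normality of the special fibres of the two charts: the unfolded form of
  `J1Spec.GoodReductionAt F₀ A`.
-/

set_option autoImplicit false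
set_option linter.unusedSectionVars false
set_option linter.style.haveILetI false

open ModularCurve IntermediateField AlgebraicCurve TensorProduct
open Fermat.Agent.Igusa Fermat.Agent.Val Fermat.Agent.DS.Chart Fermat.Agent.Good.Bridge
  Fermat.Agent.X0 Fermat.Agent.Good.GenusCharts

noncomputable section
namespace Fermat.Agent.DS.X1.Good.BridgeGen

set_option synthInstance.maxHeartbeats 400000

section Sep

variable {L : Type*} [Field L] {A : ValuationSubring L} {k : Type*} [Field k] {π : A →+* k}
  {F : IntermediateField L (LaurentSeries L)} {Ft : IntermediateField k (LaurentSeries k)}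
  {n : ℕ} (D : OrthoData A π F Ft n)
  (hπ : ∀ a : A, a ∈ IsLocalRing.maximalIdeal A → π a = 0) (hπs : Function.Surjective π)

include hπ hπs in
/-- **Separability of the special fibre over `k(j̃)`** for any orthonormal data with `x = j`. -/
theorem isSeparable_xt_of_x (ℓ : ℕ) [Fact ℓ.Prime] [CharP k ℓ] [PerfectField k]
    (hDx : D.x = jqModC A) : Algebra.IsSeparable k⟮D.xt⟯ Ft := by
  haveI hfin : FiniteDimensional
      (IntermediateField.adjoin k ({(⟨aRed π D.x, D.hxt⟩ : Ft)} : Set Ft)) Ft :=
    D.finiteDimensional_t hπ hπs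
  haveI : Algebra.IsAlgebraic
      (IntermediateField.adjoin k ({(⟨aRed π D.x, D.hxt⟩ : Ft)} : Set Ft)) Ft :=
    Algebra.IsAlgebraic.of_finite _ _
  have hx : aRed π D.x = jqModC k := by rw [hDx, aRed, coeffMap_jqModC]
  show Algebra.IsSeparable
    (IntermediateField.adjoin k ({(⟨aRed π D.x, D.hxt⟩ : Ft)} : Set Ft)) Ft
  refine Fermat.Agent.Good.SepLaurent.algebra_isSeparable ℓ Ft (aRed π D.x) D.hxt ?_ ?_
  · rw [hx]
    exact jqModC_ne_zero_of_nontrivial k
  · rw [hx, Fermat.Agent.Good.S28X.order_jqModC']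
    intro h
    have h1 : (ℓ : ℤ) ∣ 1 := by simpa using h
    have h2 : ℓ ∣ 1 := by exact_mod_cast h1
    exact (Fact.out : ℓ.Prime).one_lt.ne' (Nat.dvd_one.mp h2)

end Sep

section RedField

variable (F₀ : IntermediateField ℚ (LaurentSeries ℚ)) (ℓ : ℕ) [hℓ : Fact ℓ.Prime]
  {k : Type*} [Field k] (ι : ZMod ℓ →+* k)

/-- **`redField F₀ ℓ ι` is coefficientwise stable.** -/
theorem coeffStable_redField (τ : k →+* k) (x : LaurentSeries k) (hx : x ∈ redField F₀ ℓ ι) :
    coeffMap τ x ∈ redField F₀ ℓ ι := by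
  let T : IntermediateField k (LaurentSeries k) :=
    ((redField F₀ ℓ ι).toSubfield.comap (coeffMap τ)).toIntermediateField fun c => by
      show coeffMap τ (algebraMap k (LaurentSeries k) c) ∈ redField F₀ ℓ ι
      rw [coeffMap_algebraMap]
      exact IntermediateField.algebraMap_mem _ _
  have hle : redField F₀ ℓ ι ≤ T := by
    rw [redField, IntermediateField.adjoin_le_iff]
    rintro y ⟨a, ha, rfl⟩
    show coeffMap τ (coeffMap ι (zlRed ℓ a)) ∈ redField F₀ ℓ ι
    rw [coeffMap_coeffMap, show τ.comp ι = ι from Subsingleton.elim _ _]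
    exact coeffMap_zlRed_mem_redField F₀ ℓ ι ha
  exact hle hx

end RedField

section Output

variable (F₀ : IntermediateField ℚ (LaurentSeries ℚ)) [hjF : Fact (jq ∈ F₀)]
  {ℓ : ℕ} [hℓ : Fact ℓ.Prime]
  {L : Type*} [Field L] [Algebra ℚ L] (A : ValuationSubring L) (hA : A.LiesOverPrime ℓ)
  {k : Type*} [Field k] {π : A →+* k}
  (hπ : ∀ a : A, a ∈ IsLocalRing.maximalIdeal A → π a = 0) (hπs : Function.Surjective π)
  (ι : ZMod ℓ →+* k)

set_option quotPrecheck false in
local notation "ℤℓ" => ↥(GaloisRep.ratLocalizedAt ℓ)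

variable {F₀} {d : ℕ} (J : HonestChartInputs F₀ ℓ d)

/-- the orthonormal data on the reduction field -/
def orthoDataRed : OrthoData A π (laurentBaseChange L F₀) (redField F₀ ℓ ι) d :=
  orthoDataRedField F₀ ℓ ι A hA π J.deg J.H

theorem orthoDataRed_x : (orthoDataRed A hA ι J (π := π)).x = jqModC A := rfl

theorem orthoDataRed_xF : (orthoDataRed A hA ι J (π := π)).xF = embL L F₀ (jG F₀) :=
  aIota_jqModC_eq F₀ A

theorem orthoDataRed_m (i : Fin d) :
    aIota A ((orthoDataRed A hA ι J (π := π)).m i) =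
      coeffEmb L (((J.toChartInputs.fam i : ↥(chartAlgFin F₀ ℓ)) : ↥F₀) : LaurentSeries ℚ) := by
  show aIota A (coeffMap (zlToA A hA) (J.H.m i)) = coeffEmb L (zlIota ℓ (J.H.m i))
  rw [coeffEmb_zlIota A hA]

variable [CharP k ℓ] [IsAlgClosed k] [IsAlgClosed L]

include hπ hπs in
/-- separability of `redField / k(j̃)` -/
theorem isSeparable_redField :
    Algebra.IsSeparable k⟮(orthoDataRed A hA ι J (π := π)).xt⟯ (redField F₀ ℓ ι) :=
  isSeparable_xt_of_x _ hπ hπs ℓ rfl

include hA J hπ hπs in
/-- **The Riemann package of the reduction field.** -/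
theorem riemannPkg_redField : Fermat.Agent.Red.RiemannPkg k (redField F₀ ℓ ι) :=
  Fermat.Agent.DS.Good.riemannPkg_Ft (orthoDataRed A hA ι J (π := π)) hπ hπs
    (isSeparable_redField A hA hπ hπs ι J)

variable [Algebra (GaloisRep.ratLocalizedAt ℓ) k]

include hA J hπ hπs in
/-- **The genus equality for the reduction field** from the normality of the special fibres of
the two charts. -/
theorem genusFF_redField_eq
    (hnF : IsIntegrallyClosed (↥(chartAlgFin F₀ ℓ) ⊗[ℤℓ] k))
    (hnI : IsIntegrallyClosed (↥(chartAlgInf F₀ ℓ) ⊗[ℤℓ] k)) :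
    genusFF k (redField F₀ ℓ ι) = genusFF L (laurentBaseChange L F₀) :=
  genusFF_eq_of_normal F₀ A hA hπ hπs ι (orthoDataRed A hA ι J (π := π))
    J.toChartInputs rfl (orthoDataRed_m A hA ι J) (isSeparable_redField A hA hπ hπs ι J) hnF hnI

end Output

/-! ### The case of `ℚ̄` -/

section Qbar

open IsLocalRing

variable {F₀ : IntermediateField ℚ (LaurentSeries ℚ)} [hjF : Fact (jq ∈ F₀)]
  {ℓ : ℕ} [hℓ : Fact ℓ.Prime]
  (A : ValuationSubring (AlgebraicClosure ℚ)) (hA : A.LiesOverPrime ℓ)
  {d : ℕ} (J : HonestChartInputs F₀ ℓ d)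

set_option quotPrecheck false in
local notation "ℤℓ" => ↥(GaloisRep.ratLocalizedAt ℓ)

include hA J in
/-- **Good reduction of `ℚ̄ · F₀` at `A`** (the unfolded form of `J1Spec.GoodReductionAt F₀ A`):
from honest chart inputs at `ℓ` and the normality of the special fibres of the two charts over the
residue field of `A`. -/
theorem exists_goodReduction [Algebra (GaloisRep.ratLocalizedAt ℓ) (ResidueField A)]
    (hnF : IsIntegrallyClosed (↥(chartAlgFin F₀ ℓ) ⊗[ℤℓ] ResidueField A))
    (hnI : IsIntegrallyClosed (↥(chartAlgInf F₀ ℓ) ⊗[ℤℓ] ResidueField A)) :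
    ∃ (Ft : IntermediateField (ResidueField A) (LaurentSeries (ResidueField A))) (n : ℕ)
      (_ : OrthoData A (residue A) (laurentBaseChange (AlgebraicClosure ℚ) F₀) Ft n),
      (∀ (τ : ResidueField A →+* ResidueField A) (x : LaurentSeries (ResidueField A)),
        x ∈ Ft → coeffMap τ x ∈ Ft) ∧
      Fermat.Agent.Red.RiemannPkg (ResidueField A) Ft ∧
      genusFF (ResidueField A) Ft =
        genusFF (AlgebraicClosure ℚ) (laurentBaseChange (AlgebraicClosure ℚ) F₀) := by
  haveI : CharP (ResidueField A) ℓ := charP_residueField_of_liesOverPrime A hA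
  haveI : IsAlgClosed (ResidueField A) := residueField_isAlgClosed A
  have hπ : ∀ a : A, a ∈ maximalIdeal A → residue A a = 0 := fun a ha =>
    (residue_eq_zero_iff a).mpr ha
  have hπs : Function.Surjective (residue A) := residue_surjective
  let ι : ZMod ℓ →+* ResidueField A := ZMod.castHom (dvd_refl ℓ) (ResidueField A)
  exact ⟨redField F₀ ℓ ι, d, orthoDataRed A hA ι J, coeffStable_redField F₀ ℓ ι,
    riemannPkg_redField A hA hπ hπs ι J, genusFF_redField_eq A hA hπ hπs ι J hnF hnI⟩

end Qbar

end Fermat.Agent.DS.X1.Good.BridgeGen
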