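import Mathlib
import Fermat.Agent.DS.X1.Good.BridgeGood
import Fermat.Agent.DS.X1.Honest

/-!
# PROGRAMME III, X1-GOOD, leaf G-4 (part 5): chart inputs are automatically honest

By helper23's normality lemma (`DS/X1/Honest.lean`: `ℤ_(ℓ)((q))` is integrally closed, so a
`ℤ_(ℓ)`-fraction integral over honest series is an honest series), every element of a chart
algebra `chartAlg F₀ ℓ S` (with honest generators `S`) has `ℤ_(ℓ)`-coefficients.  Hence

* `exists_zlIota_of_mem_chartAlg`, `exists_zlIota_of_mem_chartAlgFin`;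
* `HonestChartInputs.ofChartInputs : ChartInputs F₀ ℓ d → HonestChartInputs F₀ ℓ d`
  (`toChartInputs_ofChartInputs : (ofChartInputs I).toChartInputs = I`);
* **`exists_goodReduction_of_chartInputs`** : good reduction of `ℚ̄ · F₀` at `A` (unfolded form of
  `J1Spec.GoodReductionAt F₀ A`, plus `D.xF = j`) from `I : Chart.ChartInputs F₀ ℓ d` and the
  normality of the special fibres of the two charts.
-/

set_option autoImplicit false
set_option linter.unusedSectionVars false
set_option linter.style.haveILetI false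

open ModularCurve IntermediateField AlgebraicCurve TensorProduct
open Fermat.Agent.Igusa Fermat.Agent.Val Fermat.Agent.DS.Chart Fermat.Agent.Good.Bridge
  Fermat.Agent.X0 Fermat.Agent.Good.GenusCharts

noncomputable section
namespace Fermat.Agent.DS.X1.Good.BridgeGen

set_option synthInstance.maxHeartbeats 400000

variable (F₀ : IntermediateField ℚ (LaurentSeries ℚ)) [hjF : Fact (jq ∈ F₀)]
  (ℓ : ℕ) [hℓ : Fact ℓ.Prime]

set_option quotPrecheck false in
local notation "ℤℓ" => ↥(GaloisRep.ratLocalizedAt ℓ)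

omit hjF in
/-- elements of `ℤ_(ℓ)[S]` are honest series if those of `S` are -/
theorem exists_zlIota_of_mem_adjoin {S : Set ↥F₀}
    (hS : ∀ s ∈ S, ∃ y : LaurentSeries ℤℓ, zlIota ℓ y = ((s : ↥F₀) : LaurentSeries ℚ)) {x : ↥F₀}
    (hx : x ∈ Algebra.adjoin ℤℓ S) :
    ∃ y : LaurentSeries ℤℓ, zlIota ℓ y = ((x : ↥F₀) : LaurentSeries ℚ) := by
  induction hx using Algebra.adjoin_induction with
  | mem y hy => exact hS y hy
  | algebraMap r =>
    refine ⟨HahnSeries.C r, ?_⟩
    rw [Chart.coe_algebraMap_zl, zlIota]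
    exact coeffMap_single _ 0 r
  | add y z _ _ hy hz =>
    obtain ⟨a, ha⟩ := hy
    obtain ⟨b, hb⟩ := hz
    exact ⟨a + b, by rw [map_add, ha, hb]; rfl⟩
  | mul y z _ _ hy hz =>
    obtain ⟨a, ha⟩ := hy
    obtain ⟨b, hb⟩ := hz
    exact ⟨a * b, by rw [map_mul, ha, hb]; rfl⟩

omit hjF in
/-- **Chart elements are honest series**: an element of `F₀` (a field of `ℤ_(ℓ)`-fractions)
integral over `ℤ_(ℓ)[S]`, `S` consisting of honest series, has coefficients in `ℤ_(ℓ)`. -/
theorem exists_zlIota_of_mem_chartAlg (hfr : IsZlField F₀ ℓ) {S : Set ↥F₀}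
    (hS : ∀ s ∈ S, ∃ y : LaurentSeries ℤℓ, zlIota ℓ y = ((s : ↥F₀) : LaurentSeries ℚ)) {x : ↥F₀}
    (hx : x ∈ chartAlg F₀ ℓ S) :
    ∃ y : LaurentSeries ℤℓ, zlIota ℓ y = ((x : ↥F₀) : LaurentSeries ℚ) := by
  have hint : IsIntegral (Algebra.adjoin ℤℓ S) x := (mem_chartAlg_iff F₀ ℓ).mp hx
  obtain ⟨P, hP, hPx⟩ := hint
  refine Fermat.Agent.DS.X1.Honest.exists_zlIota_eq_of_isIntegral' ℓ (hfr _ x.2)
    ((Chart.fullVal F₀).comp (algebraMap (Algebra.adjoin ℤℓ S) ↥F₀)) ?_ P hP ?_
  · intro a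
    exact exists_zlIota_of_mem_adjoin F₀ ℓ hS a.2
  · rw [← Chart.fullVal_apply, ← Polynomial.hom_eval₂, hPx, map_zero]

/-- elements of the finite chart are honest series -/
theorem exists_zlIota_of_mem_chartAlgFin (hfr : IsZlField F₀ ℓ) {x : ↥F₀}
    (hx : x ∈ chartAlgFin F₀ ℓ) :
    ∃ y : LaurentSeries ℤℓ, zlIota ℓ y = ((x : ↥F₀) : LaurentSeries ℚ) := by
  refine exists_zlIota_of_mem_chartAlg F₀ ℓ hfr ?_ hx
  intro s hs
  rw [Set.mem_singleton_iff] at hs
  subst hs
  exact ⟨jqModC ℤℓ, (Chart.ChartBaseAux.jq_eq_zlIota ℓ).symm⟩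

namespace HonestChartInputs

variable {F₀ ℓ} {d : ℕ} (I : ChartInputs F₀ ℓ d)

/-- the honest series of the family of chart inputs -/
def honestOf (i : Fin d) : LaurentSeries ℤℓ :=
  (exists_zlIota_of_mem_chartAlgFin F₀ ℓ I.zl (I.fam i).2).choose

theorem zlIota_honestOf (i : Fin d) :
    zlIota ℓ (honestOf I i) = (((I.fam i : ↥(chartAlgFin F₀ ℓ)) : ↥F₀) : LaurentSeries ℚ) :=
  (exists_zlIota_of_mem_chartAlgFin F₀ ℓ I.zl (I.fam i).2).choose_spec

/-- **Chart inputs are honest chart inputs.** -/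
def ofChartInputs : HonestChartInputs F₀ ℓ d where
  zl := I.zl
  deg := I.deg
  H :=
    { m := honestOf I
      mem := fun i => by
        rw [zlIota_honestOf]
        exact SetLike.coe_mem _
      indep := by
        intro g hg h
        refine I.indep g hg ?_
        rw [← h]
        refine Finset.sum_congr rfl fun i _ => ?_
        rw [chartRes_eq_zlRed F₀ ℓ I.zl (hSFin F₀ ℓ) _ (honestOf I i) (zlIota_honestOf I i).symm] }
  int := fun i => by
    have h : (⟨zlIota ℓ (honestOf I i), by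
        rw [zlIota_honestOf]; exact SetLike.coe_mem _⟩ : ↥F₀) =
        ((I.fam i : ↥(chartAlgFin F₀ ℓ)) : ↥F₀) := Subtype.ext (zlIota_honestOf I i)
    rw [h]
    exact (I.fam i).2

theorem toChartInputs_ofChartInputs_fam (i : Fin d) :
    (ofChartInputs I).toChartInputs.fam i = I.fam i :=
  Subtype.ext (Subtype.ext (zlIota_honestOf I i))

end HonestChartInputs

/-! ### Good reduction from chart inputs -/

section Qbar

open IsLocalRing

variable {F₀} {ℓ}
  (A : ValuationSubring (AlgebraicClosure ℚ)) (hA : A.LiesOverPrime ℓ)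
  {d : ℕ}

include hA in
/-- **Good reduction of `ℚ̄ · F₀` at `A`, with `j` as separating variable of the data**
(`J1Spec.GoodReductionAt F₀ A` unfolded, plus `D.xF = j`), from honest chart inputs. -/
theorem exists_goodReduction_xF (J : HonestChartInputs F₀ ℓ d)
    [Algebra (GaloisRep.ratLocalizedAt ℓ) (ResidueField A)]
    (hnF : IsIntegrallyClosed (↥(chartAlgFin F₀ ℓ) ⊗[ℤℓ] ResidueField A))
    (hnI : IsIntegrallyClosed (↥(chartAlgInf F₀ ℓ) ⊗[ℤℓ] ResidueField A)) :
    ∃ (Ft : IntermediateField (ResidueField A) (LaurentSeries (ResidueField A))) (n : ℕ)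
      (D : OrthoData A (residue A) (laurentBaseChange (AlgebraicClosure ℚ) F₀) Ft n),
      (∀ (τ : ResidueField A →+* ResidueField A) (x : LaurentSeries (ResidueField A)),
        x ∈ Ft → coeffMap τ x ∈ Ft) ∧
      Fermat.Agent.Red.RiemannPkg (ResidueField A) Ft ∧
      genusFF (ResidueField A) Ft =
        genusFF (AlgebraicClosure ℚ) (laurentBaseChange (AlgebraicClosure ℚ) F₀) ∧
      D.xF = embL (AlgebraicClosure ℚ) F₀ (jG F₀) := by
  haveI : CharP (ResidueField A) ℓ := charP_residueField_of_liesOverPrime A hA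
  haveI : IsAlgClosed (ResidueField A) := residueField_isAlgClosed A
  have hπ : ∀ a : A, a ∈ maximalIdeal A → residue A a = 0 := fun a ha =>
    (residue_eq_zero_iff a).mpr ha
  have hπs : Function.Surjective (residue A) := residue_surjective
  let ι : ZMod ℓ →+* ResidueField A := ZMod.castHom (dvd_refl ℓ) (ResidueField A)
  exact ⟨redField F₀ ℓ ι, d, orthoDataRed A hA ι J, coeffStable_redField F₀ ℓ ι,
    riemannPkg_redField A hA hπ hπs ι J, genusFF_redField_eq A hA hπ hπs ι J hnF hnI,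
    orthoDataRed_xF A hA ι J⟩

include hA in
/-- **Good reduction from chart inputs** (helper27's `Chart.ChartInputs`; honesty is automatic). -/
theorem exists_goodReduction_of_chartInputs (I : ChartInputs F₀ ℓ d)
    [Algebra (GaloisRep.ratLocalizedAt ℓ) (ResidueField A)]
    (hnF : IsIntegrallyClosed (↥(chartAlgFin F₀ ℓ) ⊗[ℤℓ] ResidueField A))
    (hnI : IsIntegrallyClosed (↥(chartAlgInf F₀ ℓ) ⊗[ℤℓ] ResidueField A)) :
    ∃ (Ft : IntermediateField (ResidueField A) (LaurentSeries (ResidueField A))) (n : ℕ)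
      (D : OrthoData A (residue A) (laurentBaseChange (AlgebraicClosure ℚ) F₀) Ft n),
      (∀ (τ : ResidueField A →+* ResidueField A) (x : LaurentSeries (ResidueField A)),
        x ∈ Ft → coeffMap τ x ∈ Ft) ∧
      Fermat.Agent.Red.RiemannPkg (ResidueField A) Ft ∧
      genusFF (ResidueField A) Ft =
        genusFF (AlgebraicClosure ℚ) (laurentBaseChange (AlgebraicClosure ℚ) F₀) ∧
      D.xF = embL (AlgebraicClosure ℚ) F₀ (jG F₀) :=
  exists_goodReduction_xF A hA (HonestChartInputs.ofChartInputs I) hnF hnI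

end Qbar

end Fermat.Agent.DS.X1.Good.BridgeGen
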