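import Mathlib
import Fermat.Agent.Good.InstOdd

/-!
# PROGRAMME III, X1-GOOD leaf G-1 for `ℓ` odd (helper14): GOODQUOT for `ℓ ≠ 2`, GENERIC in the field

The `ℓ` odd instance `Good/InstOdd{Base,Q,Ram,Curve,}.lean` of main is written for `F = F_N`
(`modularFunctionFieldFull N`), but only uses `F_N` through a handful of inputs.  Here the same
argument (GOODQUOT Layer 3 for the Legendre cover over `ℤ_(ℓ)`) is carried out for an ARBITRARY
field `F` carrying compatible injective `ℚ[X]`- and `ℤ_(ℓ)[X]`-algebra structures (`X ↦ j`).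
Twin of helper12's `DS/X1/Good/InstTwoGen.lean` (`ℓ = 2`, Hesse cover), same interface.

* `charZero_of_polyQ`, `isSeparable_of_polyQ`, Dedekind / finite / torsion-free / fraction-ring
  properties of `integralClosure ℚ[X] F`;
* `exists_basis_isIntegral_discr_dvd_pow_legendre` : **(H2)** for the Legendre cover over `ℤ_(ℓ)`,
  from the three curve-side ramification hypotheses `hX`, `h1728`, `hgen` (index `∣ 3` over `j = 0`,
  `∣ 2` over `j = 1728`, `1` elsewhere) on `integralClosure ℚ[X] F`;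
* `isIntegrallyClosed_tensor_odd` : **the generic `ℓ` odd GOODQUOT**: for a `ℤ_(ℓ)`-subalgebra `B`
  of `F` which is the integral closure of `ℤ_(ℓ)[X]`, `(D)` + `(H1)` + `(RAM)` imply that
  `B ⊗[ℤ_(ℓ)] k` is integrally closed for every algebraically closed `k` of characteristic `ℓ`.

Everything deep (`GQ3`, `H2C`, `legendreCover`) is imported from main.
-/

set_option autoImplicit false
set_option linter.style.haveILetI false
set_option linter.unusedSectionVars false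
set_option linter.overlappingInstances false

open Polynomial TensorProduct Module
open Fermat.Agent.Igusa Fermat.Agent.Good Fermat.Agent.Good.InstOdd

noncomputable section
namespace Fermat.Agent.DS.X1.Good.InstOddGen

attribute [local instance] Algebra.TensorProduct.rightAlgebra

/-! ### The generic fibre `F / ℚ(X)` -/

section GenericFibre

variable {F : Type*} [Field F] [Algebra ℚ[X] F]
  (hinjQ : Function.Injective (algebraMap ℚ[X] F))
  {K₀ : Type*} [Field K₀] [Algebra ℚ[X] K₀] [IsFractionRing ℚ[X] K₀] [Algebra K₀ F]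
  [IsScalarTower ℚ[X] K₀ F] [FiniteDimensional K₀ F]

/-- a fraction field of `ℚ[X]` has characteristic zero -/
theorem charZero_of_polyQ (K₀ : Type*) [Field K₀] [Algebra ℚ[X] K₀] : CharZero K₀ :=
  charZero_of_injective_ringHom ((algebraMap ℚ[X] K₀).comp (C : ℚ →+* ℚ[X])).injective

include K₀ in
theorem isSeparable_of_polyQ : Algebra.IsSeparable K₀ F := by
  haveI := charZero_of_polyQ K₀
  infer_instance

include hinjQ in
theorem faithfulSMul_polyQ : FaithfulSMul ℚ[X] F :=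
  (faithfulSMul_iff_algebraMap_injective _ _).mpr hinjQ

include K₀ in
/-- the integral closure of `ℚ[X]` in `F` is a Dedekind domain -/
theorem isDedekindDomain_integralClosureQ : IsDedekindDomain ↥(integralClosure ℚ[X] F) := by
  haveI := isSeparable_of_polyQ (F := F) (K₀ := K₀)
  exact integralClosure.isDedekindDomain ℚ[X] K₀ F

include K₀ in
theorem finite_integralClosureQ : Module.Finite ℚ[X] ↥(integralClosure ℚ[X] F) := by
  haveI := isSeparable_of_polyQ (F := F) (K₀ := K₀)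
  exact IsIntegralClosure.finite ℚ[X] K₀ F ↥(integralClosure ℚ[X] F)

include K₀ in
theorem isFractionRing_integralClosureQ : IsFractionRing ↥(integralClosure ℚ[X] F) F :=
  integralClosure.isFractionRing_of_finite_extension K₀ F

include hinjQ in
theorem isTorsionFree_integralClosureQ :
    Module.IsTorsionFree ℚ[X] ↥(integralClosure ℚ[X] F) := by
  haveI := faithfulSMul_polyQ hinjQ
  haveI : Module.IsTorsionFree ℚ[X] F := inferInstance
  exact IsIntegralClosure.isTorsionFree ℚ[X] F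

end GenericFibre

/-! ### (H2) for the Legendre cover over `ℤ_(ℓ)` -/

section H2

variable (ℓ : ℕ) [Fact ℓ.Prime]

set_option quotPrecheck false in
local notation "ℤℓ" => ↥(GaloisRep.ratLocalizedAt ℓ)

variable {F : Type*} [Field F] [Algebra ℚ[X] F] [Algebra (↥(GaloisRep.ratLocalizedAt ℓ))[X] F]
  (hinjQ : Function.Injective (algebraMap ℚ[X] F))
  (hinj : Function.Injective (algebraMap (↥(GaloisRep.ratLocalizedAt ℓ))[X] F))
  (hcompat : ∀ p : (↥(GaloisRep.ratLocalizedAt ℓ))[X],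
    algebraMap ℚ[X] F (p.map (algebraMap ↥(GaloisRep.ratLocalizedAt ℓ) ℚ)) =
      algebraMap (↥(GaloisRep.ratLocalizedAt ℓ))[X] F p)
  {K₀ : Type*} [Field K₀] [Algebra ℚ[X] K₀] [IsFractionRing ℚ[X] K₀] [Algebra K₀ F]
  [IsScalarTower ℚ[X] K₀ F] [FiniteDimensional K₀ F]
  [Invertible (2 : ↥(GaloisRep.ratLocalizedAt ℓ))]

include hinj in
theorem faithfulSMul_polyZ : FaithfulSMul ℤℓ[X] F :=
  (faithfulSMul_iff_algebraMap_injective _ _).mpr hinj

include hinjQ hinj hcompat K₀ in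
/-- **(H2) for the Legendre cover over `ℤ_(ℓ)`**, `ℓ` odd, generic in `F`: the hypothesis (H2) of
`GQ3.isIntegrallyClosed_tensor_of_rigidCover` for `P = legendreCover ℤ_(ℓ)`, `p = ℓ`, from the
curve-side ramification data of `B₀ = integralClosure ℚ[X] F`. -/
theorem exists_basis_isIntegral_discr_dvd_pow_legendre
    (hX :
      haveI := isDedekindDomain_integralClosureQ (F := F) (K₀ := K₀)
      ∀ Q : Ideal ↥(integralClosure ℚ[X] F), Q.IsPrime →
        algebraMap ℚ[X] ↥(integralClosure ℚ[X] F) X ∈ Q → ramCount (X : ℚ[X]) Q ∣ 3)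
    (h1728 :
      haveI := isDedekindDomain_integralClosureQ (F := F) (K₀ := K₀)
      ∀ Q : Ideal ↥(integralClosure ℚ[X] F), Q.IsPrime →
        algebraMap ℚ[X] ↥(integralClosure ℚ[X] F) (X - C 1728) ∈ Q →
        ramCount (X - C 1728 : ℚ[X]) Q ∣ 2)
    (hgen :
      haveI := isDedekindDomain_integralClosureQ (F := F) (K₀ := K₀)
      ∀ ϖ : ℚ[X], Irreducible ϖ → ϖ.Monic → ϖ ≠ X → ϖ ≠ X - C 1728 →
        ∀ Q : Ideal ↥(integralClosure ℚ[X] F), Q.IsPrime →
          algebraMap ℚ[X] ↥(integralClosure ℚ[X] F) ϖ ∈ Q → ramCount ϖ Q = 1)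
    (L : Type*) [Field L] [Algebra (legendreCover ℤℓ).R L]
    [IsFractionRing (legendreCover ℤℓ).R L]
    {ι : Type*} [Fintype ι] [DecidableEq ι]
    (hι : Fintype.card ι = Module.finrank K₀ F) :
    haveI := faithfulSMul_polyZ ℓ hinj
    letI := Aux.algebraFrac ℤℓ[X] (legendreCover ℤℓ).R F L
    ∃ c' : Basis ι L (F ⊗[ℤℓ[X]] (legendreCover ℤℓ).R),
      (∀ i, IsIntegral (legendreCover ℤℓ).R (c' i)) ∧
      ∃ d' : (legendreCover ℤℓ).R, algebraMap (legendreCover ℤℓ).R L d' =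
        Algebra.discr L c' ∧ ∃ m : ℕ, d' ∣ (legendreCover ℤℓ).const (zlPrime ℓ) ^ m := by
  letI i2Q : Invertible (2 : ℚ) := invertibleOfNonzero two_ne_zero
  haveI := faithfulSMul_polyZ ℓ hinj
  haveI := isDedekindDomain_integralClosureQ (F := F) (K₀ := K₀)
  haveI := finite_integralClosureQ (F := F) (K₀ := K₀)
  haveI := isTorsionFree_integralClosureQ hinjQ
  haveI := isFractionRing_integralClosureQ (F := F) (K₀ := K₀)
  haveI := isSeparable_of_polyQ (F := F) (K₀ := K₀)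
  haveI locQ : IsLocalization.Away (zlPrime ℓ) ℚ := isLocalization_away_zlPrime_rat ℓ
  exact H2C.exists_basis_isIntegral_discr_dvd_pow (zlPrime ℓ) (legendreHom (algebraMap ℤℓ ℚ))
    ↥(integralClosure ℚ[X] F) K₀ L
    (legU0Poly_separable ℚ) (legV1Poly_separable ℚ) hcompat hX h1728 hgen hι

end H2

/-! ### The generic `ℓ` odd GOODQUOT -/

section Final

variable (ℓ : ℕ) [Fact ℓ.Prime]

set_option quotPrecheck false in
local notation "ℤℓ" => ↥(GaloisRep.ratLocalizedAt ℓ)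

variable {F : Type*} [Field F]
  [Algebra ℚ[X] F] [Algebra ↥(GaloisRep.ratLocalizedAt ℓ) F]
  [Algebra (↥(GaloisRep.ratLocalizedAt ℓ))[X] F]
  [IsScalarTower ↥(GaloisRep.ratLocalizedAt ℓ) (↥(GaloisRep.ratLocalizedAt ℓ))[X] F]
  (hinjQ : Function.Injective (algebraMap ℚ[X] F))
  (hinj : Function.Injective (algebraMap (↥(GaloisRep.ratLocalizedAt ℓ))[X] F))
  (hcompat : ∀ p : (↥(GaloisRep.ratLocalizedAt ℓ))[X],
    algebraMap ℚ[X] F (p.map (algebraMap ↥(GaloisRep.ratLocalizedAt ℓ) ℚ)) =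
      algebraMap (↥(GaloisRep.ratLocalizedAt ℓ))[X] F p)
  {K₀ : Type*} [Field K₀] [Algebra ℚ[X] K₀] [IsFractionRing ℚ[X] K₀] [Algebra K₀ F]
  [IsScalarTower ℚ[X] K₀ F] [FiniteDimensional K₀ F]
  {Kz : Type*} [Field Kz] [Algebra (↥(GaloisRep.ratLocalizedAt ℓ))[X] Kz]
  [IsFractionRing (↥(GaloisRep.ratLocalizedAt ℓ))[X] Kz] [Algebra Kz F]
  [IsScalarTower (↥(GaloisRep.ratLocalizedAt ℓ))[X] Kz F]

/-- the `ℤ_(ℓ)[X]`-algebra structure on the integral closure `B` of `ℤ_(ℓ)[X]` in `F` -/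
@[reducible]
def polyAlgebraB (B : Subalgebra ℤℓ F) (hB : ∀ x : F, x ∈ B ↔ IsIntegral ℤℓ[X] x) :
    Algebra ℤℓ[X] ↥B :=
  ((algebraMap ℤℓ[X] F).codRestrict B.toSubring
    (fun _ => (hB _).mpr isIntegral_algebraMap)).toAlgebra

theorem coe_polyAlgebraB_algebraMap (B : Subalgebra ℤℓ F)
    (hB : ∀ x : F, x ∈ B ↔ IsIntegral ℤℓ[X] x) (P : ℤℓ[X]) :
    letI := polyAlgebraB ℓ B hB
    ((algebraMap ℤℓ[X] ↥B P : ↥B) : F) = algebraMap ℤℓ[X] F P := rfl

include hinjQ hinj hcompat K₀ in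
/-- **GOODQUOT for `ℓ` odd, finite chart, GENERIC in the field `F`.**  `B` = the integral closure
of `ℤ_(ℓ)[X]` in `F` (as a `ℤ_(ℓ)`-subalgebra); `k` algebraically closed of characteristic `ℓ ≠ 2`.
From (D) `IsDomain (B ⊗ k)`, (H1) a `Frac ℤ_(ℓ)[X]`-basis of `F` of integral elements whose
discriminant is not divisible by `ℓ`, and the curve-side ramification data (RAM) of
`integralClosure ℚ[X] F`, the special fibre `B ⊗[ℤ_(ℓ)] k` is integrally closed. -/
theorem isIntegrallyClosed_tensor_odd (hℓ2 : ℓ ≠ 2)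
    (B : Subalgebra ℤℓ F) (hB : ∀ x : F, x ∈ B ↔ IsIntegral ℤℓ[X] x)
    (k : Type*) [Field k] [IsAlgClosed k] [CharP k ℓ] [Algebra ℤℓ k]
    [IsDomain (↥B ⊗[ℤℓ] k)]
    -- (H1)
    {ι : Type*} [Fintype ι] [DecidableEq ι]
    (b : Basis ι Kz F) (hb : ∀ i, IsIntegral ℤℓ[X] (b i)) (d : ℤℓ[X])
    (hd : Algebra.discr Kz b = algebraMap ℤℓ[X] Kz d) (hdvd : ¬ C (zlPrime ℓ) ∣ d)
    -- the index type also indexes a basis over `Frac ℚ[X]`
    (bQ : Basis ι K₀ F)
    -- (RAM)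
    (hX :
      haveI := isDedekindDomain_integralClosureQ (F := F) (K₀ := K₀)
      ∀ Q : Ideal ↥(integralClosure ℚ[X] F), Q.IsPrime →
        algebraMap ℚ[X] ↥(integralClosure ℚ[X] F) X ∈ Q → ramCount (X : ℚ[X]) Q ∣ 3)
    (h1728 :
      haveI := isDedekindDomain_integralClosureQ (F := F) (K₀ := K₀)
      ∀ Q : Ideal ↥(integralClosure ℚ[X] F), Q.IsPrime →
        algebraMap ℚ[X] ↥(integralClosure ℚ[X] F) (X - C 1728) ∈ Q →
        ramCount (X - C 1728 : ℚ[X]) Q ∣ 2)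
    (hgen :
      haveI := isDedekindDomain_integralClosureQ (F := F) (K₀ := K₀)
      ∀ ϖ : ℚ[X], Irreducible ϖ → ϖ.Monic → ϖ ≠ X → ϖ ≠ X - C 1728 →
        ∀ Q : Ideal ↥(integralClosure ℚ[X] F), Q.IsPrime →
          algebraMap ℚ[X] ↥(integralClosure ℚ[X] F) ϖ ∈ Q → ramCount ϖ Q = 1) :
    IsIntegrallyClosed (↥B ⊗[ℤℓ] k) := by
  classical
  letI i2 : Invertible (2 : ℤℓ) := invertibleTwo ℓ hℓ2
  letI i2k : Invertible (2 : k) := invertibleTwoField ℓ k hℓ2
  letI i2Q : Invertible (2 : ℚ) := invertibleOfNonzero two_ne_zero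
  haveI fF : FaithfulSMul ℤℓ[X] F := faithfulSMul_polyZ ℓ hinj
  -- the structures on `B`
  letI aB : Algebra ℤℓ[X] ↥B := polyAlgebraB ℓ B hB
  haveI tB : IsScalarTower ℤℓ ℤℓ[X] ↥B := IsScalarTower.of_algebraMap_eq fun r => by
    apply Subtype.ext
    show algebraMap ℤℓ F r = algebraMap ℤℓ[X] F (algebraMap ℤℓ ℤℓ[X] r)
    exact IsScalarTower.algebraMap_apply ℤℓ ℤℓ[X] F r
  haveI tBF : IsScalarTower ℤℓ[X] ↥B F := IsScalarTower.of_algebraMap_eq fun P => rfl
  haveI icB : IsIntegralClosure ↥B ℤℓ[X] F :=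
    ⟨Subtype.val_injective, fun {x} =>
      ⟨fun hx => ⟨⟨x, (hB x).mpr hx⟩, rfl⟩, by rintro ⟨y, rfl⟩; exact (hB _).mp y.2⟩⟩
  -- (H2)
  have H2 := exists_basis_isIntegral_discr_dvd_pow_legendre ℓ (K₀ := K₀) hinjQ hinj hcompat
    hX h1728 hgen (FractionRing (legendreCover ℤℓ).R) (ι := ι)
    (Module.finrank_eq_card_basis bQ).symm
  exact GQ3.isIntegrallyClosed_tensor_right_of_rigidCover (legendreHom (algebraMap ℤℓ k))
    (L := FractionRing (legendreCover ℤℓ).R) (zlPrime ℓ) (zlPrime_ne_zero ℓ)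
    (algebraMap_zlPrime ℓ k) (isMaximal_span_zlPrime' ℓ) b hb d hd hdvd H2

end Final

/-! ### Sanity: main's instance `F = F_N` is recovered -/

section Sanity

open ModularCurve ModularCurve.IgusaScheme IntermediateField Fermat.Agent.X0

/-- SANITY: main's `InstOdd.isIntegrallyClosed_tensor_fin` recovered from the generic theorem. -/
theorem isIntegrallyClosed_tensor_fin_main (N : ℕ) [NeZero N] (ℓ : ℕ) [Fact ℓ.Prime] (hℓN : ¬ ℓ ∣ N) (hℓ2 : ℓ ≠ 2)
    (k : Type*) [Field k] [IsAlgClosed k] [CharP k ℓ] [Algebra ↥(GaloisRep.ratLocalizedAt ℓ) k] :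
    IsIntegrallyClosed (↥(chartAlgFin N ℓ) ⊗[↥(GaloisRep.ratLocalizedAt ℓ)] k) := by
  classical
  letI aF : Algebra (↥(GaloisRep.ratLocalizedAt ℓ))[X] ↥(modularFunctionFieldFull N) :=
    polyAlgebraFull N ℓ
  haveI tF := polyAlgebraFull_isScalarTower N ℓ
  letI aFQ : Algebra ℚ[X] ↥(modularFunctionFieldFull N) := polyAlgebraFullQ N
  letI aK₀ : Algebra ℚ[X] ↥ℚ⟮jFull N⟯ := polyAlgebraQj N
  haveI tK₀ : IsScalarTower ℚ[X] ↥ℚ⟮jFull N⟯ ↥(modularFunctionFieldFull N) :=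
    polyAlgebraQj_isScalarTower N
  haveI fK₀ : IsFractionRing ℚ[X] ↥ℚ⟮jFull N⟯ := polyAlgebraQj_isFractionRing N
  haveI fdF : FiniteDimensional ↥ℚ⟮jFull N⟯ ↥(modularFunctionFieldFull N) :=
    finiteDimensional_full N
  haveI locQ : IsLocalization.Away (zlPrime ℓ) ℚ := isLocalization_away_zlPrime_rat ℓ
  letI aK₀' : Algebra (↥(GaloisRep.ratLocalizedAt ℓ))[X] ↥ℚ⟮jFull N⟯ :=
    ((algebraMap ℚ[X] ↥ℚ⟮jFull N⟯).comp
      (mapRingHom (algebraMap ↥(GaloisRep.ratLocalizedAt ℓ) ℚ))).toAlgebra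
  haveI fK₀' : IsFractionRing (↥(GaloisRep.ratLocalizedAt ℓ))[X] ↥ℚ⟮jFull N⟯ :=
    H2C.isFractionRing_poly_of_away (K := ℚ) (zlPrime ℓ) ↥ℚ⟮jFull N⟯ fun _ => rfl
  haveI tK₀' : IsScalarTower (↥(GaloisRep.ratLocalizedAt ℓ))[X] ↥ℚ⟮jFull N⟯
      ↥(modularFunctionFieldFull N) := .of_algebraMap_eq fun q => by
    show algebraMap (↥(GaloisRep.ratLocalizedAt ℓ))[X] ↥(modularFunctionFieldFull N) q =
      algebraMap ↥ℚ⟮jFull N⟯ ↥(modularFunctionFieldFull N)
        (algebraMap ℚ[X] ↥ℚ⟮jFull N⟯ (q.map (algebraMap ↥(GaloisRep.ratLocalizedAt ℓ) ℚ)))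
    rw [← IsScalarTower.algebraMap_apply ℚ[X] ↥ℚ⟮jFull N⟯ ↥(modularFunctionFieldFull N),
      polyAlgebraFullQ_map]
  obtain ⟨b, -, hbmem, d, hd, hpd⟩ :=
    S28X.exists_basis_discr_fin N ℓ hℓN (fun _ => rfl) ↥ℚ⟮jFull N⟯
  have hb : ∀ i, IsIntegral (↥(GaloisRep.ratLocalizedAt ℓ))[X] (b i) := fun i => by
    have h : b i ∈ integralClosure (↥(GaloisRep.ratLocalizedAt ℓ))[X]
        ↥(modularFunctionFieldFull N) := (mem_integralClosure_poly_iff N ℓ _).mpr (hbmem i)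
    exact h
  haveI dom : IsDomain (↥(chartAlgFin N ℓ) ⊗[↥(GaloisRep.ratLocalizedAt ℓ)] k) :=
    S28X.isDomain_tensor_fin N ℓ hℓN k
  let bQ : Module.Basis (Fin (dedekindPsi N)) ↥ℚ⟮jFull N⟯ ↥(modularFunctionFieldFull N) := b
  exact isIntegrallyClosed_tensor_odd ℓ
    (K₀ := ↥ℚ⟮jFull N⟯) (Kz := ↥ℚ⟮jFull N⟯)
    (polyAlgebraFullQ_injective N) (polyAlgebraFull_injective N ℓ) (polyAlgebraFullQ_map ℓ N) hℓ2
    (chartAlgFin N ℓ) (fun x => by
      rw [← mem_integralClosure_poly_iff N ℓ x]; exact Iff.rfl) k b hb d hd hpd bQ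
    (hX_fin N) (h1728_fin N) (hgen_fin N)

end Sanity

end Fermat.Agent.DS.X1.Good.InstOddGen
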