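import Mathlib
import Fermat.Agent.DS.X1.Good.InstOddGen
import Fermat.Agent.DS.X1.Good.RamGen
import Fermat.Agent.DS.Chart.DiscFin

/-!
# PROGRAMME III, X1-GOOD, leaf `G-1 odd` INSTANCE: normality of the special fibre of the finite
chart of an ARBITRARY field of modular functions `F₀ ⊂ ℚ((q))`, `ℓ` odd

`F₀ : IntermediateField ℚ (LaurentSeries ℚ)` with `[Fact (jq ∈ F₀)]`, `I : ChartInputs F₀ ℓ d`
(helper27's chart layer `DS/Chart/*`), `ℓ ≠ 2`, `k` algebraically closed of characteristic `ℓ`: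

* `isIntegrallyClosed_tensor_chartAlgFin` : from the three curve-side ramification facts (RAM) on
  `integralClosure ℚ[X] F₀` (`X ↦ j`), `chartAlgFin F₀ ℓ ⊗[ℤ_(ℓ)] k` is integrally closed;
* `isIntegrallyClosed_tensor_chartAlgFin_of_jRamData` : the same with (RAM) replaced by helper12's
  place-level package `RamGen.JRamData Kc x W` on ANY function field `Fc / Kc` (`Kc` algebraically
  closed, algebraic over `ℚ`) receiving `F₀` with `j ↦ x` (for `F₀ = K1 M`: `Fc = K1Bar M`,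
  `x = jBar1 M`, helper6's `jRamData_K1Bar`).

This is the `F₀`-generic twin of main's `Good/InstOdd.isIntegrallyClosed_tensor_fin`: (D) =
`Chart.S28X.isDomain_tensor_fin`, (H1) = `Chart.S28X.exists_basis_discr_fin`, and the generic
Legendre-cover half is `InstOddGen.isIntegrallyClosed_tensor_odd`.  The first sections are the
`F₀`-twins of the polynomial plumbing of main's `Good/InstOddBase.lean`, `Good/InstOddQ.lean`.
-/

set_option autoImplicit false
set_option linter.unusedSectionVars false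
set_option linter.style.haveILetI false
set_option linter.overlappingInstances false
set_option synthInstance.maxHeartbeats 400000

open ModularCurve IntermediateField Polynomial TensorProduct Module
open Fermat.Agent.Igusa Fermat.Agent.Good Fermat.Agent.Good.InstOdd
open Fermat.Agent.DS.Chart
open scoped IntermediateField.algebraAdjoinAdjoin

noncomputable section
namespace Fermat.Agent.DS.X1.Good.InstOddChart

attribute [local instance] Algebra.TensorProduct.rightAlgebra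

variable (F₀ : IntermediateField ℚ (LaurentSeries ℚ)) [hjF : Fact (jq ∈ F₀)]

set_option quotPrecheck false in
local notation "F" => ↥F₀

/-! ### The `ℚ[X]`-side: `X ↦ j` -/

section QSide

/-- The structure of `ℚ[X]`-algebra on `F₀`, `X ↦ j`; use with `letI`. -/
@[reducible]
def polyAlgebraQ : Algebra ℚ[X] F := (Polynomial.aeval (jG F₀)).toRingHom.toAlgebra

theorem polyAlgebraQ_algebraMap (P : ℚ[X]) :
    letI := polyAlgebraQ F₀
    algebraMap ℚ[X] F P = Polynomial.aeval (jG F₀) P := rfl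

theorem polyAlgebraQ_injective :
    letI := polyAlgebraQ F₀
    Function.Injective (algebraMap ℚ[X] F) :=
  transcendental_iff_injective.mp (ChartBaseAux.transcendental_jG_rat F₀)

/-- `j` as an element of `ℚ(j)`. -/
def jQj : ↥ℚ⟮jG F₀⟯ := ⟨jG F₀, IntermediateField.mem_adjoin_simple_self ℚ _⟩

/-- The structure of `ℚ[X]`-algebra on `ℚ(j)`, `X ↦ j`; use with `letI`. -/
@[reducible]
def polyAlgebraQj : Algebra ℚ[X] ↥ℚ⟮jG F₀⟯ := (Polynomial.aeval (jQj F₀)).toRingHom.toAlgebra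

theorem polyAlgebraQj_algebraMap (P : ℚ[X]) :
    letI := polyAlgebraQj F₀
    algebraMap ℚ[X] ↥ℚ⟮jG F₀⟯ P = Polynomial.aeval (jQj F₀) P := rfl

theorem coe_aeval_jQj (P : ℚ[X]) :
    ((Polynomial.aeval (jQj F₀) P : ↥ℚ⟮jG F₀⟯) : F) = Polynomial.aeval (jG F₀) P := by
  rw [← IntermediateField.coe_val, ← Polynomial.aeval_algHom_apply]
  rfl

theorem polyAlgebraQj_isScalarTower :
    letI := polyAlgebraQ F₀
    letI := polyAlgebraQj F₀
    IsScalarTower ℚ[X] ↥ℚ⟮jG F₀⟯ F := by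
  letI := polyAlgebraQ F₀
  letI := polyAlgebraQj F₀
  refine IsScalarTower.of_algebraMap_eq fun P => ?_
  rw [polyAlgebraQ_algebraMap, polyAlgebraQj_algebraMap]
  exact (coe_aeval_jQj F₀ P).symm

/-- `ℚ(j)` is the fraction field of `ℚ[X]` (`X ↦ j`). -/
theorem polyAlgebraQj_isFractionRing :
    letI := polyAlgebraQj F₀
    IsFractionRing ℚ[X] ↥ℚ⟮jG F₀⟯ := by
  letI := polyAlgebraQj F₀
  let f : ℚ[X] →+* ↥(Algebra.adjoin ℚ ({jG F₀} : Set F)) :=
    (Polynomial.aeval (R := ℚ)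
      (⟨jG F₀, Algebra.subset_adjoin (Set.mem_singleton _)⟩ :
        ↥(Algebra.adjoin ℚ ({jG F₀} : Set F)))).toRingHom
  have hf_coe : ∀ P : ℚ[X], ((f P : ↥(Algebra.adjoin ℚ ({jG F₀} : Set F))) : F) =
      Polynomial.aeval (jG F₀) P := by
    intro P
    show ((Polynomial.aeval (R := ℚ) (⟨jG F₀, Algebra.subset_adjoin (Set.mem_singleton _)⟩ :
        ↥(Algebra.adjoin ℚ ({jG F₀} : Set F))) P : ↥(Algebra.adjoin ℚ ({jG F₀} : Set F))) : F)
      = _
    rw [← Subalgebra.coe_val, ← Polynomial.aeval_algHom_apply]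
    rfl
  have hf : Function.Bijective f := by
    constructor
    · intro P Q hPQ
      apply polyAlgebraQ_injective F₀
      have := congrArg (fun z : ↥(Algebra.adjoin ℚ ({jG F₀} : Set F)) => (z : F)) hPQ
      simp only [hf_coe] at this
      exact this
    · rintro ⟨x, hx⟩
      rw [Algebra.adjoin_singleton_eq_range_aeval] at hx
      obtain ⟨P, rfl⟩ := hx
      exact ⟨P, Subtype.ext (hf_coe P)⟩
  refine FracBridge.isFractionRing_of_bijective
    (A := ↥(Algebra.adjoin ℚ ({jG F₀} : Set F))) (K := ↥ℚ⟮jG F₀⟯) f hf fun P => ?_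
  apply Subtype.ext
  rw [polyAlgebraQj_algebraMap, coe_aeval_jQj, ← hf_coe]
  rfl

/-- The integral closure of `ℚ[X]` in `F₀` is a Dedekind domain (`F₀ / ℚ(j)` finite). -/
theorem isDedekindDomain_integralClosureQ (hfin : FiniteDimensional ↥ℚ⟮jG F₀⟯ F) :
    letI := polyAlgebraQ F₀
    IsDedekindDomain ↥(integralClosure ℚ[X] F) := by
  letI := polyAlgebraQ F₀
  letI := polyAlgebraQj F₀
  haveI := polyAlgebraQj_isScalarTower F₀
  haveI := polyAlgebraQj_isFractionRing F₀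
  exact InstOddGen.isDedekindDomain_integralClosureQ (K₀ := ↥ℚ⟮jG F₀⟯)

end QSide

/-! ### The `ℤ_(ℓ)[X]`-side and the comparison -/

section ZSide

variable (ℓ : ℕ) [Fact ℓ.Prime]

set_option quotPrecheck false in
local notation "ℤℓ" => ↥(GaloisRep.ratLocalizedAt ℓ)

/-- The structure of `ℤ_(ℓ)[X]`-algebra on `F₀`, `X ↦ j`; use with `letI`. -/
@[reducible]
def polyAlgebraZ : Algebra ℤℓ[X] F := (Polynomial.aeval (jG F₀)).toRingHom.toAlgebra

theorem polyAlgebraZ_algebraMap (P : ℤℓ[X]) :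
    letI := polyAlgebraZ F₀ ℓ
    algebraMap ℤℓ[X] F P = Polynomial.aeval (jG F₀) P := rfl

theorem polyAlgebraZ_isScalarTower :
    letI := polyAlgebraZ F₀ ℓ
    IsScalarTower ℤℓ ℤℓ[X] F := by
  letI := polyAlgebraZ F₀ ℓ
  refine IsScalarTower.of_algebraMap_eq fun r => ?_
  rw [polyAlgebraZ_algebraMap, Polynomial.algebraMap_apply, Polynomial.aeval_C]
  rfl

theorem polyAlgebraZ_injective :
    letI := polyAlgebraZ F₀ ℓ
    Function.Injective (algebraMap ℤℓ[X] F) :=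
  transcendental_iff_injective.mp (ChartBaseAux.transcendental_jG_zl F₀ ℓ)

/-- The `ℚ[X]`-structure extends the `ℤ_(ℓ)[X]`-structure on `F₀`. -/
theorem polyAlgebraQ_map (P : ℤℓ[X]) :
    letI := polyAlgebraQ F₀
    letI := polyAlgebraZ F₀ ℓ
    algebraMap ℚ[X] F (P.map (algebraMap ℤℓ ℚ)) = algebraMap ℤℓ[X] F P := by
  letI := polyAlgebraQ F₀
  letI := polyAlgebraZ F₀ ℓ
  rw [polyAlgebraQ_algebraMap, polyAlgebraZ_algebraMap, Polynomial.aeval_map_algebraMap]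

/-- The image of `P : ℤ_(ℓ)[X]` in `F₀` through `ℤ_(ℓ)[j]`. -/
theorem coe_aeval_jAdjFin (P : ℤℓ[X]) :
    ((Polynomial.aeval (R := ℤℓ) (ChartBaseAux.jAdjFin F₀ ℓ) P :
      ↥(Algebra.adjoin ℤℓ ({jG F₀} : Set F))) : F) = Polynomial.aeval (jG F₀) P := by
  rw [← Subalgebra.coe_val, ← Polynomial.aeval_algHom_apply]
  rfl

/-- **`chartAlgFin F₀ ℓ` is the integral closure of `ℤ_(ℓ)[X]` in `F₀`** (`X ↦ j`). -/
theorem mem_chartAlgFin_iff_isIntegral_poly (x : F) :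
    letI := polyAlgebraZ F₀ ℓ
    x ∈ chartAlgFin F₀ ℓ ↔ IsIntegral ℤℓ[X] x := by
  letI := polyAlgebraZ F₀ ℓ
  letI : Algebra ℤℓ[X] ↥(Algebra.adjoin ℤℓ ({jG F₀} : Set F)) :=
    (Polynomial.aeval (R := ℤℓ) (ChartBaseAux.jAdjFin F₀ ℓ)).toRingHom.toAlgebra
  haveI : IsScalarTower ℤℓ[X] ↥(Algebra.adjoin ℤℓ ({jG F₀} : Set F)) F :=
    IsScalarTower.of_algebraMap_eq fun P => (coe_aeval_jAdjFin F₀ ℓ P).symm
  haveI : Algebra.IsIntegral ℤℓ[X] ↥(Algebra.adjoin ℤℓ ({jG F₀} : Set F)) :=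
    Algebra.isIntegral_of_surjective (S28X.aeval_jAdjFin_surjective F₀ ℓ)
  rw [mem_chartAlg_iff]
  constructor
  · intro h
    exact isIntegral_trans (A := ↥(Algebra.adjoin ℤℓ ({jG F₀} : Set F))) x h
  · intro h
    exact h.tower_top

end ZSide

/-! ### The instance -/

section Final

variable (ℓ : ℕ) [Fact ℓ.Prime] {d : ℕ}

set_option quotPrecheck false in
local notation "ℤℓ" => ↥(GaloisRep.ratLocalizedAt ℓ)

/-- **Normality of the special fibre of the finite chart of `F₀`, `ℓ` odd** — from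
`I : ChartInputs F₀ ℓ d` and the three curve-side ramification facts (RAM) of
`integralClosure ℚ[X] F₀` (`X ↦ j`), in the literal shape of the hypotheses of
`InstOddGen.isIntegrallyClosed_tensor_odd` (= the conclusions of helper12's
`RamGen.ramCount_X_dvd_three / ramCount_X_sub_dvd_two / ramCount_generic_eq_one`). -/
theorem isIntegrallyClosed_tensor_chartAlgFin (I : ChartInputs F₀ ℓ d) (hℓ2 : ℓ ≠ 2)
    (hX :
      letI := polyAlgebraQ F₀
      haveI := isDedekindDomain_integralClosureQ F₀ I.deg.finite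
      ∀ Q : Ideal ↥(integralClosure ℚ[X] F), Q.IsPrime →
        algebraMap ℚ[X] ↥(integralClosure ℚ[X] F) X ∈ Q → ramCount (X : ℚ[X]) Q ∣ 3)
    (h1728 :
      letI := polyAlgebraQ F₀
      haveI := isDedekindDomain_integralClosureQ F₀ I.deg.finite
      ∀ Q : Ideal ↥(integralClosure ℚ[X] F), Q.IsPrime →
        algebraMap ℚ[X] ↥(integralClosure ℚ[X] F) (X - C 1728) ∈ Q →
        ramCount (X - C 1728 : ℚ[X]) Q ∣ 2)
    (hgen :
      letI := polyAlgebraQ F₀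
      haveI := isDedekindDomain_integralClosureQ F₀ I.deg.finite
      ∀ ϖ : ℚ[X], Irreducible ϖ → ϖ.Monic → ϖ ≠ X → ϖ ≠ X - C 1728 →
        ∀ Q : Ideal ↥(integralClosure ℚ[X] F), Q.IsPrime →
          algebraMap ℚ[X] ↥(integralClosure ℚ[X] F) ϖ ∈ Q → ramCount ϖ Q = 1)
    (k : Type*) [Field k] [IsAlgClosed k] [CharP k ℓ] [Algebra ℤℓ k] :
    IsIntegrallyClosed (↥(chartAlgFin F₀ ℓ) ⊗[ℤℓ] k) := by
  classical
  letI aF : Algebra ℤℓ[X] F := polyAlgebraZ F₀ ℓ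
  haveI tF : IsScalarTower ℤℓ ℤℓ[X] F := polyAlgebraZ_isScalarTower F₀ ℓ
  letI aFQ : Algebra ℚ[X] F := polyAlgebraQ F₀
  letI aK₀ : Algebra ℚ[X] ↥ℚ⟮jG F₀⟯ := polyAlgebraQj F₀
  haveI tK₀ : IsScalarTower ℚ[X] ↥ℚ⟮jG F₀⟯ F := polyAlgebraQj_isScalarTower F₀
  haveI fK₀ : IsFractionRing ℚ[X] ↥ℚ⟮jG F₀⟯ := polyAlgebraQj_isFractionRing F₀
  haveI fdF : FiniteDimensional ↥ℚ⟮jG F₀⟯ F := I.deg.finite
  haveI locQ : IsLocalization.Away (zlPrime ℓ) ℚ := isLocalization_away_zlPrime_rat ℓ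
  letI aK₀' : Algebra ℤℓ[X] ↥ℚ⟮jG F₀⟯ :=
    ((algebraMap ℚ[X] ↥ℚ⟮jG F₀⟯).comp (mapRingHom (algebraMap ℤℓ ℚ))).toAlgebra
  haveI fK₀' : IsFractionRing ℤℓ[X] ↥ℚ⟮jG F₀⟯ :=
    H2C.isFractionRing_poly_of_away (K := ℚ) (zlPrime ℓ) ↥ℚ⟮jG F₀⟯ fun _ => rfl
  haveI tK₀' : IsScalarTower ℤℓ[X] ↥ℚ⟮jG F₀⟯ F := .of_algebraMap_eq fun q => by
    show algebraMap ℤℓ[X] F q =
      algebraMap ↥ℚ⟮jG F₀⟯ F (algebraMap ℚ[X] ↥ℚ⟮jG F₀⟯ (q.map (algebraMap ℤℓ ℚ)))
    rw [← IsScalarTower.algebraMap_apply ℚ[X] ↥ℚ⟮jG F₀⟯ F, polyAlgebraQ_map]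
  -- (H1)
  obtain ⟨b, -, hbmem, d0, hd, hpd⟩ :=
    S28X.exists_basis_discr_fin F₀ ℓ I (fun _ => rfl) ↥ℚ⟮jG F₀⟯
  have hb : ∀ i, IsIntegral ℤℓ[X] (b i) := fun i =>
    (mem_chartAlgFin_iff_isIntegral_poly F₀ ℓ _).mp (hbmem i)
  -- (D)
  haveI dom : IsDomain (↥(chartAlgFin F₀ ℓ) ⊗[ℤℓ] k) := S28X.isDomain_tensor_fin F₀ ℓ I k
  let bQ : Module.Basis (Fin d) ↥ℚ⟮jG F₀⟯ F := b
  exact InstOddGen.isIntegrallyClosed_tensor_odd ℓ
    (K₀ := ↥ℚ⟮jG F₀⟯) (Kz := ↥ℚ⟮jG F₀⟯)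
    (polyAlgebraQ_injective F₀) (polyAlgebraZ_injective F₀ ℓ) (polyAlgebraQ_map F₀ ℓ) hℓ2
    (chartAlgFin F₀ ℓ) (mem_chartAlgFin_iff_isIntegral_poly F₀ ℓ) k b hb d0 hd hpd bQ
    hX h1728 hgen

/-- **The same from helper12's place-level package (RAM) `RamGen.JRamData Kc x W`** on any
function field `Fc / Kc` (`Kc` algebraically closed and algebraic over `ℚ`) receiving `F₀` by a
ring homomorphism `θ` with `θ j = x`.  For `F₀ = K1 M`: `Fc = K1Bar M`, `θ` = the coefficient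
embedding, `x = jBar1 M`, `R` = helper6's `jRamData_K1Bar`. -/
theorem isIntegrallyClosed_tensor_chartAlgFin_of_jRamData (I : ChartInputs F₀ ℓ d) (hℓ2 : ℓ ≠ 2)
    {Kc Fc : Type*} [Field Kc] [Field Fc] [Algebra Kc Fc] [CharZero Kc]
    [Algebra.IsAlgebraic ℚ Kc] [IsAlgClosed Kc] {x : Fc} {W : ℕ}
    (R : RamGen.JRamData Kc x W) (θ : F →+* Fc) (hθ : θ (jG F₀) = x)
    (k : Type*) [Field k] [IsAlgClosed k] [CharP k ℓ] [Algebra ℤℓ k] :
    IsIntegrallyClosed (↥(chartAlgFin F₀ ℓ) ⊗[ℤℓ] k) := by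
  classical
  letI aFQ : Algebra ℚ[X] F := polyAlgebraQ F₀
  haveI dd : IsDedekindDomain ↥(integralClosure ℚ[X] F) :=
    isDedekindDomain_integralClosureQ F₀ I.deg.finite
  haveI tf : Module.IsTorsionFree ℚ[X] ↥(integralClosure ℚ[X] F) :=
    InstOddGen.isTorsionFree_integralClosureQ (polyAlgebraQ_injective F₀)
  let ι : ↥(integralClosure ℚ[X] F) →+* Fc :=
    θ.comp (algebraMap ↥(integralClosure ℚ[X] F) F)
  have hι : Function.Injective ι :=
    θ.injective.comp Subtype.val_injective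
  have hιp : ∀ g : ℚ[X], ι (algebraMap ℚ[X] ↥(integralClosure ℚ[X] F) g) =
      aeval x (g.map (algebraMap ℚ Kc)) := by
    intro g
    show θ (Polynomial.aeval (jG F₀) g) = _
    rw [Polynomial.aeval_def, Polynomial.hom_eval₂, hθ, Polynomial.aeval_def,
      Polynomial.eval₂_map]
    congr 1
    exact Subsingleton.elim _ _
  exact isIntegrallyClosed_tensor_chartAlgFin F₀ ℓ I hℓ2
    (RamGen.ramCount_X_dvd_three R (algebraMap ℚ Kc) ι hι hιp)
    (RamGen.ramCount_X_sub_dvd_two R (algebraMap ℚ Kc) ι hι hιp)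
    (RamGen.ramCount_generic_eq_one R (algebraMap ℚ Kc) ι hι hιp) k

end Final

end Fermat.Agent.DS.X1.Good.InstOddChart
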