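import Mathlib
import Fermat.Agent.Good.InstTwoFinal

/-!
# PROGRAMME III, X1-GOOD leaf G-1 at `ℓ = 2` (helper12): GOODQUOT for `ℓ = 2`, GENERIC in the field

The `ℓ = 2` instance `Good/InstTwo{Q,,Ram,Final}.lean` of main is written for `F = F_N`
(`modularFunctionFieldFull N`), but only uses `F_N` through a handful of inputs.  Here the same
argument is carried out for an ARBITRARY field `F` carrying compatible injective `ℚ[X]`- and
`ℤ_(2)[X]`-algebra structures (`X ↦ j`), with `X² + X + 1` irreducible over `F`: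

* `polyOmegaQ_injective`, `polyOmega_injective`, `polyOmegaQ_map` : the structures on `F(ω)`;
* `finiteDimensional_fomega`, `finrank_fomega`, `isSeparable_fomega`, Dedekind / finite /
  torsion-free / fraction-ring properties of `integralClosure ℚ(ω)[X] F(ω)`;
* `exists_basis_isIntegral_discr_dvd_pow_hesse` : **(H2)** for the Hesse cover over `ℤ_(2)[ω]`,
  from the three curve-side ramification hypotheses `hX`, `h1728`, `hgen` (index `∣ 3` over `j = 0`,
  `∣ 2` over `j = 1728`, `1` elsewhere) on `integralClosure ℚ(ω)[X] F(ω)`;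
* `exists_basis_discr_omega` : **(H1)** over `ℤ_(2)[ω][X]` from (H1) over `ℤ_(2)[X]`;
* `isIntegrallyClosed_tensor_two` : **the generic `ℓ = 2` GOODQUOT**: for a `ℤ_(2)`-subalgebra `B`
  of `F` which is the integral closure of `ℤ_(2)[X]`, `(D)` + `(H1)` + `(RAM)` imply that
  `B ⊗[ℤ_(2)] k` is integrally closed for every algebraically closed `k` of characteristic `2`.

Everything deep (`GQ3`, `H2C`, `OmegaExt`, `HesseRing`) is imported from main.
-/

set_option autoImplicit false
set_option linter.style.haveILetI false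
set_option linter.unusedSectionVars false
set_option linter.overlappingInstances false

open Polynomial TensorProduct Module
open Fermat.Agent.Igusa Fermat.Agent.Good Fermat.Agent.Good.InstTwo

noncomputable section
namespace Fermat.Agent.DS.X1.Good.InstTwoGen

attribute [local instance] OmegaExt.polyAlgebra OmegaExt.algebraOmega
attribute [local instance] FractionRing.liftAlgebra FractionRing.isScalarTower_liftAlgebra
attribute [local instance] Algebra.TensorProduct.rightAlgebra

section StructQ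

variable {F : Type*} [Field F] [Fact (Irreducible (omegaPoly F))] [Algebra ℚ[X] F]

/-- the structure map `ℚ(ω)[X] → F(ω)` is injective -/
theorem polyOmegaQ_injective (hinjQ : Function.Injective (algebraMap ℚ[X] F)) :
    Function.Injective (algebraMap Komega[X] (OmegaExt F)) :=
  OmegaExt.polyHom_injective hinjQ

theorem faithfulSMul_polyOmegaQ (hinjQ : Function.Injective (algebraMap ℚ[X] F)) :
    FaithfulSMul Komega[X] (OmegaExt F) :=
  (faithfulSMul_iff_algebraMap_injective _ _).mpr (polyOmegaQ_injective hinjQ)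

end StructQ

section StructZ

variable {F : Type*} [Field F] [Fact (Irreducible (omegaPoly F))] [Algebra Ztwo[X] F]

/-- the structure map `ℤ_(2)[ω][X] → F(ω)` is injective -/
theorem polyOmega_injective (hinj : Function.Injective (algebraMap Ztwo[X] F)) :
    Function.Injective (algebraMap Otwo[X] (OmegaExt F)) :=
  OmegaExt.polyHom_injective hinj

theorem faithfulSMul_polyOmega (hinj : Function.Injective (algebraMap Ztwo[X] F)) :
    FaithfulSMul Otwo[X] (OmegaExt F) :=
  (faithfulSMul_iff_algebraMap_injective _ _).mpr (polyOmega_injective hinj)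

end StructZ

section StructCompat

variable {F : Type*} [Field F] [Fact (Irreducible (omegaPoly F))]
  [Algebra ℚ[X] F] [Algebra Ztwo[X] F]

/-- the two structures on `F(ω)` are compatible -/
theorem polyOmegaQ_map
    (hcompat : ∀ p : Ztwo[X],
      algebraMap ℚ[X] F (p.map (algebraMap Ztwo ℚ)) = algebraMap Ztwo[X] F p)
    (P : Otwo[X]) :
    algebraMap Komega[X] (OmegaExt F) (P.map (algebraMap Otwo Komega)) =
      algebraMap Otwo[X] (OmegaExt F) P :=
  OmegaExt.polyHom_map_map (O₀ := Ztwo) (K₁ := ℚ) (F₀ := F) hcompat P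

end StructCompat

/-! ### The generic fibre `F(ω) / ℚ(ω)(X)` -/

section GenericFibre

variable {F : Type*} [Field F] [Fact (Irreducible (omegaPoly F))] [Algebra ℚ[X] F]
  (hinjQ : Function.Injective (algebraMap ℚ[X] F))
  {K₀ : Type*} [Field K₀] [Algebra ℚ[X] K₀] [IsFractionRing ℚ[X] K₀] [Algebra K₀ F]
  [IsScalarTower ℚ[X] K₀ F] [FiniteDimensional K₀ F]

include hinjQ K₀ in
/-- `F(ω)` is finite over `ℚ(ω)(X) = Frac ℚ(ω)[X]` -/
theorem finiteDimensional_fomega :
    haveI := faithfulSMul_polyOmegaQ hinjQ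
    FiniteDimensional (FractionRing Komega[X]) (OmegaExt F) := by
  haveI := faithfulSMul_polyOmegaQ hinjQ
  let b := Module.finBasis K₀ F
  exact Module.Finite.of_basis (OmegaExt.basisOfBasis ℚ (FractionRing Komega[X]) b)

include hinjQ in
/-- `[F(ω) : ℚ(ω)(X)] = [F : ℚ(X)]` -/
theorem finrank_fomega {ι : Type*} [Fintype ι] (b : Module.Basis ι K₀ F) :
    haveI := faithfulSMul_polyOmegaQ hinjQ
    Module.finrank (FractionRing Komega[X]) (OmegaExt F) = Fintype.card ι := by
  haveI := faithfulSMul_polyOmegaQ hinjQ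
  rw [Module.finrank_eq_card_basis (OmegaExt.basisOfBasis ℚ (FractionRing Komega[X]) b)]

include hinjQ K₀ in
theorem isSeparable_fomega :
    haveI := faithfulSMul_polyOmegaQ hinjQ
    Algebra.IsSeparable (FractionRing Komega[X]) (OmegaExt F) := by
  haveI := faithfulSMul_polyOmegaQ hinjQ
  haveI := finiteDimensional_fomega (K₀ := K₀) hinjQ
  infer_instance

include hinjQ K₀ in
/-- the integral closure of `ℚ(ω)[X]` in `F(ω)` is a Dedekind domain -/
theorem isDedekindDomain_integralClosureOmegaQ :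
    IsDedekindDomain ↥(integralClosure Komega[X] (OmegaExt F)) := by
  haveI := faithfulSMul_polyOmegaQ hinjQ
  haveI := finiteDimensional_fomega (K₀ := K₀) hinjQ
  haveI := isSeparable_fomega (K₀ := K₀) hinjQ
  exact integralClosure.isDedekindDomain Komega[X] (FractionRing Komega[X]) (OmegaExt F)

include hinjQ K₀ in
theorem finite_integralClosureOmegaQ :
    Module.Finite Komega[X] ↥(integralClosure Komega[X] (OmegaExt F)) := by
  haveI := faithfulSMul_polyOmegaQ hinjQ
  haveI := finiteDimensional_fomega (K₀ := K₀) hinjQ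
  haveI := isSeparable_fomega (K₀ := K₀) hinjQ
  exact IsIntegralClosure.finite Komega[X] (FractionRing Komega[X]) (OmegaExt F)
    ↥(integralClosure Komega[X] (OmegaExt F))

include hinjQ K₀ in
theorem isFractionRing_integralClosureOmegaQ :
    IsFractionRing ↥(integralClosure Komega[X] (OmegaExt F)) (OmegaExt F) := by
  haveI := faithfulSMul_polyOmegaQ hinjQ
  haveI := finiteDimensional_fomega (K₀ := K₀) hinjQ
  exact integralClosure.isFractionRing_of_finite_extension (FractionRing Komega[X]) (OmegaExt F)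

include hinjQ in
theorem isTorsionFree_integralClosureOmegaQ :
    Module.IsTorsionFree Komega[X] ↥(integralClosure Komega[X] (OmegaExt F)) := by
  haveI := faithfulSMul_polyOmegaQ hinjQ
  haveI : Module.IsTorsionFree Komega[X] (OmegaExt F) := inferInstance
  exact IsIntegralClosure.isTorsionFree Komega[X] (OmegaExt F)

end GenericFibre

/-! ### (H2) for the Hesse cover over `ℤ_(2)[ω]` -/

section H2

variable {F : Type*} [Field F] [Fact (Irreducible (omegaPoly F))]
  [Algebra ℚ[X] F] [Algebra Ztwo[X] F]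
  (hinjQ : Function.Injective (algebraMap ℚ[X] F))
  (hinj : Function.Injective (algebraMap Ztwo[X] F))
  (hcompat : ∀ p : Ztwo[X],
    algebraMap ℚ[X] F (p.map (algebraMap Ztwo ℚ)) = algebraMap Ztwo[X] F p)
  {K₀ : Type*} [Field K₀] [Algebra ℚ[X] K₀] [IsFractionRing ℚ[X] K₀] [Algebra K₀ F]
  [IsScalarTower ℚ[X] K₀ F] [FiniteDimensional K₀ F]

include hinjQ hinj hcompat K₀ in
/-- **(H2) for the Hesse cover over `Otwo = ℤ_(2)[ω]`**, generic in `F`: the hypothesis (H2) of
`GQ3.isIntegrallyClosed_tensor_of_rigidCover` for `P = HesseRing.cover Otwo`, `p = 2`, from the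
curve-side ramification data of `B₀ = integralClosure ℚ(ω)[X] F(ω)`. -/
theorem exists_basis_isIntegral_discr_dvd_pow_hesse
    (hX :
      haveI := isDedekindDomain_integralClosureOmegaQ (K₀ := K₀) hinjQ
      haveI := isTorsionFree_integralClosureOmegaQ hinjQ
      ∀ Q : Ideal ↥(integralClosure Komega[X] (OmegaExt F)), Q.IsPrime →
        algebraMap Komega[X] ↥(integralClosure Komega[X] (OmegaExt F)) X ∈ Q →
        ramCount (X : Komega[X]) Q ∣ 3)
    (h1728 :
      haveI := isDedekindDomain_integralClosureOmegaQ (K₀ := K₀) hinjQ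
      haveI := isTorsionFree_integralClosureOmegaQ hinjQ
      ∀ Q : Ideal ↥(integralClosure Komega[X] (OmegaExt F)), Q.IsPrime →
        algebraMap Komega[X] ↥(integralClosure Komega[X] (OmegaExt F)) (X - C 1728) ∈ Q →
        ramCount (X - C 1728 : Komega[X]) Q ∣ 2)
    (hgen :
      haveI := isDedekindDomain_integralClosureOmegaQ (K₀ := K₀) hinjQ
      haveI := isTorsionFree_integralClosureOmegaQ hinjQ
      ∀ ϖ : Komega[X], Irreducible ϖ → ϖ.Monic → ϖ ≠ X → ϖ ≠ X - C 1728 →
        ∀ Q : Ideal ↥(integralClosure Komega[X] (OmegaExt F)), Q.IsPrime →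
          algebraMap Komega[X] ↥(integralClosure Komega[X] (OmegaExt F)) ϖ ∈ Q →
          ramCount ϖ Q = 1)
    (L : Type*) [Field L] [Algebra (HesseRing.cover Otwo).R L]
    [IsFractionRing (HesseRing.cover Otwo).R L]
    {ι : Type*} [Fintype ι] [DecidableEq ι]
    (hι :
      haveI := faithfulSMul_polyOmegaQ hinjQ
      Fintype.card ι = Module.finrank (FractionRing Komega[X]) (OmegaExt F)) :
    haveI := faithfulSMul_polyOmega hinj
    letI := Aux.algebraFrac Otwo[X] (HesseRing.cover Otwo).R (OmegaExt F) L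
    ∃ c' : Basis ι L (OmegaExt F ⊗[Otwo[X]] (HesseRing.cover Otwo).R),
      (∀ i, IsIntegral (HesseRing.cover Otwo).R (c' i)) ∧
      ∃ d' : (HesseRing.cover Otwo).R, algebraMap (HesseRing.cover Otwo).R L d' =
        Algebra.discr L c' ∧ ∃ m : ℕ, d' ∣ (HesseRing.cover Otwo).const 2 ^ m := by
  haveI := faithfulSMul_polyOmegaQ hinjQ
  haveI := faithfulSMul_polyOmega hinj
  haveI := isDedekindDomain_integralClosureOmegaQ (K₀ := K₀) hinjQ
  haveI := finite_integralClosureOmegaQ (K₀ := K₀) hinjQ
  haveI := isTorsionFree_integralClosureOmegaQ hinjQ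
  haveI := isFractionRing_integralClosureOmegaQ (K₀ := K₀) hinjQ
  haveI := finiteDimensional_fomega (K₀ := K₀) hinjQ
  haveI := isSeparable_fomega (K₀ := K₀) hinjQ
  exact H2C.exists_basis_isIntegral_discr_dvd_pow (O := Otwo) (K := Komega) (2 : Otwo)
    otwoKomegaCoverHom (F := OmegaExt F) ↥(integralClosure Komega[X] (OmegaExt F))
    (FractionRing Komega[X]) L
    (hesseU0_separable Komega InstTwoRam.isUnit_six_komega)
    (hesseV1_separable Komega InstTwoRam.isUnit_six_komega)
    (polyOmegaQ_map hcompat)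
    hX h1728 hgen hι

end H2

/-! ### (H1) over `ℤ_(2)[ω][X]` -/

section H1

variable {F : Type*} [Field F] [Fact (Irreducible (omegaPoly F))] [Algebra Ztwo[X] F]
  (hinj : Function.Injective (algebraMap Ztwo[X] F))
  {Kz : Type*} [Field Kz] [Algebra Ztwo[X] Kz] [IsFractionRing Ztwo[X] Kz] [Algebra Kz F]
  [IsScalarTower Ztwo[X] Kz F]

include hinj in
/-- **(H1) for `ℓ = 2` over `ℤ_(2)[ω][X]`**, from (H1) over `ℤ_(2)[X]`. -/
theorem exists_basis_discr_omega {ι : Type*} [Fintype ι] [DecidableEq ι]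
    (b : Basis ι Kz F) (hb : ∀ i, IsIntegral Ztwo[X] (b i)) (d : Ztwo[X])
    (hd : Algebra.discr Kz b = algebraMap Ztwo[X] Kz d) (hdvd : ¬ C (zlPrime 2) ∣ d) :
    haveI := faithfulSMul_polyOmega hinj
    ∃ b' : Basis ι (FractionRing Otwo[X]) (OmegaExt F),
      (∀ i, IsIntegral Otwo[X] (b' i)) ∧
      ∃ d' : Otwo[X], Algebra.discr (FractionRing Otwo[X]) b' =
          algebraMap Otwo[X] (FractionRing Otwo[X]) d' ∧ ¬ C (2 : Otwo) ∣ d' := by
  haveI := faithfulSMul_polyOmega hinj
  refine ⟨OmegaExt.basisOfBasis Ztwo (FractionRing Otwo[X]) b, ?_,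
    d.map (algebraMap Ztwo Otwo), OmegaExt.discr_basisOfBasis_eq b d hd, ?_⟩
  · intro i
    rw [OmegaExt.basisOfBasis_apply]
    exact OmegaExt.isIntegral_algebraMap_of_isIntegral (hb i)
  · have := OmegaExt.not_C_dvd_map hdvd
    rwa [algebraMap_zlPrime_two] at this

end H1

/-! ### The generic `ℓ = 2` GOODQUOT -/

section Final

variable {F : Type*} [Field F] [Fact (Irreducible (omegaPoly F))]
  [Algebra ℚ[X] F] [Algebra Ztwo F] [Algebra Ztwo[X] F] [IsScalarTower Ztwo Ztwo[X] F]
  (hinjQ : Function.Injective (algebraMap ℚ[X] F))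
  (hinj : Function.Injective (algebraMap Ztwo[X] F))
  (hcompat : ∀ p : Ztwo[X],
    algebraMap ℚ[X] F (p.map (algebraMap Ztwo ℚ)) = algebraMap Ztwo[X] F p)
  {K₀ : Type*} [Field K₀] [Algebra ℚ[X] K₀] [IsFractionRing ℚ[X] K₀] [Algebra K₀ F]
  [IsScalarTower ℚ[X] K₀ F] [FiniteDimensional K₀ F]
  {Kz : Type*} [Field Kz] [Algebra Ztwo[X] Kz] [IsFractionRing Ztwo[X] Kz] [Algebra Kz F]
  [IsScalarTower Ztwo[X] Kz F]

include hinjQ hinj hcompat K₀ in
/-- **GOODQUOT for `ℓ = 2`, finite chart, GENERIC in the field `F`.**  `B` = the integral closure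
of `ℤ_(2)[X]` in `F` (as a `ℤ_(2)`-subalgebra); `k` algebraically closed of characteristic `2`.
From (D) `IsDomain (B ⊗ k)`, (H1) a `Frac ℤ_(2)[X]`-basis of `F` of integral elements whose
discriminant is not divisible by `2`, and the curve-side ramification data (RAM) of
`integralClosure ℚ(ω)[X] F(ω)`, the special fibre `B ⊗[ℤ_(2)] k` is integrally closed. -/
theorem isIntegrallyClosed_tensor_two
    (B : Subalgebra Ztwo F) (hB : ∀ x : F, x ∈ B ↔ IsIntegral Ztwo[X] x)
    (k : Type*) [Field k] [IsAlgClosed k] [CharP k 2] [Algebra Ztwo k]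
    [IsDomain (↥B ⊗[Ztwo] k)]
    -- (H1)
    {ι : Type*} [Fintype ι] [DecidableEq ι]
    (b : Basis ι Kz F) (hb : ∀ i, IsIntegral Ztwo[X] (b i)) (d : Ztwo[X])
    (hd : Algebra.discr Kz b = algebraMap Ztwo[X] Kz d) (hdvd : ¬ C (zlPrime 2) ∣ d)
    -- the index type also indexes a basis over `Frac ℚ[X]`
    (bQ : Basis ι K₀ F)
    -- (RAM)
    (hX :
      haveI := isDedekindDomain_integralClosureOmegaQ (K₀ := K₀) hinjQ
      haveI := isTorsionFree_integralClosureOmegaQ hinjQ
      ∀ Q : Ideal ↥(integralClosure Komega[X] (OmegaExt F)), Q.IsPrime →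
        algebraMap Komega[X] ↥(integralClosure Komega[X] (OmegaExt F)) X ∈ Q →
        ramCount (X : Komega[X]) Q ∣ 3)
    (h1728 :
      haveI := isDedekindDomain_integralClosureOmegaQ (K₀ := K₀) hinjQ
      haveI := isTorsionFree_integralClosureOmegaQ hinjQ
      ∀ Q : Ideal ↥(integralClosure Komega[X] (OmegaExt F)), Q.IsPrime →
        algebraMap Komega[X] ↥(integralClosure Komega[X] (OmegaExt F)) (X - C 1728) ∈ Q →
        ramCount (X - C 1728 : Komega[X]) Q ∣ 2)
    (hgen :
      haveI := isDedekindDomain_integralClosureOmegaQ (K₀ := K₀) hinjQ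
      haveI := isTorsionFree_integralClosureOmegaQ hinjQ
      ∀ ϖ : Komega[X], Irreducible ϖ → ϖ.Monic → ϖ ≠ X → ϖ ≠ X - C 1728 →
        ∀ Q : Ideal ↥(integralClosure Komega[X] (OmegaExt F)), Q.IsPrime →
          algebraMap Komega[X] ↥(integralClosure Komega[X] (OmegaExt F)) ϖ ∈ Q →
          ramCount ϖ Q = 1) :
    IsIntegrallyClosed (↥B ⊗[Ztwo] k) := by
  -- the structures on `k`
  obtain ⟨w, hw⟩ : ∃ w : k, w ^ 2 + w + 1 = 0 := by
    obtain ⟨z, hz⟩ := IsAlgClosed.exists_root (omegaPoly k) (by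
      rw [degree_eq_natDegree (omegaPoly_monic k).ne_zero, omegaPoly_natDegree]; norm_num)
    refine ⟨z, ?_⟩
    unfold omegaPoly at hz
    simpa [IsRoot.def] using hz
  letI algk : Algebra Otwo k := algebraOtwoOfRoot k w hw
  haveI towk : IsScalarTower Ztwo Otwo k := algebraOtwoOfRoot_isScalarTower w hw
  letI hdk : HesseDatum k := HesseDatum.ofRingHom (algebraMap Otwo k)
  haveI := faithfulSMul_polyOmegaQ hinjQ
  haveI := faithfulSMul_polyOmega hinj
  letI : Algebra Otwo (OmegaExt F) := OmegaExt.algebraOmega Ztwo F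
  -- (D)
  haveI hD : IsDomain (↥(integralClosure Otwo[X] (OmegaExt F)) ⊗[Otwo] k) :=
    isDomain_omega_tensor_right B hB k isUnit_three_ztwo
  -- (H1)
  obtain ⟨b', hb', d', hd', hdvd'⟩ := exists_basis_discr_omega hinj b hb d hd hdvd
  -- (H2)
  have H2 := exists_basis_isIntegral_discr_dvd_pow_hesse (K₀ := K₀) hinjQ hinj hcompat
    hX h1728 hgen (FractionRing (HesseRing.cover Otwo).R) (ι := ι)
    (finrank_fomega hinjQ bQ).symm
  -- Layer 3
  haveI hIC : IsIntegrallyClosed (↥(integralClosure Otwo[X] (OmegaExt F)) ⊗[Otwo] k) :=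
    GQ3.isIntegrallyClosed_tensor_right_of_rigidCover
      (HesseRing.coverHom (algebraMap Otwo k) rfl)
      (F := OmegaExt F) (B0 := ↥(integralClosure Otwo[X] (OmegaExt F)))
      (K0 := FractionRing Otwo[X]) (L := FractionRing (HesseRing.cover Otwo).R)
      (2 : Otwo) otwo_prime_two.ne_zero algebraMap_otwo_two span_two_isMaximal
      b' hb' d' hd' hdvd' H2
  exact isIntegrallyClosed_of_omega_tensor_right B hB k isUnit_three_ztwo

end Final

end Fermat.Agent.DS.X1.Good.InstTwoGen
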