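import Mathlib
import Fermat.Agent.DS.X1.Good.InstOddChart
import Fermat.Agent.DS.X1.Good.InstTwoGen

/-!
# PROGRAMME III, X1-GOOD, leaf `G-1(2)` INSTANCE: normality of the special fibre of the finite
chart of an ARBITRARY field of modular functions `F₀ ⊂ ℚ((q))` at `ℓ = 2`

`F₀ : IntermediateField ℚ (LaurentSeries ℚ)` with `[Fact (jq ∈ F₀)]`, `I : ChartInputs F₀ 2 d`
(helper27's chart layer), `k` algebraically closed of characteristic `2`:

* `isIntegrallyClosed_tensor_chartAlgFin_two` : from the three curve-side ramification facts (RAM)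
  on `integralClosure ℚ(ω)[X] F₀(ω)` (`X ↦ j`), `chartAlgFin F₀ 2 ⊗[ℤ_(2)] k` is integrally closed;
* `isIntegrallyClosed_tensor_chartAlgFin_two_of_jRamData` : the same with (RAM) replaced by
  helper12's place-level package `RamGen.JRamData Kc x W` on ANY function field `Fc / Kc` (`Kc`
  algebraically closed, algebraic over `ℚ`) receiving `F₀` with `j ↦ x` — the SAME shape as
  `InstOddChart.isIntegrallyClosed_tensor_chartAlgFin_of_jRamData`;
* `isIntegrallyClosed_tensor_chartAlgFin_all` : both parities in one statement.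

`F₀`-generic twin of main's `Good/InstTwo{Q,Ram,Final}.lean`, on helper12's generic half
`InstTwoGen.isIntegrallyClosed_tensor_two` and the `F₀`-plumbing of `InstOddChart.lean`.
-/

set_option autoImplicit false
set_option linter.unusedSectionVars false
set_option linter.style.haveILetI false
set_option linter.overlappingInstances false
set_option synthInstance.maxHeartbeats 400000

open ModularCurve IntermediateField Polynomial TensorProduct Module
open Fermat.Agent.Igusa Fermat.Agent.Good Fermat.Agent.Good.InstOdd Fermat.Agent.Good.InstTwo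
open Fermat.Agent.DS.Chart
open scoped IntermediateField.algebraAdjoinAdjoin

noncomputable section
namespace Fermat.Agent.DS.X1.Good.InstTwoChart

attribute [local instance] OmegaExt.polyAlgebra OmegaExt.algebraOmega
attribute [local instance] Algebra.TensorProduct.rightAlgebra

/-! ### The embedding `F(ω) → Fc`, `ω ↦ ζ` -/

section Lift

variable {F : Type*} [Field F] {Kc Fc : Type*} [Field Kc] [CharZero Kc] [Field Fc] [Algebra Kc Fc]
  (θ : F →+* Fc) (ζ : Kc) (hζ : ζ ^ 2 + ζ + 1 = 0)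

/-- `ℚ(ω) → Kc`, `ω ↦ ζ` -/
def sigmaOf : Komega →+* Kc :=
  AdjoinRoot.lift (algebraMap ℚ Kc) ζ (by
    show eval₂ _ _ (X ^ 2 + X + 1) = 0
    simp only [eval₂_add, eval₂_pow, eval₂_X, eval₂_one]
    exact hζ)

@[simp] theorem sigmaOf_ω : sigmaOf ζ hζ (OmegaExt.ω ℚ) = ζ := by
  unfold sigmaOf OmegaExt.ω
  exact AdjoinRoot.lift_root _

@[simp] theorem sigmaOf_of (a : ℚ) :
    sigmaOf ζ hζ (AdjoinRoot.of (omegaPoly ℚ) a) = algebraMap ℚ Kc a := by
  unfold sigmaOf
  exact AdjoinRoot.lift_of _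

/-- `F(ω) → Fc`, `ω ↦ ζ`, extending `θ : F → Fc` -/
def omegaLift : OmegaExt F →+* Fc :=
  AdjoinRoot.lift θ (algebraMap Kc Fc ζ) (by
    show eval₂ _ _ (X ^ 2 + X + 1) = 0
    simp only [eval₂_add, eval₂_pow, eval₂_X, eval₂_one]
    rw [← map_pow, ← map_add, ← map_one (algebraMap Kc Fc), ← map_add, hζ, map_zero])

@[simp] theorem omegaLift_ω : omegaLift θ ζ hζ (OmegaExt.ω F) = algebraMap Kc Fc ζ := by
  unfold omegaLift OmegaExt.ω
  exact AdjoinRoot.lift_root _

@[simp] theorem omegaLift_algebraMap (x : F) :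
    omegaLift θ ζ hζ (algebraMap F (OmegaExt F) x) = θ x := by
  unfold omegaLift
  exact AdjoinRoot.lift_of _

theorem omegaLift_injective [Fact (Irreducible (omegaPoly F))] :
    Function.Injective (omegaLift θ ζ hζ) :=
  (omegaLift θ ζ hζ).injective

variable [Algebra ℚ[X] F]

/-- the embedding is compatible with the polynomial structures -/
theorem omegaLift_algebraMap_poly {x : Fc}
    (hθp : ∀ g : ℚ[X], θ (algebraMap ℚ[X] F g) = aeval x (g.map (algebraMap ℚ Kc)))
    (g : Komega[X]) :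
    omegaLift θ ζ hζ (algebraMap Komega[X] (OmegaExt F) g) =
      aeval x (g.map (sigmaOf ζ hζ)) := by
  show omegaLift θ ζ hζ (OmegaExt.polyHom (O₀ := ℚ) (F₀ := F) g) = _
  have h : (omegaLift θ ζ hζ).comp (OmegaExt.polyHom (O₀ := ℚ) (F₀ := F)) =
      ((aeval x : Kc[X] →ₐ[Kc] Fc) : Kc[X] →+* Fc).comp (mapRingHom (sigmaOf ζ hζ)) := by
    apply Polynomial.ringHom_ext
    · intro c
      obtain ⟨a, b, rfl⟩ := OmegaExt.exists_repr ℚ c
      simp only [RingHom.comp_apply, coe_mapRingHom, Polynomial.map_C, RingHom.coe_coe, aeval_C]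
      rw [OmegaExt.polyHom, RingHom.comp_apply, OmegaExt.polyTo_C]
      simp only [map_add, map_mul, OmegaExt.map_algebraMap, OmegaExt.map_ω, omegaLift_algebraMap,
        omegaLift_ω, sigmaOf_ω]
      have e1 : ∀ a : ℚ, θ (algebraMap ℚ[X] F (C a)) = algebraMap Kc Fc (a : Kc) := by
        intro a
        rw [hθp, Polynomial.map_C, aeval_C, eq_ratCast (algebraMap ℚ Kc) a]
      have e2 : ∀ (f : ℚ →+* OmegaExt ℚ) (a : ℚ), sigmaOf ζ hζ (f a) = (a : Kc) := by
        intro f a
        rw [eq_ratCast f a, map_ratCast]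
      rw [e1, e1, e2, e2]
    · simp only [RingHom.comp_apply, coe_mapRingHom, Polynomial.map_X, RingHom.coe_coe, aeval_X]
      rw [OmegaExt.polyHom, RingHom.comp_apply, OmegaExt.polyTo_X, OmegaExt.map_algebraMap,
        omegaLift_algebraMap, hθp, Polynomial.map_X, aeval_X]
  exact DFunLike.congr_fun h g

end Lift

/-! ### The instance -/

section Final

variable (F₀ : IntermediateField ℚ (LaurentSeries ℚ)) [hjF : Fact (jq ∈ F₀)] {d : ℕ}

set_option quotPrecheck false in
local notation "F" => ↥F₀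

/-- `X² + X + 1` is irreducible over `F₀ ⊂ ℚ((q))` -/
theorem fact_irreducible_omegaPoly : Fact (Irreducible (omegaPoly F)) :=
  ⟨omegaPoly_irreducible_of_le F₀⟩

/-- the integral closure of `ℚ(ω)[X]` in `F₀(ω)` is a Dedekind domain -/
theorem isDedekindDomain_integralClosureOmegaQ (hfin : FiniteDimensional ↥ℚ⟮jG F₀⟯ F) :
    letI := InstOddChart.polyAlgebraQ F₀
    haveI := fact_irreducible_omegaPoly F₀
    IsDedekindDomain ↥(integralClosure Komega[X] (OmegaExt F)) := by
  letI := InstOddChart.polyAlgebraQ F₀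
  haveI := fact_irreducible_omegaPoly F₀
  letI := InstOddChart.polyAlgebraQj F₀
  haveI := InstOddChart.polyAlgebraQj_isScalarTower F₀
  haveI := InstOddChart.polyAlgebraQj_isFractionRing F₀
  exact InstTwoGen.isDedekindDomain_integralClosureOmegaQ (K₀ := ↥ℚ⟮jG F₀⟯)
    (InstOddChart.polyAlgebraQ_injective F₀)

/-- the integral closure of `ℚ(ω)[X]` in `F₀(ω)` is torsion free -/
theorem isTorsionFree_integralClosureOmegaQ :
    letI := InstOddChart.polyAlgebraQ F₀
    haveI := fact_irreducible_omegaPoly F₀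
    Module.IsTorsionFree Komega[X] ↥(integralClosure Komega[X] (OmegaExt F)) := by
  letI := InstOddChart.polyAlgebraQ F₀
  haveI := fact_irreducible_omegaPoly F₀
  exact InstTwoGen.isTorsionFree_integralClosureOmegaQ (InstOddChart.polyAlgebraQ_injective F₀)

/-- **Normality of the special fibre of the finite chart of `F₀` at `ℓ = 2`** — from
`I : ChartInputs F₀ 2 d` and the three curve-side ramification facts (RAM) of
`integralClosure ℚ(ω)[X] F₀(ω)` (`X ↦ j`), in the literal shape of the hypotheses of helper12's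
`InstTwoGen.isIntegrallyClosed_tensor_two`. -/
theorem isIntegrallyClosed_tensor_chartAlgFin_two (I : ChartInputs F₀ 2 d)
    (hX :
      letI := InstOddChart.polyAlgebraQ F₀
      haveI := fact_irreducible_omegaPoly F₀
      haveI := isDedekindDomain_integralClosureOmegaQ F₀ I.deg.finite
      haveI := isTorsionFree_integralClosureOmegaQ F₀
      ∀ Q : Ideal ↥(integralClosure Komega[X] (OmegaExt F)), Q.IsPrime →
        algebraMap Komega[X] ↥(integralClosure Komega[X] (OmegaExt F)) X ∈ Q →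
        ramCount (X : Komega[X]) Q ∣ 3)
    (h1728 :
      letI := InstOddChart.polyAlgebraQ F₀
      haveI := fact_irreducible_omegaPoly F₀
      haveI := isDedekindDomain_integralClosureOmegaQ F₀ I.deg.finite
      haveI := isTorsionFree_integralClosureOmegaQ F₀
      ∀ Q : Ideal ↥(integralClosure Komega[X] (OmegaExt F)), Q.IsPrime →
        algebraMap Komega[X] ↥(integralClosure Komega[X] (OmegaExt F)) (X - C 1728) ∈ Q →
        ramCount (X - C 1728 : Komega[X]) Q ∣ 2)
    (hgen :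
      letI := InstOddChart.polyAlgebraQ F₀
      haveI := fact_irreducible_omegaPoly F₀
      haveI := isDedekindDomain_integralClosureOmegaQ F₀ I.deg.finite
      haveI := isTorsionFree_integralClosureOmegaQ F₀
      ∀ ϖ : Komega[X], Irreducible ϖ → ϖ.Monic → ϖ ≠ X → ϖ ≠ X - C 1728 →
        ∀ Q : Ideal ↥(integralClosure Komega[X] (OmegaExt F)), Q.IsPrime →
          algebraMap Komega[X] ↥(integralClosure Komega[X] (OmegaExt F)) ϖ ∈ Q →
          ramCount ϖ Q = 1)
    (k : Type*) [Field k] [IsAlgClosed k] [CharP k 2] [Algebra Ztwo k] :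
    IsIntegrallyClosed (↥(chartAlgFin F₀ 2) ⊗[Ztwo] k) := by
  classical
  haveI := fact_irreducible_omegaPoly F₀
  letI aF : Algebra Ztwo[X] F := InstOddChart.polyAlgebraZ F₀ 2
  haveI tF : IsScalarTower Ztwo Ztwo[X] F := InstOddChart.polyAlgebraZ_isScalarTower F₀ 2
  letI aFQ : Algebra ℚ[X] F := InstOddChart.polyAlgebraQ F₀
  letI aK₀ : Algebra ℚ[X] ↥ℚ⟮jG F₀⟯ := InstOddChart.polyAlgebraQj F₀
  haveI tK₀ : IsScalarTower ℚ[X] ↥ℚ⟮jG F₀⟯ F := InstOddChart.polyAlgebraQj_isScalarTower F₀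
  haveI fK₀ : IsFractionRing ℚ[X] ↥ℚ⟮jG F₀⟯ := InstOddChart.polyAlgebraQj_isFractionRing F₀
  haveI fdF : FiniteDimensional ↥ℚ⟮jG F₀⟯ F := I.deg.finite
  haveI locQ : IsLocalization.Away (zlPrime 2) ℚ := isLocalization_away_zlPrime_rat 2
  letI aK₀' : Algebra Ztwo[X] ↥ℚ⟮jG F₀⟯ :=
    ((algebraMap ℚ[X] ↥ℚ⟮jG F₀⟯).comp (mapRingHom (algebraMap Ztwo ℚ))).toAlgebra
  haveI fK₀' : IsFractionRing Ztwo[X] ↥ℚ⟮jG F₀⟯ :=
    H2C.isFractionRing_poly_of_away (K := ℚ) (zlPrime 2) ↥ℚ⟮jG F₀⟯ fun _ => rfl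
  haveI tK₀' : IsScalarTower Ztwo[X] ↥ℚ⟮jG F₀⟯ F := .of_algebraMap_eq fun q => by
    show algebraMap Ztwo[X] F q =
      algebraMap ↥ℚ⟮jG F₀⟯ F (algebraMap ℚ[X] ↥ℚ⟮jG F₀⟯ (q.map (algebraMap Ztwo ℚ)))
    rw [← IsScalarTower.algebraMap_apply ℚ[X] ↥ℚ⟮jG F₀⟯ F, InstOddChart.polyAlgebraQ_map]
  -- (H1)
  obtain ⟨b, -, hbmem, d0, hd, hpd⟩ :=
    S28X.exists_basis_discr_fin F₀ 2 I (fun _ => rfl) ↥ℚ⟮jG F₀⟯
  have hb : ∀ i, IsIntegral Ztwo[X] (b i) := fun i =>
    (InstOddChart.mem_chartAlgFin_iff_isIntegral_poly F₀ 2 _).mp (hbmem i)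
  -- (D)
  haveI dom : IsDomain (↥(chartAlgFin F₀ 2) ⊗[Ztwo] k) := S28X.isDomain_tensor_fin F₀ 2 I k
  let bQ : Module.Basis (Fin d) ↥ℚ⟮jG F₀⟯ F := b
  exact InstTwoGen.isIntegrallyClosed_tensor_two
    (K₀ := ↥ℚ⟮jG F₀⟯) (Kz := ↥ℚ⟮jG F₀⟯)
    (InstOddChart.polyAlgebraQ_injective F₀) (InstOddChart.polyAlgebraZ_injective F₀ 2)
    (InstOddChart.polyAlgebraQ_map F₀ 2)
    (chartAlgFin F₀ 2) (InstOddChart.mem_chartAlgFin_iff_isIntegral_poly F₀ 2) k b hb d0 hd hpd bQ
    hX h1728 hgen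

/-- **The same from helper12's place-level package (RAM) `RamGen.JRamData Kc x W`** on any
function field `Fc / Kc` (`Kc` algebraically closed and algebraic over `ℚ`) receiving `F₀` by a
ring homomorphism `θ` with `θ j = x` — same shape as
`InstOddChart.isIntegrallyClosed_tensor_chartAlgFin_of_jRamData`. -/
theorem isIntegrallyClosed_tensor_chartAlgFin_two_of_jRamData (I : ChartInputs F₀ 2 d)
    {Kc Fc : Type*} [Field Kc] [Field Fc] [Algebra Kc Fc] [CharZero Kc]
    [Algebra.IsAlgebraic ℚ Kc] [IsAlgClosed Kc] {x : Fc} {W : ℕ}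
    (R : RamGen.JRamData Kc x W) (θ : F →+* Fc) (hθ : θ (jG F₀) = x)
    (k : Type*) [Field k] [IsAlgClosed k] [CharP k 2] [Algebra Ztwo k] :
    IsIntegrallyClosed (↥(chartAlgFin F₀ 2) ⊗[Ztwo] k) := by
  classical
  letI aFQ : Algebra ℚ[X] F := InstOddChart.polyAlgebraQ F₀
  haveI := fact_irreducible_omegaPoly F₀
  haveI dd : IsDedekindDomain ↥(integralClosure Komega[X] (OmegaExt F)) :=
    isDedekindDomain_integralClosureOmegaQ F₀ I.deg.finite
  haveI tf : Module.IsTorsionFree Komega[X] ↥(integralClosure Komega[X] (OmegaExt F)) :=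
    isTorsionFree_integralClosureOmegaQ F₀
  -- a primitive cube root of unity in `Kc`
  obtain ⟨ζ, hζ⟩ : ∃ z : Kc, z ^ 2 + z + 1 = 0 := by
    obtain ⟨z, hz⟩ := IsAlgClosed.exists_root (omegaPoly Kc) (by
      rw [degree_eq_natDegree (omegaPoly_monic Kc).ne_zero, omegaPoly_natDegree]; norm_num)
    refine ⟨z, ?_⟩
    unfold omegaPoly at hz
    simpa [IsRoot.def] using hz
  have hθp : ∀ g : ℚ[X], θ (algebraMap ℚ[X] F g) = aeval x (g.map (algebraMap ℚ Kc)) := by
    intro g
    show θ (Polynomial.aeval (jG F₀) g) = _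
    rw [Polynomial.aeval_def, Polynomial.hom_eval₂, hθ, Polynomial.aeval_def,
      Polynomial.eval₂_map]
    congr 1
    exact Subsingleton.elim _ _
  let ι : ↥(integralClosure Komega[X] (OmegaExt F)) →+* Fc :=
    (omegaLift θ ζ hζ).comp (algebraMap ↥(integralClosure Komega[X] (OmegaExt F)) (OmegaExt F))
  have hι : Function.Injective ι :=
    (omegaLift_injective θ ζ hζ).comp Subtype.val_injective
  have hιp : ∀ g : Komega[X],
      ι (algebraMap Komega[X] ↥(integralClosure Komega[X] (OmegaExt F)) g) =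
        aeval x (g.map (sigmaOf ζ hζ)) := by
    intro g
    show omegaLift θ ζ hζ (algebraMap ↥(integralClosure Komega[X] (OmegaExt F)) (OmegaExt F)
      (algebraMap Komega[X] ↥(integralClosure Komega[X] (OmegaExt F)) g)) = _
    rw [← IsScalarTower.algebraMap_apply]
    exact omegaLift_algebraMap_poly θ ζ hζ hθp g
  exact isIntegrallyClosed_tensor_chartAlgFin_two F₀ I
    (RamGen.ramCount_X_dvd_three R (sigmaOf ζ hζ) ι hι hιp)
    (RamGen.ramCount_X_sub_dvd_two R (sigmaOf ζ hζ) ι hι hιp)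
    (RamGen.ramCount_generic_eq_one R (sigmaOf ζ hζ) ι hι hιp) k

end Final

/-! ### All primes at once -/

section All

variable (F₀ : IntermediateField ℚ (LaurentSeries ℚ)) [hjF : Fact (jq ∈ F₀)]
  (ℓ : ℕ) [Fact ℓ.Prime] {d : ℕ}

/-- **G-1, every prime `ℓ`**: `ChartInputs F₀ ℓ d` + place-level (RAM) ⇒ the special fibre of the
finite chart is integrally closed. -/
theorem isIntegrallyClosed_tensor_chartAlgFin_all (I : ChartInputs F₀ ℓ d)
    {Kc Fc : Type*} [Field Kc] [Field Fc] [Algebra Kc Fc] [CharZero Kc]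
    [Algebra.IsAlgebraic ℚ Kc] [IsAlgClosed Kc] {x : Fc} {W : ℕ}
    (R : RamGen.JRamData Kc x W) (θ : ↥F₀ →+* Fc) (hθ : θ (jG F₀) = x)
    (k : Type*) [Field k] [IsAlgClosed k] [CharP k ℓ] [Algebra ↥(GaloisRep.ratLocalizedAt ℓ) k] :
    IsIntegrallyClosed (↥(chartAlgFin F₀ ℓ) ⊗[↥(GaloisRep.ratLocalizedAt ℓ)] k) := by
  by_cases hℓ2 : ℓ = 2
  · subst hℓ2
    exact isIntegrallyClosed_tensor_chartAlgFin_two_of_jRamData F₀ I R θ hθ k
  · exact InstOddChart.isIntegrallyClosed_tensor_chartAlgFin_of_jRamData F₀ ℓ I hℓ2 R θ hθ k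

end All

end Fermat.Agent.DS.X1.Good.InstTwoChart
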