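import Mathlib
import Fermat.Agent.DS.X1.Good.BridgeHonest
import Fermat.Agent.DS.J1Spec.Unramified
import Fermat.Agent.DS.Good.CuspQuotInstH7
import Fermat.Agent.DS.Good.NormalInf
import Fermat.Agent.DS.X1.Good.InstTwoChart
import Fermat.Agent.DS.X1.Good.RamGenBar
import Fermat.Agent.Good.ResidueAlgebra

/-!
# PROGRAMME III, X1-GOOD, leaf G-4 (final assembly, helper6): GOOD REDUCTION of `F₀ ⊗ ℚ̄` at `A`

`F₀ ⊂ ℚ((q))` a field of modular functions containing `j`, `A` a valuation subring of `ℚ̄` over the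
prime `ℓ`, `k = ResidueField A`.  Assembly of

* G-4 bridge (helper12, `BridgeHonest.exists_goodReduction_of_chartInputs`);
* G-1, every prime (helper14, `InstTwoChart.isIntegrallyClosed_tensor_chartAlgFin_all`);
* G-2 (helper7/helper8/helper21: `NormalInf.isIntegrallyClosed_tensor_inf_of`,
  `CuspInstH7.isIntegrallyClosed_tensor_infC`);

into helper5's interface `J1Spec.GoodReductionAt F₀ A`.  INPUTS: chart inputs
`I : Chart.ChartInputs F₀ ℓ d` (X1-IRR / X1-IG) and the place-level ramification data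
`R : RamGen.JRamData ℚ̄ (toBar F₀ j) e` (AN-6), with `ℓ ∤ e`.  No normality hypothesis, no parity
hypothesis.

* `isIntegrallyClosed_tensor_fin_of_jRamData`, `isIntegrallyClosed_tensor_inf_of_jRamData`;
* `exists_goodReduction_of_jRamData` (with `D.xF = j`), `goodReductionAt_of_jRamData`.
-/

set_option autoImplicit false
set_option linter.unusedSectionVars false
set_option linter.style.haveILetI false

open ModularCurve IntermediateField AlgebraicCurve TensorProduct IsLocalRing
open Fermat.Agent.Igusa Fermat.Agent.Val Fermat.Agent.DS.Chart Fermat.Agent.X0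
open Fermat.Agent.DS.X1.Good.BridgeGen Fermat.Agent.DS.J1Spec Fermat.Agent.DS.X1.Good.RamGenBar

noncomputable section
namespace Fermat.Agent.DS.X1.Good.GoodFinal

set_option synthInstance.maxHeartbeats 400000

variable {F₀ : IntermediateField ℚ (LaurentSeries ℚ)} [hjF : Fact (jq ∈ F₀)]
  {ℓ : ℕ} [hℓ : Fact ℓ.Prime] {d e : ℕ} [NeZero e]

set_option quotPrecheck false in
local notation "ℤℓ" => ↥(GaloisRep.ratLocalizedAt ℓ)

section AnyField

variable (k : Type*) [Field k] [IsAlgClosed k] [CharP k ℓ] [Algebra (GaloisRep.ratLocalizedAt ℓ) k]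

/-- **G-1 for every prime**, in the vocabulary of `toBar`. -/
theorem isIntegrallyClosed_tensor_fin_of_jRamData (I : ChartInputs F₀ ℓ d)
    (R : RamGen.JRamData Kb (toBar F₀ (jG F₀)) e) :
    IsIntegrallyClosed (↥(chartAlgFin F₀ ℓ) ⊗[ℤℓ] k) := by
  haveI : Algebra.IsAlgebraic ℚ Kb := AlgebraicClosure.isAlgebraic ℚ
  exact InstTwoChart.isIntegrallyClosed_tensor_chartAlgFin_all F₀ ℓ I R (toBar F₀) rfl k

/-- **G-2: normality of the special fibre of the chart at infinity**, `ℓ ∤ e`. -/
theorem isIntegrallyClosed_tensor_inf_of_jRamData (hℓe : ¬ ℓ ∣ e) (I : ChartInputs F₀ ℓ d)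
    (R : RamGen.JRamData Kb (toBar F₀ (jG F₀)) e) :
    IsIntegrallyClosed (↥(chartAlgInf F₀ ℓ) ⊗[ℤℓ] k) :=
  Fermat.Agent.DS.Good.NormalInf.isIntegrallyClosed_tensor_inf_of F₀ ℓ I k
    (isIntegrallyClosed_tensor_fin_of_jRamData k I R)
    (Fermat.Agent.DS.Good.CuspInstH7.isIntegrallyClosed_tensor_infC F₀ e ℓ hℓe I R k)

end AnyField

variable (A : ValuationSubring (AlgebraicClosure ℚ)) (hA : A.LiesOverPrime ℓ)

include hA in
/-- **Good reduction of `ℚ̄ · F₀` at `A`** (with `D.xF = j`), from chart inputs and the place-level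
ramification data of `j`; `ℓ ∤ e`. -/
theorem exists_goodReduction_of_jRamData (hℓe : ¬ ℓ ∣ e) (I : ChartInputs F₀ ℓ d)
    (R : RamGen.JRamData Kb (toBar F₀ (jG F₀)) e) :
    ∃ (Ft : IntermediateField (ResidueField A) (LaurentSeries (ResidueField A))) (n : ℕ)
      (D : OrthoData A (residue A) (laurentBaseChange (AlgebraicClosure ℚ) F₀) Ft n),
      (∀ (τ : ResidueField A →+* ResidueField A) (x : LaurentSeries (ResidueField A)),
        x ∈ Ft → coeffMap τ x ∈ Ft) ∧
      Fermat.Agent.Red.RiemannPkg (ResidueField A) Ft ∧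
      genusFF (ResidueField A) Ft =
        genusFF (AlgebraicClosure ℚ) (laurentBaseChange (AlgebraicClosure ℚ) F₀) ∧
      D.xF = embL (AlgebraicClosure ℚ) F₀ (jG F₀) := by
  letI : Algebra ℤℓ (ResidueField A) := Fermat.Agent.Good.ResAlg.zlAlgebra A hA
  haveI : CharP (ResidueField A) ℓ := Val.charP_residueField_of_liesOverPrime A hA
  haveI : IsAlgClosed (ResidueField A) := Val.residueField_isAlgClosed A
  exact exists_goodReduction_of_chartInputs A hA I
    (isIntegrallyClosed_tensor_fin_of_jRamData (ResidueField A) I R)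
    (isIntegrallyClosed_tensor_inf_of_jRamData (ResidueField A) hℓe I R)

include hA in
/-- **helper5's interface**: `GoodReductionAt F₀ A`. -/
theorem goodReductionAt_of_jRamData (hℓe : ¬ ℓ ∣ e) (I : ChartInputs F₀ ℓ d)
    (R : RamGen.JRamData Kb (toBar F₀ (jG F₀)) e) : GoodReductionAt F₀ A := by
  obtain ⟨Ft, n, D, h1, h2, h3, -⟩ := exists_goodReduction_of_jRamData A hA hℓe I R
  exact ⟨Ft, n, D, h1, h2, h3⟩

end Fermat.Agent.DS.X1.Good.GoodFinal
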