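import Mathlib
import Fermat.Agent.DS.X1.Good.GoodFinal
import Fermat.Agent.DS.X1.K1Places
import Fermat.Agent.DS.X1.K1ToBar

/-!
# PROGRAMME III, X1-GOOD (helper6): GOOD REDUCTION of `X₁(M)` at every `A ∣ ℓ`, `ℓ ∤ M`

`GoodFinal.exists_goodReduction_of_jRamData` at `F₀ = K1 M`, `e = M`, with the place-level
ramification data `jRamData_K1Bar D hM` of AN-6 (`DS/X1/K1Places.lean`).  The ONLY inputs are

* `D : WeberCuspData M` (leaf AN-1b: the analytic Weber functions), and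
* `I : Chart.ChartInputs (K1 M) ℓ d` (X1-IRR / X1-IG: integrality and full residue degree at `ℓ`).

* `exists_goodReduction_K1` (with `D.xF = j`, the shape of `ES.GoodReductionAtJ`);
* `goodReductionAt_K1 : J1Spec.GoodReductionAt (K1 M) A`;
* `inertia_smul_eq_K1` : the prime-to-`ℓ` torsion of `J₁(M)` is unramified at `ℓ ∤ M`.
-/

set_option autoImplicit false
set_option linter.unusedSectionVars false
set_option linter.style.haveILetI false

open ModularCurve IntermediateField AlgebraicCurve IsLocalRing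
open Fermat.Agent.Val Fermat.Agent.DS.Chart Fermat.Agent.X0
open Fermat.Agent.DS.X1.Good.BridgeGen Fermat.Agent.DS.J1Spec Fermat.Agent.DS.X1.Good.GoodFinal

noncomputable section
namespace Fermat.Agent.DS.X1.Good.GoodK1

set_option synthInstance.maxHeartbeats 400000

variable {M : ℕ} [NeZero M] {ℓ : ℕ} [hℓ : Fact ℓ.Prime] {d : ℕ}
  (A : ValuationSubring (AlgebraicClosure ℚ)) (hA : A.LiesOverPrime ℓ)

/-- the ramification data of `j` on `K1Bar M` in the `toBar` vocabulary -/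
theorem jRamData_toBar_K1 (D : WeberCuspData M) (hM : 2 ≤ M) :
    RamGen.JRamData Kb (RamGenBar.toBar (K1 M) (jG (K1 M))) M :=
  jRamData_K1Bar D hM

include hA in
/-- **Good reduction of `X₁(M)` at `A ∣ ℓ`, `ℓ ∤ M`** (with `D.xF = j`). -/
theorem exists_goodReduction_K1 (D : WeberCuspData M) (hM : 2 ≤ M) (hℓM : ¬ ℓ ∣ M)
    (I : ChartInputs (K1 M) ℓ d) :
    ∃ (Ft : IntermediateField (ResidueField A) (LaurentSeries (ResidueField A))) (n : ℕ)
      (D' : OrthoData A (residue A) (laurentBaseChange (AlgebraicClosure ℚ) (K1 M)) Ft n),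
      (∀ (τ : ResidueField A →+* ResidueField A) (x : LaurentSeries (ResidueField A)),
        x ∈ Ft → coeffMap τ x ∈ Ft) ∧
      Fermat.Agent.Red.RiemannPkg (ResidueField A) Ft ∧
      genusFF (ResidueField A) Ft =
        genusFF (AlgebraicClosure ℚ) (laurentBaseChange (AlgebraicClosure ℚ) (K1 M)) ∧
      D'.xF = embL (AlgebraicClosure ℚ) (K1 M) (jG (K1 M)) :=
  exists_goodReduction_of_jRamData A hA hℓM I (jRamData_toBar_K1 D hM)

include hA in
/-- **helper5's interface for `F₀ = K1 M`.** -/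
theorem goodReductionAt_K1 (D : WeberCuspData M) (hM : 2 ≤ M) (hℓM : ¬ ℓ ∣ M)
    (I : ChartInputs (K1 M) ℓ d) : GoodReductionAt (K1 M) A :=
  goodReductionAt_of_jRamData A hA hℓM I (jRamData_toBar_K1 D hM)

/-- `embL ℚ̄ (K1 M) j = jBar1 M` -/
theorem embL_jG_K1 : embL (AlgebraicClosure ℚ) (K1 M) (jG (K1 M)) = jBar1 M := rfl

include hA in
/-- **The prime-to-`ℓ` torsion of `J₁(M)(ℚ̄)` is unramified at `ℓ ∤ M`** (kernel `KUnr`). -/
theorem inertia_smul_eq_K1 (D : WeberCuspData M) (hM : 3 ≤ M) (hℓM : ¬ ℓ ∣ M)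
    (I : ChartInputs (K1 M) ℓ d)
    (σ : AlgebraicClosure ℚ ≃ₐ[ℚ] AlgebraicClosure ℚ) (hσ : σ ∈ A.inertiaSubgroupIn ℚ)
    (m : ℕ) (hm : m.Coprime ℓ) (x : JOne M) (hx : m • x = 0) : σ • x = x :=
  inertia_smul_eq_of_goodReduction hA (riemannPkg_K1Bar_of_data D hM)
    (goodReductionAt_K1 A hA D (by omega) hℓM I) σ hσ m hm x hx

end Fermat.Agent.DS.X1.Good.GoodK1
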